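import Fermat.Agent.LT.H3.Basic

/-!
# The invariant measure on hyperbolic 3-space

`volume` on `H3` is `dz dy / y ^ 3`; it is invariant under `GL (Fin 2) ℂ`.
-/

open Complex MeasureTheory
open scoped ComplexConjugate MatrixGroups Topology ENNReal Pointwise

namespace Fermat.Agent.LT

namespace H3

noncomputable section

instance : MeasurableSpace H3 := inferInstanceAs (MeasurableSpace {p : ℂ × ℝ // 0 < p.2})

instance : BorelSpace H3 := inferInstanceAs (BorelSpace {p : ℂ × ℝ // 0 < p.2})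

theorem measurableEmbedding_coe : MeasurableEmbedding coe :=
  isOpenEmbedding_coe.measurableEmbedding

theorem measurable_coe : Measurable coe := measurableEmbedding_coe.measurable

@[fun_prop] theorem measurable_z : Measurable z := continuous_z.measurable

@[fun_prop] theorem measurable_y : Measurable y := continuous_y.measurable

theorem measurable_iff {X : Type*} [MeasurableSpace X] {f : X → H3} :
    Measurable f ↔ Measurable (fun x => (f x).z) ∧ Measurable (fun x => (f x).y) := by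
  refine ⟨fun h => ⟨measurable_z.comp h, measurable_y.comp h⟩, fun h => ?_⟩
  exact measurableEmbedding_coe.measurable_comp_iff.mp (h.1.prodMk h.2)

theorem measurableSet_half : MeasurableSet {p : ℂ × ℝ | 0 < p.2} :=
  measurableSet_lt measurable_const measurable_snd

theorem z_ofPair (p : ℂ × ℝ) : (ofPair p).z = if 0 < p.2 then p.1 else 0 := by
  unfold ofPair
  split_ifs <;> rfl

theorem y_ofPair (p : ℂ × ℝ) : (ofPair p).y = if 0 < p.2 then p.2 else 1 := by
  unfold ofPair
  split_ifs <;> rfl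

theorem measurable_ofPair : Measurable ofPair := by
  refine measurable_iff.mpr ⟨?_, ?_⟩
  · simp only [z_ofPair]
    exact Measurable.ite measurableSet_half measurable_fst measurable_const
  · simp only [y_ofPair]
    exact Measurable.ite measurableSet_half measurable_snd measurable_const

/-- The invariant measure `dz dy / y ^ 3`. -/
instance : MeasureSpace H3 :=
  ⟨(volume.comap coe).withDensity fun P => ENNReal.ofReal ((P.y ^ 3)⁻¹)⟩

theorem volume_def : (volume : Measure H3) =
    (volume.comap coe).withDensity fun P => ENNReal.ofReal ((P.y ^ 3)⁻¹) := rfl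

theorem measurable_density : Measurable fun P : H3 => ENNReal.ofReal ((P.y ^ 3)⁻¹) :=
  ENNReal.measurable_ofReal.comp (measurable_y.pow_const 3).inv

theorem lintegral_eq {f : H3 → ℝ≥0∞} (hf : Measurable f) :
    ∫⁻ P, f P = ∫⁻ p in {p : ℂ × ℝ | 0 < p.2}, ENNReal.ofReal ((p.2 ^ 3)⁻¹) * f (ofPair p) := by
  have h : MeasurePreserving coe (volume.comap coe)
      ((volume : Measure (ℂ × ℝ)).restrict (Set.range coe)) :=
    ⟨measurable_coe, by rw [measurableEmbedding_coe.map_comap]⟩
  rw [volume_def, lintegral_withDensity_eq_lintegral_mul _ measurable_density hf, ← range_coe,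
    ← h.lintegral_comp_emb measurableEmbedding_coe]
  simp only [Pi.mul_apply, coe_snd, ofPair_coe]

theorem volume_eq_lintegral {s : Set H3} (hs : MeasurableSet s) :
    volume s = ∫⁻ p in coe '' s, ENNReal.ofReal ((p.2 ^ 3)⁻¹) := by
  have h : MeasurePreserving coe (volume.comap coe)
      ((volume : Measure (ℂ × ℝ)).restrict (Set.range coe)) :=
    ⟨measurable_coe, by rw [measurableEmbedding_coe.map_comap]⟩
  rw [volume_def, withDensity_apply _ hs,
    ← Set.inter_eq_self_of_subset_left (Set.image_subset_range coe s),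
    ← Measure.restrict_restrict' measurableEmbedding_coe.measurableSet_range,
    ← h.setLIntegral_comp_emb measurableEmbedding_coe]
  simp only [coe_snd]

/-- The abstract change of variables for one group element. -/
theorem volume_smul_aux (g : GL (Fin 2) ℂ) (Φ : ℂ × ℝ → ℂ × ℝ)
    (Φ' : ℂ × ℝ → (ℂ × ℝ →L[ℝ] ℂ × ℝ)) (hΦ : ∀ P : H3, coe (g • P) = Φ (coe P))
    (hd : ∀ P : H3, HasFDerivAt Φ (Φ' (coe P)) (coe P))
    (hdet : ∀ P : H3, |(Φ' (coe P)).det| * ((g • P).y ^ 3)⁻¹ = (P.y ^ 3)⁻¹)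
    (s : Set H3) (hs : MeasurableSet s) : volume (g • s) = volume s := by
  have : (volume : Measure (ℂ × ℝ)).IsAddHaarMeasure :=
    Measure.prod.instIsAddHaarMeasure volume volume
  have hgs : MeasurableSet (g • s) := hs.const_smul g
  have himg : coe '' (g • s) = Φ '' (coe '' s) := by
    rw [← Set.image_smul, Set.image_image, Set.image_image]
    exact Set.image_congr fun P _ => hΦ P
  have hinj : Set.InjOn Φ (coe '' s) := by
    rintro _ ⟨P, -, rfl⟩ _ ⟨Q, -, rfl⟩ h
    rw [← hΦ, ← hΦ] at h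
    rw [MulAction.injective g (coe_injective h)]
  rw [volume_eq_lintegral hgs, volume_eq_lintegral hs, himg,
    lintegral_image_eq_lintegral_abs_det_fderiv_mul volume
      (measurableEmbedding_coe.measurableSet_image.mpr hs)
      (Set.forall_mem_image.mpr fun P _ => (hd P).hasFDerivWithinAt) hinj]
  refine setLIntegral_congr_fun (measurableEmbedding_coe.measurableSet_image.mpr hs) ?_
  rintro _ ⟨P, -, rfl⟩
  simp only
  rw [← hΦ, coe_snd, coe_snd, ← ENNReal.ofReal_mul (abs_nonneg _), hdet]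

theorem volume_ut_smul (a b d : ℂ) (ha : a ≠ 0) (hd : d ≠ 0) (s : Set H3)
    (hs : MeasurableSet s) : volume (ut a b d ha hd • s) = volume s := by
  have hc : a / d ≠ 0 := div_ne_zero ha hd
  refine volume_smul_aux _ (fun p => (a / d * p.1 + b / d, ‖a / d‖ * p.2))
    (fun _ => (ContinuousLinearMap.mul ℝ ℂ (a / d)).prodMap
      (‖a / d‖ • ContinuousLinearMap.id ℝ ℝ)) ?_ ?_ ?_ s hs
  · intro P
    rw [coe_def, z_ut_smul, y_ut_smul, coe_def]
    congr 1
    ring
  · intro P
    have h1 : HasFDerivAt (fun x : ℂ => a / d * x + b / d)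
        (ContinuousLinearMap.mul ℝ ℂ (a / d)) (coe P).1 :=
      (ContinuousLinearMap.mul ℝ ℂ (a / d)).hasFDerivAt.add_const (b / d)
    have h2 : HasFDerivAt (fun x : ℝ => ‖a / d‖ * x)
        (‖a / d‖ • ContinuousLinearMap.id ℝ ℝ) (coe P).2 :=
      (‖a / d‖ • ContinuousLinearMap.id ℝ ℝ).hasFDerivAt
    exact h1.prodMap _ h2
  · intro P
    have hdet : ((ContinuousLinearMap.mul ℝ ℂ (a / d)).prodMap
        (‖a / d‖ • ContinuousLinearMap.id ℝ ℝ)).det = ‖a / d‖ ^ 3 := by
      have h1 : LinearMap.det ((ContinuousLinearMap.mul ℝ ℂ (a / d) : ℂ →L[ℝ] ℂ) : ℂ →ₗ[ℝ] ℂ) =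
          ‖a / d‖ ^ 2 := by
        rw [← normSq_eq_norm_sq, ← Algebra.norm_complex_apply, Algebra.norm_apply]
        rfl
      rw [ContinuousLinearMap.det]
      have h2 : (((ContinuousLinearMap.mul ℝ ℂ (a / d)).prodMap
          (‖a / d‖ • ContinuousLinearMap.id ℝ ℝ) : ℂ × ℝ →L[ℝ] ℂ × ℝ) : ℂ × ℝ →ₗ[ℝ] ℂ × ℝ) =
          LinearMap.prodMap ((ContinuousLinearMap.mul ℝ ℂ (a / d) : ℂ →L[ℝ] ℂ) : ℂ →ₗ[ℝ] ℂ)
            (‖a / d‖ • LinearMap.id) := rfl
      rw [h2, LinearMap.det_prodMap, h1, LinearMap.det_smul, LinearMap.det_id]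
      simp
      ring
    rw [hdet, y_ut_smul, abs_of_nonneg (by positivity)]
    have h1 : ‖a / d‖ ≠ 0 := norm_ne_zero_iff.mpr hc
    have h2 := P.y_ne
    field_simp

/-- The linear part of the inversion. -/
def invJ : ℂ × ℝ →L[ℝ] ℂ × ℝ :=
  (-(conjCLE : ℂ →L[ℝ] ℂ)).prodMap (ContinuousLinearMap.id ℝ ℝ)

theorem invJ_apply (p : ℂ × ℝ) : invJ p = (-conj p.1, p.2) := rfl

theorem abs_det_invJ : |invJ.det| = 1 := by
  have h1 : (invJ : ℂ × ℝ →ₗ[ℝ] ℂ × ℝ) ∘ₗ (invJ : ℂ × ℝ →ₗ[ℝ] ℂ × ℝ) = LinearMap.id := by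
    apply LinearMap.ext
    intro p
    simp [invJ_apply]
  have h2 := congrArg LinearMap.det h1
  rw [LinearMap.det_comp, LinearMap.det_id] at h2
  have h3 : invJ.det * invJ.det = 1 := h2
  rcases mul_self_eq_one_iff.mp h3 with h | h <;> rw [h] <;> simp

/-- The derivative of `|p|²`. -/
def dsq (p : ℂ × ℝ) : ℂ × ℝ →L[ℝ] ℝ :=
  (2 * p.1.re) • (reCLM.comp (ContinuousLinearMap.fst ℝ ℂ ℝ)) +
    (2 * p.1.im) • (imCLM.comp (ContinuousLinearMap.fst ℝ ℂ ℝ)) +
    (2 * p.2) • (ContinuousLinearMap.snd ℝ ℂ ℝ)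

theorem dsq_apply (p v : ℂ × ℝ) :
    dsq p v = 2 * p.1.re * v.1.re + 2 * p.1.im * v.1.im + 2 * p.2 * v.2 := rfl

theorem hasFDerivAt_sq (p : ℂ × ℝ) :
    HasFDerivAt (fun q : ℂ × ℝ => normSq q.1 + q.2 ^ 2) (dsq p) p := by
  have h1 : HasFDerivAt (fun q : ℂ × ℝ => q.1.re) (reCLM.comp (ContinuousLinearMap.fst ℝ ℂ ℝ)) p :=
    (reCLM.comp (ContinuousLinearMap.fst ℝ ℂ ℝ)).hasFDerivAt
  have h2 : HasFDerivAt (fun q : ℂ × ℝ => q.1.im) (imCLM.comp (ContinuousLinearMap.fst ℝ ℂ ℝ)) p :=
    (imCLM.comp (ContinuousLinearMap.fst ℝ ℂ ℝ)).hasFDerivAt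
  have h3 : HasFDerivAt (fun q : ℂ × ℝ => q.2) (ContinuousLinearMap.snd ℝ ℂ ℝ) p :=
    (ContinuousLinearMap.snd ℝ ℂ ℝ).hasFDerivAt
  have h4 := ((h1.mul h1).add (h2.mul h2)).add (h3.mul h3)
  have h5 : HasFDerivAt (fun q : ℂ × ℝ => normSq q.1 + q.2 ^ 2) _ p :=
    h4.congr_of_eventuallyEq (Filter.Eventually.of_forall fun q => by
      simp only [normSq_apply, Pi.add_apply, Pi.mul_apply]
      ring)
  refine h5.congr_fderiv ?_
  ext v <;> simp [dsq_apply] <;> ring

theorem volume_wl_smul (s : Set H3) (hs : MeasurableSet s) : volume (wl • s) = volume s := by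
  let r : ℂ × ℝ → ℝ := fun p => normSq p.1 + p.2 ^ 2
  have hr : ∀ P : H3, 0 < r (coe P) := fun P =>
    add_pos_of_nonneg_of_pos (normSq_nonneg _) (pow_pos P.y_pos 2)
  let φ : ℂ × ℝ → (ℂ × ℝ →L[ℝ] ℝ) := fun p => -(r p)⁻¹ • dsq p
  refine volume_smul_aux _ (fun p => (r p)⁻¹ • invJ p)
    (fun p => invJ.comp ((r p)⁻¹ • (ContinuousLinearMap.id ℝ (ℂ × ℝ) + (φ p).smulRight p)))
    ?_ ?_ ?_ s hs
  · intro P
    rw [coe_def, z_wl_smul, y_wl_smul, invJ_apply]
    simp only [r, coe_fst, coe_snd, Prod.smul_mk]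
    ext1
    · rw [real_smul]
      push_cast
      ring
    · rw [smul_eq_mul]
      ring
  · intro P
    have h1 : HasFDerivAt (fun p => (r p)⁻¹) (-((r (coe P)) ^ 2)⁻¹ • dsq (coe P)) (coe P) := by
      have := (hasFDerivAt_sq (coe P))
      have h2 := (hasDerivAt_inv (hr P).ne').comp_hasFDerivAt (coe P) this
      exact h2
    have h2 : HasFDerivAt (fun p => invJ p) invJ (coe P) := invJ.hasFDerivAt
    have h3 := h1.smul h2
    refine h3.congr_fderiv ?_
    apply ContinuousLinearMap.ext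
    intro v
    have hr' := (hr P).ne'
    simp only [_root_.add_apply, _root_.smul_apply,
      ContinuousLinearMap.smulRight_apply, ContinuousLinearMap.comp_apply, map_smul, map_add,
      ContinuousLinearMap.id_apply, φ, smul_add, smul_smul, smul_eq_mul]
    congr 2
    field_simp
  · intro P
    have hr' := (hr P).ne'
    have hdet : (invJ.comp ((r (coe P))⁻¹ • (ContinuousLinearMap.id ℝ (ℂ × ℝ) +
        (φ (coe P)).smulRight (coe P)))).det = -(invJ.det * ((r (coe P))⁻¹) ^ 3) := by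
      rw [ContinuousLinearMap.det]
      have h2 : ((invJ.comp ((r (coe P))⁻¹ • (ContinuousLinearMap.id ℝ (ℂ × ℝ) +
          (φ (coe P)).smulRight (coe P))) : ℂ × ℝ →L[ℝ] ℂ × ℝ) : ℂ × ℝ →ₗ[ℝ] ℂ × ℝ) =
          (invJ : ℂ × ℝ →ₗ[ℝ] ℂ × ℝ) ∘ₗ ((r (coe P))⁻¹ •
            LinearMap.transvection ((φ (coe P) : ℂ × ℝ →ₗ[ℝ] ℝ)) (coe P)) := rfl
      rw [h2, LinearMap.det_comp, LinearMap.det_smul, LinearMap.transvection.det]
      have h3 : (φ (coe P) : ℂ × ℝ →ₗ[ℝ] ℝ) (coe P) = -2 := by
        change -(r (coe P))⁻¹ * dsq (coe P) (coe P) = -2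
        rw [dsq_apply]
        have : r (coe P) = (coe P).1.re * (coe P).1.re + (coe P).1.im * (coe P).1.im +
          (coe P).2 ^ 2 := by simp only [r, normSq_apply]
        field_simp
        rw [this]
        ring
      rw [h3]
      simp
      rw [ContinuousLinearMap.det]
      ring
    rw [hdet, abs_neg, abs_mul, abs_det_invJ, one_mul, y_wl_smul]
    have h1 : normSq P.z + P.y ^ 2 = r (coe P) := rfl
    rw [h1, abs_of_pos (by have := hr P; positivity)]
    have h2 := P.y_ne
    field_simp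

theorem volume_smul (g : GL (Fin 2) ℂ) (s : Set H3) (hs : MeasurableSet s) :
    volume (g • s) = volume s := by
  revert s
  refine gl_induction (p := fun g => ∀ s : Set H3, MeasurableSet s → volume (g • s) = volume s)
    (fun a b d ha hd s hs => volume_ut_smul a b d ha hd s hs)
    (fun s hs => volume_wl_smul s hs) (fun g h hg hh s hs => ?_) g
  rw [mul_smul, hg _ (hs.const_smul h), hh _ hs]

instance : SMulInvariantMeasure (GL (Fin 2) ℂ) H3 volume :=
  ((smulInvariantMeasure_tfae _ _).out 2 0).mp fun g s hs => volume_smul g s hs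

/-! ### Integration formulas -/

instance : IsFiniteMeasureOnCompacts ((volume : Measure (ℂ × ℝ)).comap coe) :=
  .comap' _ continuous_coe measurableEmbedding_coe

instance : IsLocallyFiniteMeasure (volume : Measure H3) := by
  rw [volume_def]
  refine IsLocallyFiniteMeasure.withDensity_ofReal ?_
  exact (continuous_y.pow 3).inv₀ fun P => pow_ne_zero 3 P.y_ne

instance : IsFiniteMeasureOnCompacts (volume : Measure H3) := inferInstance

instance : SigmaFinite (volume : Measure H3) := inferInstance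

instance : (volume : Measure H3).Regular := inferInstance

theorem measurePreserving_smul' (g : GL (Fin 2) ℂ) :
    MeasurePreserving (fun P : H3 => g • P) volume volume := measurePreserving_smul g volume

theorem integral_smul_eq {E : Type*} [NormedAddCommGroup E] [NormedSpace ℝ E] (f : H3 → E)
    (g : GL (Fin 2) ℂ) : ∫ P, f (g • P) = ∫ P, f P := integral_smul_eq_self f

theorem lintegral_smul_eq (f : H3 → ℝ≥0∞) (g : GL (Fin 2) ℂ) :
    ∫⁻ P, f (g • P) = ∫⁻ P, f P :=
  (measurePreserving_smul g volume).lintegral_comp_emb (measurableEmbedding_const_smul g) f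

theorem measurable_toNNReal_density : Measurable fun P : H3 => Real.toNNReal ((P.y ^ 3)⁻¹) :=
  measurable_real_toNNReal.comp (measurable_y.pow_const 3).inv

/-- Integration over `H3` as an integral over the half space. -/
theorem integral_eq {E : Type*} [NormedAddCommGroup E] [NormedSpace ℝ E] (f : H3 → E) :
    ∫ P, f P = ∫ p in {p : ℂ × ℝ | 0 < p.2}, (p.2 ^ 3)⁻¹ • f (ofPair p) := by
  have h : MeasurePreserving coe (volume.comap coe)
      ((volume : Measure (ℂ × ℝ)).restrict (Set.range coe)) :=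
    ⟨measurable_coe, by rw [measurableEmbedding_coe.map_comap]⟩
  have h1 : (fun P : H3 => ENNReal.ofReal ((P.y ^ 3)⁻¹)) =
      fun P : H3 => ((Real.toNNReal ((P.y ^ 3)⁻¹) : NNReal) : ℝ≥0∞) := rfl
  rw [volume_def, h1, integral_withDensity_eq_integral_smul measurable_toNNReal_density, ← range_coe,
    ← h.integral_comp measurableEmbedding_coe]
  refine integral_congr_ae (Filter.Eventually.of_forall fun P => ?_)
  simp only [coe_snd, ofPair_coe]
  rw [NNReal.smul_def, Real.coe_toNNReal _ (inv_nonneg.mpr (pow_nonneg P.y_pos.le 3))]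

theorem integrable_iff {E : Type*} [NormedAddCommGroup E] [NormedSpace ℝ E] (f : H3 → E) :
    Integrable f ↔
      IntegrableOn (fun p : ℂ × ℝ => (p.2 ^ 3)⁻¹ • f (ofPair p)) {p : ℂ × ℝ | 0 < p.2} := by
  have h : MeasurePreserving coe (volume.comap coe)
      ((volume : Measure (ℂ × ℝ)).restrict (Set.range coe)) :=
    ⟨measurable_coe, by rw [measurableEmbedding_coe.map_comap]⟩
  have h1 : (fun P : H3 => ENNReal.ofReal ((P.y ^ 3)⁻¹)) =
      fun P : H3 => ((Real.toNNReal ((P.y ^ 3)⁻¹) : NNReal) : ℝ≥0∞) := rfl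
  rw [volume_def, h1, integrable_withDensity_iff_integrable_smul measurable_toNNReal_density, ← range_coe,
    IntegrableOn,
    ← h.integrable_comp_emb measurableEmbedding_coe]
  refine integrable_congr (Filter.Eventually.of_forall fun P => ?_)
  simp only [coe_snd, ofPair_coe, Function.comp_apply]
  rw [NNReal.smul_def, Real.coe_toNNReal _ (inv_nonneg.mpr (pow_nonneg P.y_pos.le 3))]

/-- The half space is a product. -/
theorem half_eq : {p : ℂ × ℝ | 0 < p.2} = Set.univ ×ˢ Set.Ioi 0 := by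
  ext p
  simp

/-- Iterated integral, horizontal integration inside. -/
theorem integral_eq_iterated {E : Type*} [NormedAddCommGroup E] [NormedSpace ℝ E]
    {f : H3 → E} (hf : Integrable f) :
    ∫ P, f P = ∫ y in Set.Ioi (0 : ℝ), (y ^ 3)⁻¹ • ∫ z : ℂ, f (ofPair (z, y)) := by
  rw [integrable_iff, half_eq, IntegrableOn, Measure.volume_eq_prod,
    ← Measure.prod_restrict] at hf
  rw [integral_eq, half_eq, Measure.volume_eq_prod, ← Measure.prod_restrict,
    integral_prod_symm _ hf, Measure.restrict_univ]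
  refine integral_congr_ae (Filter.Eventually.of_forall fun y => ?_)
  simp only
  rw [integral_smul]

/-- Iterated integral for nonnegative functions. -/
theorem lintegral_eq_iterated {f : H3 → ℝ≥0∞} (hf : Measurable f) :
    ∫⁻ P, f P = ∫⁻ y in Set.Ioi (0 : ℝ), ENNReal.ofReal ((y ^ 3)⁻¹) *
      ∫⁻ z : ℂ, f (ofPair (z, y)) := by
  have hm : Measurable fun p : ℂ × ℝ => ENNReal.ofReal ((p.2 ^ 3)⁻¹) * f (ofPair p) :=
    (ENNReal.measurable_ofReal.comp (measurable_snd.pow_const 3).inv).mul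
      (hf.comp measurable_ofPair)
  rw [lintegral_eq hf, half_eq, Measure.volume_eq_prod, ← Measure.prod_restrict,
    lintegral_prod_symm _ hm.aemeasurable, Measure.restrict_univ]
  refine lintegral_congr fun y => ?_
  have h1 : Measurable fun z : ℂ => f (ofPair (z, y)) :=
    hf.comp (measurable_ofPair.comp (measurable_id.prodMk measurable_const))
  exact lintegral_const_mul (ENNReal.ofReal ((y ^ 3)⁻¹)) h1

/-- The part of a strip above height `c` has finite volume. -/
theorem volume_strip {A : Set ℂ} (hA : MeasurableSet A) {c : ℝ} (hc : 0 < c) :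
    volume {P : H3 | P.z ∈ A ∧ c ≤ P.y} = volume A * ENNReal.ofReal ((2 * c ^ 2)⁻¹) := by
  have hS : MeasurableSet {P : H3 | P.z ∈ A ∧ c ≤ P.y} :=
    (measurable_z hA).inter (measurableSet_le measurable_const measurable_y)
  rw [← setLIntegral_one, ← lintegral_indicator hS,
    lintegral_eq_iterated (measurable_const.indicator hS)]
  have h1 : ∀ y ∈ Set.Ioi (0 : ℝ), ENNReal.ofReal ((y ^ 3)⁻¹) *
      ∫⁻ z : ℂ, ({P : H3 | P.z ∈ A ∧ c ≤ P.y}.indicator (fun _ => (1 : ℝ≥0∞)) (ofPair (z, y))) =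
      (Set.Ici c).indicator (fun y => volume A * ENNReal.ofReal ((y ^ 3)⁻¹)) y := by
    intro y hy
    have hy' : 0 < y := hy
    by_cases hcy : c ≤ y
    · rw [Set.indicator_of_mem (show y ∈ Set.Ici c from hcy)]
      have h2 : ∀ z : ℂ, ({P : H3 | P.z ∈ A ∧ c ≤ P.y}.indicator (fun _ => (1 : ℝ≥0∞))
          (ofPair (z, y))) = A.indicator (fun _ => (1 : ℝ≥0∞)) z := by
        intro z
        rw [ofPair_of_pos (show 0 < ((z, y) : ℂ × ℝ).2 from hy')]
        by_cases hz : z ∈ A
        · rw [Set.indicator_of_mem hz, Set.indicator_of_mem]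
          exact ⟨hz, hcy⟩
        · rw [Set.indicator_of_notMem hz, Set.indicator_of_notMem]
          exact fun h => hz h.1
      simp only [h2]
      rw [lintegral_indicator hA, setLIntegral_one, mul_comm]
    · rw [Set.indicator_of_notMem (show y ∉ Set.Ici c from hcy)]
      have h2 : ∀ z : ℂ, ({P : H3 | P.z ∈ A ∧ c ≤ P.y}.indicator (fun _ => (1 : ℝ≥0∞))
          (ofPair (z, y))) = 0 := by
        intro z
        rw [ofPair_of_pos (show 0 < ((z, y) : ℂ × ℝ).2 from hy')]
        rw [Set.indicator_of_notMem]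
        exact fun h => hcy h.2
      simp only [h2]
      simp
  have h5 : Set.Ici c ∩ Set.Ioi (0 : ℝ) = Set.Ici c :=
    Set.inter_eq_left.mpr (fun y hy => lt_of_lt_of_le hc hy)
  have h6 : Measurable fun y : ℝ => ENNReal.ofReal ((y ^ 3)⁻¹) :=
    ENNReal.measurable_ofReal.comp (measurable_id.pow_const 3).inv
  rw [setLIntegral_congr_fun measurableSet_Ioi h1, lintegral_indicator measurableSet_Ici,
    Measure.restrict_restrict measurableSet_Ici, h5, lintegral_const_mul _ h6]
  congr 1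
  have h2 : ∀ y ∈ Set.Ioi c, (y ^ 3)⁻¹ = y ^ (-3 : ℝ) := by
    intro y hy
    have hy' : 0 < y := hc.trans hy
    rw [Real.rpow_neg hy'.le]
    norm_cast
  have h3 : IntegrableOn (fun y : ℝ => (y ^ 3)⁻¹) (Set.Ioi c) :=
    (integrableOn_Ioi_rpow_of_lt (by norm_num) hc).congr_fun (fun y hy => (h2 y hy).symm)
      measurableSet_Ioi
  rw [setLIntegral_congr Ioi_ae_eq_Ici.symm, ← ofReal_integral_eq_lintegral_ofReal h3
    ((ae_restrict_iff' measurableSet_Ioi).mpr (Filter.Eventually.of_forall fun y hy =>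
      inv_nonneg.mpr (pow_nonneg (hc.trans hy).le 3))), setIntegral_congr_fun measurableSet_Ioi h2,
    integral_Ioi_rpow_of_lt (by norm_num) hc]
  congr 1
  have h4 : c ^ ((-3 : ℝ) + 1) = (c ^ 2)⁻¹ := by
    rw [show (-3 : ℝ) + 1 = -2 by norm_num, Real.rpow_neg hc.le]
    norm_cast
  rw [h4]
  field_simp
  norm_num

end

end H3

end Fermat.Agent.LT
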