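import Fermat.Agent.LT.H3.Pi

/-!
# Complex conjugation on hyperbolic 3-space
-/

open Complex MeasureTheory
open scoped ComplexConjugate MatrixGroups Topology ENNReal Pointwise

namespace Fermat.Agent.LT

namespace H3

noncomputable section

/-- Complex conjugation `(z, y) ↦ (conj z, y)`. -/
def cj (P : H3) : H3 := mk (conj P.z) P.y P.y_pos

@[simp] theorem z_cj (P : H3) : (cj P).z = conj P.z := rfl

@[simp] theorem y_cj (P : H3) : (cj P).y = P.y := rfl

@[simp] theorem cj_cj (P : H3) : cj (cj P) = P := by
  apply ext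
  · simp
  · simp

theorem cj_involutive : Function.Involutive cj := cj_cj

@[simp] theorem cj_j : cj j = j := by
  apply ext <;> simp

@[simp] theorem cu_cj (P Q : H3) : cu (cj P) (cj Q) = cu P Q := by
  unfold cu
  rw [z_cj, z_cj, y_cj, y_cj, ← map_sub, normSq_conj]

@[fun_prop] theorem continuous_cj : Continuous cj :=
  continuous_iff.mpr ⟨continuous_conj.comp continuous_z, continuous_y⟩

/-- Conjugation as a homeomorphism. -/
def cjHomeo : H3 ≃ₜ H3 where
  toFun := cj
  invFun := cj
  left_inv := cj_cj
  right_inv := cj_cj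
  continuous_toFun := continuous_cj
  continuous_invFun := continuous_cj

@[simp] theorem cjHomeo_apply (P : H3) : cjHomeo P = cj P := rfl

@[fun_prop] theorem measurable_cj : Measurable cj := continuous_cj.measurable

theorem herm_cj (P : H3) : herm (cj P) = (herm P).map conj := by
  unfold herm
  ext i k
  fin_cases i <;> fin_cases k <;> simp

theorem adet_map (g : GL (Fin 2) ℂ) :
    adet (Matrix.GeneralLinearGroup.map (starRingEnd ℂ) g) = adet g := by
  unfold adet
  have h : ((Matrix.GeneralLinearGroup.map (starRingEnd ℂ) g : GL (Fin 2) ℂ) :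
      Matrix (Fin 2) (Fin 2) ℂ) = (starRingEnd ℂ).mapMatrix (g : Matrix (Fin 2) (Fin 2) ℂ) := rfl
  rw [h, ← RingHom.map_det]
  exact RCLike.norm_conj _

theorem map_apply' (g : GL (Fin 2) ℂ) (i k : Fin 2) :
    Matrix.GeneralLinearGroup.map (starRingEnd ℂ) g i k = conj (g i k) := rfl

/-- Conjugation is semilinear for the action. -/
theorem cj_smul (g : GL (Fin 2) ℂ) (P : H3) :
    cj (g • P) = Matrix.GeneralLinearGroup.map (starRingEnd ℂ) g • cj P := by
  have hden : den (Matrix.GeneralLinearGroup.map (starRingEnd ℂ) g) (cj P) = den g P := by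
    unfold den
    rw [map_apply', map_apply', z_cj, y_cj, ← map_mul, ← map_add, normSq_conj, normSq_conj]
  have hnum : num (Matrix.GeneralLinearGroup.map (starRingEnd ℂ) g) (cj P) = conj (num g P) := by
    unfold num
    rw [map_apply', map_apply', map_apply', map_apply', z_cj, y_cj]
    simp only [map_add, map_mul, map_pow, conj_ofReal]
  apply ext
  · rw [z_cj, z_smul, z_smul, hden, hnum, map_div₀, conj_ofReal]
  · rw [y_cj, y_smul, y_smul, hden, adet_map, y_cj]

theorem measurePreserving_conj : MeasurePreserving (fun z : ℂ => conj z) volume volume :=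
  conjLIE.measurePreserving

theorem measurePreserving_cj : MeasurePreserving cj volume volume := by
  refine ⟨measurable_cj, Measure.ext fun s hs => ?_⟩
  rw [Measure.map_apply measurable_cj hs]
  have h1 : MeasurableSet (cj ⁻¹' s) := measurable_cj hs
  have h2 : ∀ t : Set H3, MeasurableSet t → volume t =
      ∫⁻ y in Set.Ioi (0 : ℝ), ENNReal.ofReal ((y ^ 3)⁻¹) *
        ∫⁻ z : ℂ, t.indicator (fun _ => (1 : ℝ≥0∞)) (ofPair (z, y)) := by
    intro t ht
    rw [← lintegral_eq_iterated (measurable_const.indicator ht), lintegral_indicator ht,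
      setLIntegral_one]
  rw [h2 _ h1, h2 _ hs]
  refine setLIntegral_congr_fun measurableSet_Ioi fun y hy => ?_
  have hy' : 0 < y := hy
  congr 1
  have h3 : ∀ z : ℂ, (cj ⁻¹' s).indicator (fun _ => (1 : ℝ≥0∞)) (ofPair (z, y)) =
      s.indicator (fun _ => (1 : ℝ≥0∞)) (ofPair (conj z, y)) := by
    intro z
    have h4 : cj (ofPair (z, y)) = ofPair (conj z, y) := by
      rw [ofPair_of_pos (show 0 < ((z, y) : ℂ × ℝ).2 from hy'),
        ofPair_of_pos (show 0 < ((conj z, y) : ℂ × ℝ).2 from hy')]
      rfl
    rw [← h4]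
    rfl
  simp only [h3]
  have h5 : Measurable fun z : ℂ => s.indicator (fun _ => (1 : ℝ≥0∞)) (ofPair (z, y)) :=
    (measurable_const.indicator hs).comp (measurable_ofPair.comp
      (measurable_id.prodMk measurable_const))
  exact measurePreserving_conj.lintegral_comp h5

theorem integral_cj {E : Type*} [NormedAddCommGroup E] [NormedSpace ℝ E] (f : H3 → E) :
    ∫ P, f (cj P) = ∫ P, f P :=
  measurePreserving_cj.integral_comp cjHomeo.measurableEmbedding f

end

end H3

end Fermat.Agent.LT
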