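import Mathlib

/-!
# The Abel transform on hyperbolic 3-space (helper70)

`k : ℝ → E` is a function of `u = cosh r`; `abel k r = 2π ∫_{cosh r}^∞ k`.
* `integral_horo`: `∫_ℂ k ((‖z₀ - z‖² + y² + y'²)/(2 y y')) dz = y y' • abel k (log y - log y')`.
* `hasDerivAt_abel`, `abel_even`, `abel_eq_zero`, `continuous_abel`;
* `ofAbel`: the inverse, `abel (ofAbel g) = g` for `g` even, `C²`, compactly supported, and
  `ofAbel g` is continuous, vanishes on `[cosh R, ∞)` if `g` vanishes on `[R, ∞)`.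
-/

set_option autoImplicit false

open MeasureTheory Set Real

namespace Fermat.Agent.LT.H3

variable {E : Type*} [NormedAddCommGroup E] [NormedSpace ℝ E]

/-- the Abel transform -/
noncomputable def abel (k : ℝ → E) (r : ℝ) : E := (2 * π) • ∫ t in Ioi (cosh r), k t

theorem abel_even (k : ℝ → E) (r : ℝ) : abel k (-r) = abel k r := by
  rw [abel, abel, cosh_neg]

theorem abel_abs (k : ℝ → E) (r : ℝ) : abel k |r| = abel k r := by
  rw [abel, abel, cosh_abs]

theorem cosh_log_sub {y y' : ℝ} (hy : 0 < y) (hy' : 0 < y') :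
    cosh (log y - log y') = (y ^ 2 + y' ^ 2) / (2 * y * y') := by
  rw [← Real.log_div hy.ne' hy'.ne', Real.cosh_log (div_pos hy hy')]
  field_simp

/-- `r ↦ (r² + c)/(2 a)` maps `(0,∞)` onto `(c/(2a), ∞)`. -/
theorem image_quad {a c : ℝ} (ha : 0 < a) :
    (fun r : ℝ => (r ^ 2 + c) / (2 * a)) '' Ioi 0 = Ioi (c / (2 * a)) := by
  ext t
  constructor
  · rintro ⟨r, hr, rfl⟩
    have hr' : 0 < r := hr
    change c / (2 * a) < (r ^ 2 + c) / (2 * a)
    gcongr
    nlinarith [pow_pos hr' 2]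
  · intro ht
    have ht' : c / (2 * a) < t := ht
    rw [div_lt_iff₀ (by positivity)] at ht'
    refine ⟨√(t * (2 * a) - c), Real.sqrt_pos.mpr (by linarith), ?_⟩
    change (√(t * (2 * a) - c) ^ 2 + c) / (2 * a) = t
    rw [Real.sq_sqrt (by linarith)]
    field_simp
    ring

theorem injOn_quad {a c : ℝ} (ha : 0 < a) :
    InjOn (fun r : ℝ => (r ^ 2 + c) / (2 * a)) (Ioi 0) := by
  intro r hr s hs h
  have hr' : 0 < r := hr
  have hs' : 0 < s := hs
  have h' : (r ^ 2 + c) / (2 * a) = (s ^ 2 + c) / (2 * a) := h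
  rw [div_left_inj' (by positivity)] at h'
  nlinarith [mul_pos hr' hs', sq_nonneg (r - s), sq_nonneg (r + s)]

theorem hasDerivWithinAt_quad {a c : ℝ} (r : ℝ) (s : Set ℝ) :
    HasDerivWithinAt (fun r : ℝ => (r ^ 2 + c) / (2 * a)) (r / a) s r := by
  have h : HasDerivAt (fun r : ℝ => (r ^ 2 + c) / (2 * a)) ((2 * r ^ (2 - 1) * 1) / (2 * a)) r := by
    refine HasDerivAt.div_const ?_ _
    refine HasDerivAt.add_const _ ?_
    exact (hasDerivAt_id r).fun_pow 2
  refine (h.congr_deriv ?_).hasDerivWithinAt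
  rw [show (2 - 1 : ℕ) = 1 from rfl, pow_one, mul_one, mul_div_mul_left _ _ two_ne_zero]

/-- radial integral over `ℂ` -/
theorem integral_quad (k : ℝ → E) {a c : ℝ} (ha : 0 < a) :
    ∫ z : ℂ, k ((‖z‖ ^ 2 + c) / (2 * a)) = (2 * π * a) • ∫ t in Ioi (c / (2 * a)), k t := by
  rw [integral_fun_norm_addHaar volume (fun r => k ((r ^ 2 + c) / (2 * a)))]
  rw [← image_quad (c := c) ha, integral_image_eq_integral_abs_deriv_smul measurableSet_Ioi
    (fun r _ => hasDerivWithinAt_quad (a := a) (c := c) r _) (injOn_quad ha)]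
  have h1 : volume.real (Metric.ball (0 : ℂ) 1) = π := by
    rw [Measure.real, Complex.volume_ball]
    simp
  have h2 : ∫ r in Ioi (0 : ℝ), |r / a| • k ((r ^ 2 + c) / (2 * a)) =
      a⁻¹ • ∫ r in Ioi (0 : ℝ), r • k ((r ^ 2 + c) / (2 * a)) := by
    rw [← integral_smul]
    refine setIntegral_congr_fun measurableSet_Ioi fun r hr => ?_
    have hr' : 0 < r := hr
    change |r / a| • k ((r ^ 2 + c) / (2 * a)) = a⁻¹ • r • k ((r ^ 2 + c) / (2 * a))
    rw [abs_of_pos (div_pos hr' ha), smul_smul, div_eq_inv_mul]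
  rw [h1, h2, Complex.finrank_real_complex, smul_smul]
  simp only [show (2 - 1 : ℕ) = 1 from rfl, pow_one]
  rw [mul_assoc, mul_assoc, mul_inv_cancel₀ ha.ne', mul_one, ← Nat.cast_smul_eq_nsmul ℝ, smul_smul]
  norm_num

theorem integrable_quad_iff (k : ℝ → E) {a c : ℝ} (ha : 0 < a) :
    Integrable (fun z : ℂ => k ((‖z‖ ^ 2 + c) / (2 * a))) ↔
      IntegrableOn k (Ioi (c / (2 * a))) := by
  rw [integrable_fun_norm_addHaar volume (f := fun r => k ((r ^ 2 + c) / (2 * a))),
    ← image_quad (c := c) ha, integrableOn_image_iff_integrableOn_abs_deriv_smul measurableSet_Ioi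
    (fun r _ => hasDerivWithinAt_quad (a := a) (c := c) r _) (injOn_quad ha),
    Complex.finrank_real_complex]
  simp only [show (2 - 1 : ℕ) = 1 from rfl, pow_one]
  have h2 : IntegrableOn (fun r : ℝ => |r / a| • k ((r ^ 2 + c) / (2 * a))) (Ioi 0) ↔
      IntegrableOn (fun r : ℝ => a⁻¹ • (r • k ((r ^ 2 + c) / (2 * a)))) (Ioi 0) := by
    refine integrableOn_congr_fun (fun r hr => ?_) measurableSet_Ioi
    have hr' : 0 < r := hr
    change |r / a| • k ((r ^ 2 + c) / (2 * a)) = a⁻¹ • r • k ((r ^ 2 + c) / (2 * a))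
    rw [abs_of_pos (div_pos hr' ha), smul_smul, div_eq_inv_mul]
  rw [h2]
  exact (integrable_smul_iff (inv_ne_zero ha.ne') _).symm

/-- **Abel transform = integral over a horosphere.** -/
theorem integral_horo (k : ℝ → E) {y y' : ℝ} (hy : 0 < y) (hy' : 0 < y') (z₀ : ℂ) :
    ∫ z : ℂ, k ((‖z₀ - z‖ ^ 2 + y ^ 2 + y' ^ 2) / (2 * y * y')) =
      (y * y') • abel k (log y - log y') := by
  have h1 : ∫ z : ℂ, k ((‖z₀ - z‖ ^ 2 + y ^ 2 + y' ^ 2) / (2 * y * y')) =
      ∫ z : ℂ, k ((‖z‖ ^ 2 + (y ^ 2 + y' ^ 2)) / (2 * (y * y'))) := by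
    rw [← integral_sub_left_eq_self (fun z : ℂ =>
      k ((‖z‖ ^ 2 + (y ^ 2 + y' ^ 2)) / (2 * (y * y')))) volume z₀]
    refine integral_congr_ae (Filter.Eventually.of_forall fun z => ?_)
    change k _ = k _
    congr 1
    ring
  rw [h1, integral_quad k (mul_pos hy hy'), abel, cosh_log_sub hy hy', smul_smul, mul_assoc 2 y y',
    mul_comm (2 * π) (y * y')]

theorem integrable_horo {k : ℝ → E} {y y' : ℝ} (hy : 0 < y) (hy' : 0 < y') (z₀ : ℂ)
    (hk : IntegrableOn k (Ioi 1)) :
    Integrable (fun z : ℂ => k ((‖z₀ - z‖ ^ 2 + y ^ 2 + y' ^ 2) / (2 * y * y'))) := by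
  have h0 : Integrable (fun z : ℂ => k ((‖z‖ ^ 2 + (y ^ 2 + y' ^ 2)) / (2 * (y * y')))) := by
    rw [integrable_quad_iff k (mul_pos hy hy')]
    refine hk.mono_set (Ioi_subset_Ioi ?_)
    rw [← mul_assoc, ← cosh_log_sub hy hy']
    exact one_le_cosh _
  have h1 := h0.comp_sub_left z₀
  refine h1.congr (Filter.Eventually.of_forall fun z => ?_)
  change k _ = k _
  congr 1
  ring

/-! ### Regularity -/

omit [NormedSpace ℝ E] in
theorem integrableOn_of_bdd {k : ℝ → E} (hk : Continuous k) {C : ℝ} (hC : ∀ t, C ≤ t → k t = 0)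
    (a : ℝ) : IntegrableOn k (Ioi a) := by
  have h1 : IntegrableOn k (Icc a C) := hk.continuousOn.integrableOn_Icc
  have h2 : IntegrableOn k (Ioi C) := by
    refine (integrableOn_congr_fun (f := fun _ => (0 : E)) (fun t ht => ?_) measurableSet_Ioi).mp
      integrableOn_zero
    exact (hC t (le_of_lt ht)).symm
  refine (h1.union h2).mono_set fun t ht => ?_
  rcases le_or_gt t C with h | h
  · exact Or.inl ⟨le_of_lt ht, h⟩
  · exact Or.inr h

section Reg

variable {k : ℝ → E} (hk : Continuous k) {C : ℝ} (hC : ∀ t, C ≤ t → k t = 0)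

include hC in
theorem abel_eq_zero {r : ℝ} (hr : C ≤ cosh r) : abel k r = 0 := by
  rw [abel, setIntegral_congr_fun (g := fun _ => (0 : E)) measurableSet_Ioi
    (fun t ht => hC t (hr.trans (le_of_lt ht))), integral_zero, smul_zero]

variable [CompleteSpace E]

include hk hC in
theorem hasDerivAt_abel (r : ℝ) : HasDerivAt (abel k) (-((2 * π * sinh r) • k (cosh r))) r := by
  have hi : ∀ a, IntegrableOn k (Ioi a) := integrableOn_of_bdd hk hC
  have h0 : abel k = fun r => (2 * π) • ((∫ t in Ioi (0 : ℝ), k t) - ∫ t in (0 : ℝ)..cosh r, k t) := by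
    ext r
    rw [abel, ← intervalIntegral.integral_interval_add_Ioi (hi 0) (hi (cosh r)), add_sub_cancel_left]
  rw [h0]
  have h1 : HasDerivAt (fun t => ∫ s in (0 : ℝ)..t, k s) (k (cosh r)) (cosh r) :=
    (hk.integral_hasStrictDerivAt 0 (cosh r)).hasDerivAt
  have h2 : HasDerivAt (fun r => ∫ s in (0 : ℝ)..cosh r, k s) (sinh r • k (cosh r)) r :=
    h1.scomp r (Real.hasDerivAt_cosh r)
  have h3 := (h2.const_sub (∫ t in Ioi (0 : ℝ), k t)).const_smul (2 * π)
  refine h3.congr_deriv ?_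
  rw [smul_neg, smul_smul]

include hk hC in
theorem continuous_abel : Continuous (abel k) :=
  continuous_iff_continuousAt.mpr fun r => (hasDerivAt_abel hk hC r).continuousAt

include hk hC in
theorem deriv_abel (r : ℝ) : deriv (abel k) r = -((2 * π * sinh r) • k (cosh r)) :=
  (hasDerivAt_abel hk hC r).deriv

include hk hC in
theorem contDiff_abel : ContDiff ℝ 1 (abel k) := by
  rw [contDiff_one_iff_deriv]
  refine ⟨fun r => (hasDerivAt_abel hk hC r).differentiableAt, ?_⟩
  have : deriv (abel k) = fun r => -((2 * π * sinh r) • k (cosh r)) :=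
    funext fun r => deriv_abel hk hC r
  rw [this]
  exact ((continuous_const.mul Real.continuous_sinh).smul (hk.comp Real.continuous_cosh)).neg

include hk hC in
/-- the Abel transform is injective on `[1,∞)` -/
theorem eqOn_of_abel_eq {k' : ℝ → E} (hk' : Continuous k') {C' : ℝ}
    (hC' : ∀ t, C' ≤ t → k' t = 0) (h : abel k = abel k') : EqOn k k' (Ici 1) := by
  have h1 : ∀ r, r ≠ 0 → k (cosh r) = k' (cosh r) := by
    intro r hr
    have h2 := deriv_abel hk hC r
    rw [h, deriv_abel hk' hC' r, neg_inj] at h2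
    have h3 : (2 * π * sinh r) ≠ 0 := by
      have : sinh r ≠ 0 := fun h0 => hr (Real.sinh_eq_zero.mp h0)
      positivity
    exact (smul_right_injective E h3 h2).symm
  have h2 : EqOn k k' (Ioi 1) := by
    intro t ht
    have ht' : (1 : ℝ) < t := ht
    rw [← Real.cosh_arcosh ht'.le]
    exact h1 _ (Real.arcosh_pos ht').ne'
  have h3 := h2.closure hk hk'
  rwa [closure_Ioi] at h3

end Reg

/-! ### The inverse Abel transform -/

/-- `r ↦ -g'(r)/(2π sinh r)`, with the value `-g''(0)/(2π)` at `0`. -/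
noncomputable def psi (g : ℝ → E) (r : ℝ) : E :=
  if r = 0 then -((2 * π)⁻¹ • deriv (deriv g) 0) else -((2 * π * sinh r)⁻¹ • deriv g r)

/-- the inverse Abel transform -/
noncomputable def ofAbel (g : ℝ → E) (t : ℝ) : E := psi g (arcosh (max t 1))

section Inv

variable {g : ℝ → E}

theorem deriv_neg_of_even (he : ∀ r, g (-r) = g r) (r : ℝ) : deriv g (-r) = - deriv g r := by
  have h : (fun r => g (-r)) = g := funext he
  have h1 := deriv_comp_neg g r
  rw [h] at h1
  rw [h1, neg_neg]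

theorem deriv_zero_of_even (he : ∀ r, g (-r) = g r) : deriv g 0 = 0 := by
  have h := deriv_neg_of_even he 0
  rw [neg_zero] at h
  have h2 : (2 : ℝ) • deriv g 0 = 0 := by
    rw [two_smul]
    nth_rewrite 1 [h]
    exact neg_add_cancel _
  exact (smul_eq_zero.mp h2).resolve_left two_ne_zero

theorem psi_even (he : ∀ r, g (-r) = g r) (r : ℝ) : psi g (-r) = psi g r := by
  by_cases h : r = 0
  · rw [h, neg_zero]
  · rw [psi, psi, if_neg (neg_ne_zero.mpr h), if_neg h, deriv_neg_of_even he, Real.sinh_neg]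
    rw [mul_neg, inv_neg, smul_neg, neg_smul, neg_neg]

theorem sinh_smul_psi (he : ∀ r, g (-r) = g r) (r : ℝ) :
    -((2 * π * sinh r) • psi g r) = deriv g r := by
  by_cases h : r = 0
  · rw [h, Real.sinh_zero, mul_zero, zero_smul, neg_zero, deriv_zero_of_even he]
  · have h3 : (2 * π * sinh r) ≠ 0 := by
      have : sinh r ≠ 0 := fun h0 => h (Real.sinh_eq_zero.mp h0)
      positivity
    rw [psi, if_neg h, smul_neg, neg_neg, smul_smul, mul_inv_cancel₀ h3, one_smul]

theorem continuous_psi (hg : ContDiff ℝ 2 g) (he : ∀ r, g (-r) = g r) : Continuous (psi g) := by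
  have hg1 : ContDiff ℝ 1 (deriv g) := by
    have : ContDiff ℝ (1 + 1) g := hg
    exact (contDiff_succ_iff_deriv.mp this).2.2
  rw [continuous_iff_continuousAt]
  intro r
  by_cases h : r = 0
  · subst h
    have h1 : HasDerivAt (deriv g) (deriv (deriv g) 0) 0 :=
      (hg1.differentiable one_ne_zero 0).hasDerivAt
    have h2 : HasDerivAt sinh 1 0 := by simpa using Real.hasDerivAt_sinh 0
    have h3 := h1.tendsto_slope_zero
    have h4 := h2.tendsto_slope_zero
    simp only [zero_add, deriv_zero_of_even he, sub_zero, Real.sinh_zero] at h3 h4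
    have h5 : Filter.Tendsto (fun t : ℝ => -((2 * π)⁻¹ • ((t⁻¹ • sinh t)⁻¹ • (t⁻¹ • deriv g t))))
        (nhdsWithin 0 {0}ᶜ) (nhds (-((2 * π)⁻¹ • ((1 : ℝ)⁻¹ • deriv (deriv g) 0)))) :=
      (((h4.inv₀ one_ne_zero).smul h3).const_smul _).neg
    rw [inv_one, one_smul] at h5
    rw [ContinuousAt, ← nhdsNE_sup_pure, Filter.tendsto_sup]
    constructor
    · have e0 : psi g 0 = -((2 * π)⁻¹ • deriv (deriv g) 0) := if_pos rfl
      rw [e0]
      refine h5.congr' ?_
      filter_upwards [self_mem_nhdsWithin] with t ht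
      have ht' : t ≠ 0 := ht
      rw [psi, if_neg ht', smul_smul, smul_smul]
      congr 2
      rw [smul_eq_mul]
      have : sinh t ≠ 0 := fun h0 => ht' (Real.sinh_eq_zero.mp h0)
      field_simp
    · exact tendsto_pure_nhds _ _
  · have h1 : psi g =ᶠ[nhds r] fun r => -((2 * π * sinh r)⁻¹ • deriv g r) := by
      filter_upwards [isOpen_ne.mem_nhds h] with s hs
      exact if_neg hs
    refine ContinuousAt.congr ?_ h1.symm
    have h3 : (2 * π * sinh r) ≠ 0 := by
      have : sinh r ≠ 0 := fun h0 => h (Real.sinh_eq_zero.mp h0)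
      positivity
    exact (((continuous_const.mul Real.continuous_sinh).continuousAt.inv₀ h3).smul
      hg1.continuous.continuousAt).neg

theorem ofAbel_cosh (he : ∀ r, g (-r) = g r) (r : ℝ) : ofAbel g (cosh r) = psi g r := by
  rw [ofAbel, max_eq_left (Real.one_le_cosh r), ← Real.cosh_abs, Real.arcosh_cosh (abs_nonneg r)]
  rcases abs_choice r with h | h
  · rw [h]
  · rw [h, psi_even he]

theorem continuous_ofAbel (hg : ContDiff ℝ 2 g) (he : ∀ r, g (-r) = g r) :
    Continuous (ofAbel g) := by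
  refine (continuous_psi hg he).comp ?_
  exact Real.continuousOn_arcosh.comp_continuous (continuous_id.max continuous_const)
    fun t => Set.mem_Ici.mpr (le_max_right _ _)

theorem ofAbel_eq_zero (he : ∀ r, g (-r) = g r) {R : ℝ} (hR0 : 0 < R) (hR : ∀ r, R ≤ r → g r = 0)
    (hg : ContDiff ℝ 1 g) (t : ℝ) (ht : cosh R ≤ t) : ofAbel g t = 0 := by
  have ht1 : 1 ≤ t := (Real.one_le_cosh R).trans ht
  have h1 : ∀ r, R < r → deriv g r = 0 := by
    intro r hr
    have : g =ᶠ[nhds r] fun _ => 0 := by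
      filter_upwards [Ioi_mem_nhds hr] with s hs
      exact hR s (le_of_lt hs)
    rw [this.deriv_eq, deriv_const]
  have h2 : ∀ r, R ≤ r → deriv g r = 0 := by
    have hc : Continuous (deriv g) := (contDiff_one_iff_deriv.mp hg).2
    have h3 : EqOn (deriv g) (fun _ => (0 : E)) (Ioi R) := fun r hr => h1 r hr
    have h4 := h3.closure hc continuous_const
    rw [closure_Ioi] at h4
    exact fun r hr => h4 hr
  have h3 : R ≤ arcosh t := by
    rw [← Real.arcosh_cosh hR0.le]
    exact (Real.arcosh_le_arcosh (by positivity) (by linarith)).mpr ht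
  rw [← Real.cosh_arcosh ht1, ofAbel_cosh he, psi, if_neg (by linarith), h2 _ h3, smul_zero,
    neg_zero]

theorem abel_ofAbel [CompleteSpace E] (hg : ContDiff ℝ 2 g) (he : ∀ r, g (-r) = g r) {R : ℝ}
    (hR0 : 0 < R) (hR : ∀ r, R ≤ r → g r = 0) : abel (ofAbel g) = g := by
  have hc := continuous_ofAbel hg he
  have hz := ofAbel_eq_zero he hR0 hR (hg.of_le one_le_two)
  have h1 : ∀ r, HasDerivAt (fun r => abel (ofAbel g) r - g r) 0 r := by
    intro r
    have h2 := hasDerivAt_abel hc hz r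
    rw [ofAbel_cosh he, sinh_smul_psi he] at h2
    have h3 : HasDerivAt g (deriv g r) r := (hg.differentiable two_ne_zero r).hasDerivAt
    simpa using h2.fun_sub h3
  have h2 : ∀ r s, abel (ofAbel g) r - g r = abel (ofAbel g) s - g s := by
    intro r s
    exact is_const_of_deriv_eq_zero (fun r => (h1 r).differentiableAt) (fun r => (h1 r).deriv) r s
  ext r
  have h3 := h2 r R
  rw [hR R le_rfl, abel_eq_zero hz le_rfl, sub_zero] at h3
  exact sub_eq_zero.mp h3

end Inv

end Fermat.Agent.LT.H3
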