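import Fermat.Agent.LT.H3.Line

/-!
# Real radial kernels and the value of the spherical transform at `0` (helper70)

* `sph_zero`: `sph 0 k = ∫ abel k`;
* `conj_ofAbel`: the inverse Abel transform of a real function is real;
* `exists_even_bump`: a smooth, even, nonnegative bump with integral `1` and small support.
-/

set_option autoImplicit false

open MeasureTheory Set Real
open scoped ContDiff

namespace Fermat.Agent.LT.H3

theorem lap_zero (g : ℝ → ℂ) : lap 0 g = ∫ r, g r := by
  simp [lap]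

/-- the value at `0` is the integral of the Abel transform -/
theorem sph_zero (k : ℝ → ℂ) : sph 0 k = ∫ r, abel k r := lap_zero _

theorem deriv_conj (g : ℝ → ℂ) (r : ℝ) :
    deriv (fun s => starRingEnd ℂ (g s)) r = starRingEnd ℂ (deriv g r) :=
  deriv.star (f := g) (x := r)

theorem conj_psi (g : ℝ → ℂ) (r : ℝ) :
    starRingEnd ℂ (psi g r) = psi (fun s => starRingEnd ℂ (g s)) r := by
  have h1 : deriv (fun s => starRingEnd ℂ (g s)) = fun s => starRingEnd ℂ (deriv g s) :=
    funext (deriv_conj g)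
  rw [psi, psi, h1, deriv_conj]
  split_ifs with h
  · rw [map_neg, Complex.real_smul, Complex.real_smul, map_mul, Complex.conj_ofReal]
  · rw [map_neg, Complex.real_smul, Complex.real_smul, map_mul, Complex.conj_ofReal]

theorem conj_ofAbel (g : ℝ → ℂ) (t : ℝ) :
    starRingEnd ℂ (ofAbel g t) = ofAbel (fun s => starRingEnd ℂ (g s)) t :=
  conj_psi g _

/-- the inverse Abel transform of a real function is real -/
theorem conj_ofAbel_of_real {g : ℝ → ℂ} (hg : ∀ r, starRingEnd ℂ (g r) = g r) (t : ℝ) :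
    starRingEnd ℂ (ofAbel g t) = ofAbel g t := by
  rw [conj_ofAbel]
  congr 1
  exact funext hg

theorem im_ofAbel {g : ℝ → ℂ} (hg : ∀ r, (g r).im = 0) (t : ℝ) : (ofAbel g t).im = 0 :=
  Complex.conj_eq_iff_im.mp (conj_ofAbel_of_real (fun r => Complex.conj_eq_iff_im.mpr (hg r)) t)

/-- `sph ν` of the inverse Abel transform of `g` is the Laplace transform of `g` -/
theorem sph_ofAbel {g : ℝ → ℂ} (hg : ContDiff ℝ 2 g) (he : ∀ r, g (-r) = g r)
    (hs : HasCompactSupport g) (ν : ℂ) : sph ν (ofAbel g) = lap ν g := by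
  rw [sph, abel_ofAbel' hg he hs]

theorem sph_zero_ofAbel {g : ℝ → ℂ} (hg : ContDiff ℝ 2 g) (he : ∀ r, g (-r) = g r)
    (hs : HasCompactSupport g) : sph 0 (ofAbel g) = ∫ r, g r := by
  rw [sph_ofAbel hg he hs, lap_zero]

/-- a smooth, even, real, nonnegative function with integral `1` supported in `|r| < ε` -/
theorem exists_even_bump {ε : ℝ} (hε : 0 < ε) : ∃ h : ℝ → ℂ, ContDiff ℝ ∞ h ∧
    HasCompactSupport h ∧ (∀ r, h (-r) = h r) ∧ (∀ r, starRingEnd ℂ (h r) = h r) ∧
    (∀ r, 0 ≤ (h r).re) ∧ (∫ r, h r = 1) ∧ ∀ r, ε ≤ |r| → h r = 0 := by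
  let f : ContDiffBump (0 : ℝ) := ⟨ε / 2, ε, by positivity, by linarith⟩
  have hsm : ContDiff ℝ ∞ (f.normed volume) := f.contDiff_normed
  refine ⟨fun r => ((f.normed volume r : ℝ) : ℂ), Complex.ofRealCLM.contDiff.comp hsm, ?_, ?_, ?_,
    ?_, ?_, ?_⟩
  · exact (f.hasCompactSupport_normed (μ := volume)).comp_left Complex.ofReal_zero
  · intro r
    change ((f.normed volume (-r) : ℝ) : ℂ) = (f.normed volume r : ℝ)
    rw [f.normed_neg]
  · intro r
    exact Complex.conj_ofReal _
  · intro r
    change 0 ≤ ((f.normed volume r : ℝ) : ℂ).re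
    rw [Complex.ofReal_re]
    exact f.nonneg_normed r
  · change ∫ r, ((f.normed volume r : ℝ) : ℂ) = 1
    rw [integral_complex_ofReal, f.integral_normed, Complex.ofReal_one]
  · intro r hr
    have h0 : f.normed volume r = 0 := by
      rw [← Function.notMem_support, f.support_normed_eq]
      rw [Metric.mem_ball, Real.dist_eq, sub_zero, not_lt]
      exact hr
    change ((f.normed volume r : ℝ) : ℂ) = 0
    rw [h0, Complex.ofReal_zero]

end Fermat.Agent.LT.H3
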