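import Fermat.Agent.LT.H3.Line

/-!
# Classification of the characters of the algebra of radial kernels (helper70)

`exists_nu`: a nonzero linear functional `lam` on the radial kernels, multiplicative for the
composition of kernels, is `k ↦ sph ν k = ∫ abel k t * exp (ν t) dt`.
-/

set_option autoImplicit false

open MeasureTheory Set Real

namespace Fermat.Agent.LT.H3

section Resolvent

variable (ν : ℂ)

/-- `sinh (ν t) / ν` -/
noncomputable def SS (t : ℝ) : ℂ := ∫ s in (0 : ℝ)..t, Complex.cosh (ν * s)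

theorem continuous_cosh' : Continuous fun t : ℝ => Complex.cosh (ν * t) :=
  Complex.continuous_cosh.comp (continuous_const.mul Complex.continuous_ofReal)

theorem hasDerivAt_SS (t : ℝ) : HasDerivAt (SS ν) (Complex.cosh (ν * t)) t :=
  ((continuous_cosh' ν).integral_hasStrictDerivAt 0 t).hasDerivAt

theorem SS_zero : SS ν 0 = 0 := intervalIntegral.integral_same

theorem hasDerivAt_lin (t : ℝ) : HasDerivAt (fun t : ℝ => ν * (t : ℂ)) ν t := by
  simpa using (Complex.ofRealCLM.hasDerivAt (x := t)).const_mul ν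

theorem hasDerivAt_sinh' (t : ℝ) :
    HasDerivAt (fun t : ℝ => Complex.sinh (ν * t)) (Complex.cosh (ν * t) * ν) t := by
  have h := (Complex.hasDerivAt_sinh (ν * t)).comp t (hasDerivAt_lin ν t)
  exact h

theorem hasDerivAt_cosh' (t : ℝ) :
    HasDerivAt (fun t : ℝ => Complex.cosh (ν * t)) (Complex.sinh (ν * t) * ν) t := by
  have h := (Complex.hasDerivAt_cosh (ν * t)).comp t (hasDerivAt_lin ν t)
  exact h

theorem mul_SS (t : ℝ) : ν * SS ν t = Complex.sinh (ν * t) := by
  have h : ∀ t : ℝ, HasDerivAt (fun t : ℝ => ν * SS ν t - Complex.sinh (ν * t)) 0 t := by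
    intro t
    have := ((hasDerivAt_SS ν t).const_mul ν).fun_sub (hasDerivAt_sinh' ν t)
    refine this.congr_deriv ?_
    ring
  have h2 := is_const_of_deriv_eq_zero (fun t => (h t).differentiableAt) (fun t => (h t).deriv) t 0
  simp only [SS_zero, Complex.ofReal_zero, mul_zero, Complex.sinh_zero, sub_zero] at h2
  exact sub_eq_zero.mp h2

theorem SS_neg (t : ℝ) : SS ν (-t) = - SS ν t := by
  have h : ∀ t : ℝ, HasDerivAt (fun t : ℝ => SS ν (-t) + SS ν t) 0 t := by
    intro t
    have h1 : HasDerivAt (fun t : ℝ => SS ν (-t)) (-(Complex.cosh (ν * t))) t := by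
      have h2 := (hasDerivAt_SS ν (-t)).scomp t (hasDerivAt_neg t)
      refine h2.congr_deriv ?_
      rw [neg_one_smul]
      congr 1
      rw [Complex.ofReal_neg, mul_neg, Complex.cosh_neg]
    have := h1.fun_add (hasDerivAt_SS ν t)
    refine this.congr_deriv ?_
    ring
  have h2 := is_const_of_deriv_eq_zero (fun t => (h t).differentiableAt) (fun t => (h t).deriv) t 0
  simp only [neg_zero, SS_zero, add_zero] at h2
  exact eq_neg_of_add_eq_zero_left h2

theorem cosh_neg' (t : ℝ) : Complex.cosh (ν * ((-t : ℝ) : ℂ)) = Complex.cosh (ν * t) := by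
  rw [Complex.ofReal_neg, mul_neg, Complex.cosh_neg]

/-- **The resolvent.** A continuous even function `h` with compact support and
`∫ h(t) cosh(νt) dt = 0` is `G'' - ν² G` with `G` even, `C²`, with compact support. -/
theorem exists_resolvent {h : ℝ → ℂ} (hc : Continuous h) (he : ∀ r, h (-r) = h r)
    (hs : HasCompactSupport h) (h0 : ∫ t : ℝ, h t * Complex.cosh (ν * t) = 0) :
    ∃ G : ℝ → ℂ, ContDiff ℝ 2 G ∧ (∀ r, G (-r) = G r) ∧ HasCompactSupport G ∧
      ∀ r, h r = deriv (deriv G) r - ν ^ 2 * G r := by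
  obtain ⟨R, hR0, hR⟩ := exists_zero_of_hasCompactSupport hs
  set C : ℝ → ℂ := fun t => Complex.cosh (ν * t) with hCdef
  have hCc : Continuous C := continuous_cosh' ν
  have hSc : Continuous (SS ν) :=
    continuous_iff_continuousAt.mpr fun t => (hasDerivAt_SS ν t).continuousAt
  set A : ℝ → ℂ := fun t => ∫ s in (0 : ℝ)..t, C s * h s with hA
  set B : ℝ → ℂ := fun t => ∫ s in (R : ℝ)..t, SS ν s * h s with hB
  have hAd : ∀ t, HasDerivAt A (C t * h t) t := fun t =>
    ((hCc.mul hc).integral_hasStrictDerivAt 0 t).hasDerivAt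
  have hBd : ∀ t, HasDerivAt B (SS ν t * h t) t := fun t =>
    ((hSc.mul hc).integral_hasStrictDerivAt R t).hasDerivAt
  -- A vanishes beyond R
  have hA_neg : ∀ t, A (-t) = - A t := by
    have h1 : ∀ t : ℝ, HasDerivAt (fun t : ℝ => A (-t) + A t) 0 t := by
      intro t
      have h2 := (hAd (-t)).scomp t (hasDerivAt_neg t)
      have h3 : HasDerivAt (fun t => A (-t)) (-(C t * h t)) t := by
        refine h2.congr_deriv ?_
        rw [neg_one_smul, he, hCdef]
        simp only [cosh_neg']
      refine (h3.fun_add (hAd t)).congr_deriv ?_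
      ring
    intro t
    have h2 := is_const_of_deriv_eq_zero (fun t => (h1 t).differentiableAt)
      (fun t => (h1 t).deriv) t 0
    have h3 : A 0 = 0 := intervalIntegral.integral_same
    simp only [neg_zero, h3, add_zero] at h2
    exact eq_neg_of_add_eq_zero_left h2
  have hB_neg : ∀ t, B (-t) = B t := by
    have h1 : ∀ t : ℝ, HasDerivAt (fun t : ℝ => B (-t) - B t) 0 t := by
      intro t
      have h2 := (hBd (-t)).scomp t (hasDerivAt_neg t)
      have h3 : HasDerivAt (fun t => B (-t)) (SS ν t * h t) t := by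
        refine h2.congr_deriv ?_
        rw [neg_one_smul, he, SS_neg]
        ring
      refine (h3.fun_sub (hBd t)).congr_deriv ?_
      ring
    intro t
    have h2 := is_const_of_deriv_eq_zero (fun t => (h1 t).differentiableAt)
      (fun t => (h1 t).deriv) t 0
    simp only [neg_zero, sub_self] at h2
    exact sub_eq_zero.mp h2
  have hzero : ∀ t, R ≤ t → A t = A R ∧ B t = 0 := by
    intro t ht
    have hz : ∀ s ∈ uIcc R t, h s = 0 := by
      intro s hs'
      rw [uIcc_of_le ht] at hs'
      exact hR s (hs'.1.trans (le_abs_self s))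
    constructor
    · have h1 : A t - A R = ∫ s in R..t, C s * h s := by
        rw [hA]
        exact intervalIntegral.integral_interval_sub_left
          ((hCc.mul hc).intervalIntegrable _ _) ((hCc.mul hc).intervalIntegrable _ _)
      have h2 : ∫ s in R..t, C s * h s = 0 := by
        rw [intervalIntegral.integral_congr (g := fun _ => (0 : ℂ))
          (fun s hs' => by rw [hz s hs', mul_zero])]
        exact intervalIntegral.integral_zero
      rw [h2] at h1
      exact sub_eq_zero.mp h1
    · change ∫ s in R..t, SS ν s * h s = 0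
      rw [intervalIntegral.integral_congr (g := fun _ => (0 : ℂ))
        (fun s hs' => by rw [hz s hs', mul_zero])]
      exact intervalIntegral.integral_zero
  have hAR : A R = 0 := by
    have h1 : ∫ t : ℝ, h t * Complex.cosh (ν * t) = ∫ t in (-R)..R, C t * h t := by
      rw [intervalIntegral.integral_of_le (by linarith), ← integral_Icc_eq_integral_Ioc,
        setIntegral_eq_integral_of_forall_compl_eq_zero]
      · exact integral_congr_ae (Filter.Eventually.of_forall fun t => mul_comm _ _)
      · intro t ht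
        have : R ≤ |t| := by
          by_contra hlt
          exact ht (abs_le.mp (not_le.mp hlt).le)
        rw [hR t this, mul_zero]
    have h2 : ∫ t in (-R)..R, C t * h t = A R - A (-R) :=
      (intervalIntegral.integral_interval_sub_left
          ((hCc.mul hc).intervalIntegrable _ _) ((hCc.mul hc).intervalIntegrable _ _)).symm
    rw [h1, h2, hA_neg, sub_neg_eq_add] at h0
    have h3 : (2 : ℂ) * A R = 0 := by rw [two_mul]; exact h0
    exact (mul_eq_zero.mp h3).resolve_left two_ne_zero
  set G : ℝ → ℂ := fun t => SS ν t * A t - C t * B t with hG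
  set G' : ℝ → ℂ := fun t => C t * A t - ν ^ 2 * (SS ν t * B t) with hG'
  have hCd : ∀ t, HasDerivAt C (ν ^ 2 * SS ν t) t := by
    intro t
    refine (hasDerivAt_cosh' ν t).congr_deriv ?_
    rw [← mul_SS]
    ring
  have hSd : ∀ t, HasDerivAt (SS ν) (C t) t := hasDerivAt_SS ν
  have hG1 : ∀ t, HasDerivAt G (G' t) t := by
    intro t
    refine (((hSd t).mul (hAd t)).fun_sub ((hCd t).mul (hBd t))).congr_deriv ?_
    rw [hG']
    ring
  have hid : ∀ t, C t ^ 2 - ν ^ 2 * SS ν t ^ 2 = 1 := by
    intro t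
    have := Complex.cosh_sq (ν * t)
    rw [hCdef]
    simp only
    rw [this, ← mul_SS]
    ring
  have hG2 : ∀ t, HasDerivAt G' (h t + ν ^ 2 * G t) t := by
    intro t
    refine (((hCd t).mul (hAd t)).fun_sub (((hSd t).mul (hBd t)).const_mul (ν ^ 2))).congr_deriv ?_
    rw [hG]
    have e := hid t
    linear_combination (h t) * e
  have hGd : deriv G = G' := funext fun t => (hG1 t).deriv
  have hG'd : deriv G' = fun t => h t + ν ^ 2 * G t := funext fun t => (hG2 t).deriv
  have hGc : Continuous G := continuous_iff_continuousAt.mpr fun t => (hG1 t).continuousAt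
  refine ⟨G, ?_, ?_, ?_, ?_⟩
  · have h1 : ContDiff ℝ 1 G' := by
      rw [contDiff_one_iff_deriv]
      refine ⟨fun t => (hG2 t).differentiableAt, ?_⟩
      rw [hG'd]
      exact hc.add (continuous_const.mul hGc)
    rw [show (2 : WithTop ℕ∞) = 1 + 1 by norm_num, contDiff_succ_iff_deriv]
    refine ⟨fun t => (hG1 t).differentiableAt, fun h => absurd h (by simp), ?_⟩
    rw [hGd]
    exact h1
  · intro t
    rw [hG]
    simp only
    rw [SS_neg, hA_neg, hB_neg, hCdef]
    simp only [cosh_neg']
    ring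
  · refine hasCompactSupport_of_zero (R := R) fun t ht => ?_
    have key : ∀ t, R ≤ t → G t = 0 := by
      intro t ht
      have h1 := hzero t ht
      rw [hG]
      simp only
      rw [h1.1, h1.2, hAR, mul_zero, mul_zero, sub_zero]
    rcases le_total 0 t with h' | h'
    · exact key t (by rwa [abs_of_nonneg h'] at ht)
    · rw [abs_of_nonpos h'] at ht
      have h2 := key (-t) ht
      have h3 : G (-t) = G t := by
        rw [hG]
        simp only
        rw [SS_neg, hA_neg, hB_neg, hCdef]
        simp only [cosh_neg']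
        ring
      rw [← h3]
      exact h2
  · intro r
    rw [hGd, hG'd]
    ring

end Resolvent

/-! ### Linearity of the Abel transform -/

theorem IsKer.integrableOn {k : ℝ → ℂ} (h : IsKer k) (a : ℝ) : IntegrableOn k (Ioi a) := by
  obtain ⟨C, hC⟩ := h.bdd
  exact integrableOn_of_bdd h.cont hC a

theorem abel_add {k k' : ℝ → ℂ} (h : IsKer k) (h' : IsKer k') (r : ℝ) :
    abel (fun t => k t + k' t) r = abel k r + abel k' r := by
  rw [abel, abel, abel, integral_add (h.integrableOn _) (h'.integrableOn _), smul_add]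

theorem abel_const_mul {k : ℝ → ℂ} (c : ℂ) (r : ℝ) :
    abel (fun t => c * k t) r = c * abel k r := by
  rw [abel, abel, integral_const_mul, Complex.real_smul, Complex.real_smul]
  ring

theorem sph_add {k k' : ℝ → ℂ} (h : IsKer k) (h' : IsKer k') (ν : ℂ) :
    sph ν (fun t => k t + k' t) = sph ν k + sph ν k' := by
  have e : abel (fun t => k t + k' t) = fun r => abel k r + abel k' r :=
    funext fun r => abel_add h h' r
  rw [sph, e]
  exact lap_add h.contDiff_abel.continuous h.hasCompactSupport_abel h'.contDiff_abel.continuous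
    h'.hasCompactSupport_abel ν

theorem sph_const_mul {k : ℝ → ℂ} (c : ℂ) (ν : ℂ) : sph ν (fun t => c * k t) = c * sph ν k := by
  have e : abel (fun t => c * k t) = fun r => c * abel k r := funext fun r => abel_const_mul c r
  rw [sph, e]
  exact lap_const_mul c ν

theorem sph_comp {k₁ k₂ k : ℝ → ℂ} (h₁ : IsKer k₁) (h₂ : IsKer k₂)
    (e : abel k = cv (abel k₁) (abel k₂)) (ν : ℂ) : sph ν k = sph ν k₁ * sph ν k₂ := by
  rw [sph, e, lap_cv h₁.contDiff_abel.continuous h₁.hasCompactSupport_abel
    h₂.contDiff_abel.continuous h₂.hasCompactSupport_abel]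
  rfl

theorem sph_neg (k : ℝ → ℂ) (ν : ℂ) : sph (-ν) k = sph ν k := lap_neg (abel_even k) ν

theorem sph_eq_cosh {k : ℝ → ℂ} (h : IsKer k) (ν : ℂ) :
    sph ν k = ∫ t : ℝ, abel k t * Complex.cosh (ν * t) :=
  lap_eq_cosh h.contDiff_abel.continuous h.hasCompactSupport_abel (abel_even k) ν

theorem sph_congr {k k' : ℝ → ℂ} (h : EqOn k k' (Ici 1)) (ν : ℂ) : sph ν k = sph ν k' := by
  have e : abel k = abel k' := by
    ext r
    rw [abel, abel]
    congr 1
    exact setIntegral_congr_fun measurableSet_Ioi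
      fun t ht => h ((Real.one_le_cosh r).trans (le_of_lt ht))
  rw [sph, e, sph]

/-- a character of the algebra of radial kernels -/
structure IsChar (lam : (ℝ → ℂ) → ℂ) : Prop where
  add : ∀ k k', IsKer k → IsKer k' → lam (fun t => k t + k' t) = lam k + lam k'
  smul : ∀ (c : ℂ) k, IsKer k → lam (fun t => c * k t) = c * lam k
  congr : ∀ k k', IsKer k → IsKer k' → EqOn k k' (Ici 1) → lam k = lam k'
  comp : ∀ k₁ k₂ k, IsKer k₁ → IsKer k₂ → IsKer k → abel k = cv (abel k₁) (abel k₂) →
    lam k = lam k₁ * lam k₂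
  ne : ∃ k, IsKer k ∧ lam k ≠ 0

/-- the composition of two kernels, by the Abel transform -/
noncomputable def kc (k₁ k₂ : ℝ → ℂ) : ℝ → ℂ := ofAbel (cv (abel k₁) (abel k₂))

section Kc

variable {k₁ k₂ : ℝ → ℂ} (h₁ : IsKer k₁) (h₂ : IsKer k₂)

include h₁ h₂ in
theorem contDiff_cv_abel {n : ℕ} (h : ContDiff ℝ n (abel k₂)) :
    ContDiff ℝ (n + 1 : ℕ) (cv (abel k₁) (abel k₂)) :=
  cv_contDiff_succ h₁.hasCompactSupport_abel h₁.contDiff_abel h₂.hasCompactSupport_abel h

include h₁ h₂ in
theorem contDiff_two_cv_abel : ContDiff ℝ 2 (cv (abel k₁) (abel k₂)) := by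
  have := contDiff_cv_abel h₁ h₂ (n := 1) (by exact_mod_cast h₂.contDiff_abel)
  exact_mod_cast this

include h₁ h₂ in
theorem isKer_kc : IsKer (kc k₁ k₂) :=
  isKer_ofAbel (contDiff_two_cv_abel h₁ h₂) (cv_even (abel_even k₁) (abel_even k₂))
    (cv_hasCompactSupport h₁.hasCompactSupport_abel h₂.hasCompactSupport_abel)

include h₁ h₂ in
theorem abel_kc : abel (kc k₁ k₂) = cv (abel k₁) (abel k₂) :=
  abel_ofAbel' (contDiff_two_cv_abel h₁ h₂) (cv_even (abel_even k₁) (abel_even k₂))
    (cv_hasCompactSupport h₁.hasCompactSupport_abel h₂.hasCompactSupport_abel)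

end Kc

namespace IsChar

variable {lam : (ℝ → ℂ) → ℂ} (hl : IsChar lam)

include hl in
theorem lam_kc {k₁ k₂ : ℝ → ℂ} (h₁ : IsKer k₁) (h₂ : IsKer k₂) :
    lam (kc k₁ k₂) = lam k₁ * lam k₂ :=
  hl.comp _ _ _ h₁ h₂ (isKer_kc h₁ h₂) (abel_kc h₁ h₂)

include hl in
theorem lam_eq_of_abel_eq {k k' : ℝ → ℂ} (h : IsKer k) (h' : IsKer k') (e : abel k = abel k') :
    lam k = lam k' := by
  obtain ⟨C, hC⟩ := h.bdd
  obtain ⟨C', hC'⟩ := h'.bdd
  exact hl.congr _ _ h h' (eqOn_of_abel_eq h.cont hC h'.cont hC' e)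

include hl in
/-- a kernel with smooth Abel transform on which `lam` does not vanish -/
theorem exists_smooth : ∃ k, IsKer k ∧ ContDiff ℝ 4 (abel k) ∧ lam k ≠ 0 := by
  obtain ⟨k, hk, hne⟩ := hl.ne
  have h2 : ContDiff ℝ (1 + 1 : ℕ) (cv (abel k) (abel k)) :=
    contDiff_cv_abel hk hk (n := 1) (by exact_mod_cast hk.contDiff_abel)
  have i2 := isKer_kc hk hk
  rw [← abel_kc hk hk] at h2
  have h3 := contDiff_cv_abel hk i2 h2
  have i3 := isKer_kc hk i2
  rw [← abel_kc hk i2] at h3
  have h4 := contDiff_cv_abel hk i3 h3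
  have i4 := isKer_kc hk i3
  rw [← abel_kc hk i3] at h4
  refine ⟨_, i4, by exact_mod_cast h4, ?_⟩
  rw [hl.lam_kc hk i3, hl.lam_kc hk i2, hl.lam_kc hk hk]
  exact mul_ne_zero hne (mul_ne_zero hne (mul_ne_zero hne hne))

include hl in
theorem exists_nu : ∃ ν : ℂ, ∀ k, IsKer k → lam k = sph ν k := by
  obtain ⟨k₀, hk₀, hk4, hne⟩ := hl.exists_smooth
  set g := abel k₀ with hg
  have hgs : HasCompactSupport g := hk₀.hasCompactSupport_abel
  have hge : ∀ r, g (-r) = g r := abel_even k₀
  -- derivatives of `g`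
  have hg3 : ContDiff ℝ 3 (deriv g) := by
    have : ContDiff ℝ (3 + 1) g := by
      have e : (3 : WithTop ℕ∞) + 1 = 4 := by norm_num
      rw [e]; exact hk4
    exact (contDiff_succ_iff_deriv.mp this).2.2
  have hg2 : ContDiff ℝ 2 (deriv (deriv g)) := by
    have : ContDiff ℝ (2 + 1) (deriv g) := by
      have e : (2 : WithTop ℕ∞) + 1 = 3 := by norm_num
      rw [e]; exact hg3
    exact (contDiff_succ_iff_deriv.mp this).2.2
  have hde : ∀ r, deriv (deriv g) (-r) = deriv (deriv g) r := by
    intro r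
    have h1 : (fun r => deriv g (-r)) = fun r => - deriv g r :=
      funext fun r => deriv_neg_of_even hge r
    have h2 := deriv_comp_neg (deriv g) r
    rw [h1] at h2
    rw [deriv.fun_neg] at h2
    exact (neg_inj.mp h2).symm
  have hds : HasCompactSupport (deriv (deriv g)) := hgs.deriv.deriv
  set k₁ := ofAbel (deriv (deriv g)) with hk₁
  have ik₁ : IsKer k₁ := isKer_ofAbel hg2 hde hds
  have ak₁ : abel k₁ = deriv (deriv g) := abel_ofAbel' hg2 hde hds
  obtain ⟨ν, hν⟩ := IsAlgClosed.exists_pow_nat_eq (lam k₁ / lam k₀) (n := 2) two_pos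
  -- the kernel with Abel transform `g'' - ν² g`
  set kq : ℝ → ℂ := fun t => k₁ t + (-ν ^ 2) * k₀ t with hkq
  have ikq : IsKer kq := ik₁.add (hk₀.smul _)
  have akq : abel kq = fun r => deriv (deriv g) r + (-ν ^ 2) * g r := by
    ext r
    rw [hkq, abel_add ik₁ (hk₀.smul _), abel_const_mul, ak₁]
  have lkq : lam kq = 0 := by
    rw [hkq, hl.add _ _ ik₁ (hk₀.smul _), hl.smul _ _ hk₀, hν]
    field_simp
    ring
  -- the kernel of `sph ν` is contained in the kernel of `lam`
  have key : ∀ k, IsKer k → sph ν k = 0 → lam k = 0 := by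
    intro k hk h0
    rw [sph_eq_cosh hk] at h0
    obtain ⟨G, hG2, hGe, hGs, hGeq⟩ := exists_resolvent ν hk.contDiff_abel.continuous
      (abel_even k) hk.hasCompactSupport_abel h0
    have ikG : IsKer (ofAbel G) := isKer_ofAbel hG2 hGe hGs
    have akG : abel (ofAbel G) = G := abel_ofAbel' hG2 hGe hGs
    have hG1 : ContDiff ℝ 1 (deriv G) := by
      have : ContDiff ℝ (1 + 1) G := by
        have e : (1 : WithTop ℕ∞) + 1 = 2 := by norm_num
        rw [e]; exact hG2
      exact (contDiff_succ_iff_deriv.mp this).2.2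
    have hG0 : Continuous (deriv (deriv G)) := (contDiff_one_iff_deriv.mp hG1).2
    have hGs' : HasCompactSupport (deriv (deriv G)) := hGs.deriv.deriv
    have e1 : cv g (abel k) = cv (abel kq) (abel (ofAbel G)) := by
      rw [akG]
      have e2 : abel k = fun r => deriv (deriv G) r + (-ν ^ 2) * G r := by
        ext r
        rw [hGeq r]
        ring
      ext x
      have i1 : HasCompactSupport fun r => (-ν ^ 2) * G r := hGs.mul_left
      have i2 : HasCompactSupport fun r => (-ν ^ 2) * g r := hgs.mul_left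
      rw [e2, cv_add_right hk4.continuous hGs' hG0 i1 (continuous_const.mul hG2.continuous),
        cv_const_mul_right, akq, cv_comm (fun r => deriv (deriv g) r + (-ν ^ 2) * g r) G,
        cv_add_right hG2.continuous hds hg2.continuous i2 (continuous_const.mul hk4.continuous),
        cv_const_mul_right, cv_comm G g]
      congr 1
      rw [cv_comm G, cv_deriv hgs.deriv (hg3.of_le (by norm_num)) hGs (hG2.of_le one_le_two),
        cv_deriv hgs (hk4.of_le (by norm_num)) hGs.deriv hG1]
    have e3 : lam (kc k₀ k) = lam (kc kq (ofAbel G)) :=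
      hl.lam_eq_of_abel_eq (isKer_kc hk₀ hk) (isKer_kc ikq ikG)
        (by rw [abel_kc hk₀ hk, abel_kc ikq ikG, ← e1])
    rw [hl.lam_kc hk₀ hk, hl.lam_kc ikq ikG, lkq, zero_mul] at e3
    exact (mul_eq_zero.mp e3).resolve_left hne
  have hs0 : sph ν k₀ ≠ 0 := fun h => hne (key k₀ hk₀ h)
  set c := lam k₀ / sph ν k₀ with hc
  have hlin : ∀ k, IsKer k → lam k = c * sph ν k := by
    intro k hk
    have h1 : IsKer fun t => k t + (-(sph ν k / sph ν k₀)) * k₀ t := hk.add (hk₀.smul _)
    have h2 := key _ h1 (by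
      rw [sph_add hk (hk₀.smul _), sph_const_mul]
      field_simp
      ring)
    rw [hl.add _ _ hk (hk₀.smul _), hl.smul _ _ hk₀] at h2
    rw [hc]
    field_simp
    field_simp at h2
    linear_combination h2
  have hc1 : c = 1 := by
    have h1 := hlin _ (isKer_kc hk₀ hk₀)
    rw [hl.lam_kc hk₀ hk₀, sph_comp hk₀ hk₀ (abel_kc hk₀ hk₀), hlin k₀ hk₀] at h1
    have hc0 : c ≠ 0 := div_ne_zero hne hs0
    have h2 : c * (c * (sph ν k₀ * sph ν k₀)) = c * (1 * (sph ν k₀ * sph ν k₀)) := by
      linear_combination h1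
    exact mul_right_cancel₀ (mul_ne_zero hs0 hs0) (mul_left_cancel₀ hc0 h2)
  exact ⟨ν, fun k hk => by rw [hlin k hk, hc1, one_mul]⟩

end IsChar

end Fermat.Agent.LT.H3
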