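import Fermat.Agent.LT.H3.Radial
import Fermat.Agent.LT.H3.Nu

/-!
# Radial convolution operators on hyperbolic 3-space and their eigenfunctions (helper70)

* `Rk k f P = ∫ k (cu P Q) * f Q`; `Rk_comp`, `Rk_comm`, `Rk_smul`;
* `exists_ker_of_ne`: approximate identity;
* `IsEig.exists_nu`: the eigenvalue system of a continuous eigenfunction is `sph ν`;
* `Rk_height`: `Rk k (y ^ (1 + ν)) = sph ν k * y ^ (1 + ν)`.
-/

set_option autoImplicit false

open MeasureTheory Set Real

namespace Fermat.Agent.LT.H3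

/-- the operator with radial kernel `k (cu P Q)` -/
noncomputable def Rk (k : ℝ → ℂ) (f : H3 → ℂ) (P : H3) : ℂ := ∫ Q : H3, k (cu P Q) * f Q

variable {k k₁ k₂ : ℝ → ℂ} {f : H3 → ℂ}

theorem IsKer.continuous_cu (hk : IsKer k) (P : H3) : Continuous fun Q => k (cu P Q) :=
  hk.cont.comp (continuous_cu_right P)

theorem IsKer.hasCompactSupport (hk : IsKer k) (P : H3) :
    HasCompactSupport fun Q => k (cu P Q) := by
  obtain ⟨C, hC⟩ := hk.bdd
  exact HasCompactSupport.intro (isCompact_ball P C)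
    fun Q hQ => hC _ (le_of_lt (not_le.mp hQ))

theorem IsKer.integrable (hk : IsKer k) (hf : LocallyIntegrable f) (P : H3) :
    Integrable fun Q => k (cu P Q) * f Q := by
  have h := hf.integrable_smul_left_of_hasCompactSupport (hk.continuous_cu P)
    (hk.hasCompactSupport P)
  exact h

theorem Rk_smul (g : GL (Fin 2) ℂ) (P : H3) :
    Rk k (fun Q => f (g • Q)) P = Rk k f (g • P) := by
  rw [Rk, Rk, ← integral_smul_eq (fun Q => k (cu (g • P) Q) * f Q) g]
  simp only [cu_smul]

theorem Rk_add (h₁ : IsKer k₁) (h₂ : IsKer k₂) (hf : LocallyIntegrable f) (P : H3) :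
    Rk (fun t => k₁ t + k₂ t) f P = Rk k₁ f P + Rk k₂ f P := by
  rw [Rk, Rk, Rk, ← integral_add (h₁.integrable hf P) (h₂.integrable hf P)]
  exact integral_congr_ae (Filter.Eventually.of_forall fun Q => add_mul _ _ _)

theorem Rk_const_mul (c : ℂ) (P : H3) : Rk (fun t => c * k t) f P = c * Rk k f P := by
  rw [Rk, Rk, ← integral_const_mul]
  exact integral_congr_ae (Filter.Eventually.of_forall fun Q => mul_assoc _ _ _)

theorem Rk_congr (h : EqOn k₁ k₂ (Ici 1)) (P : H3) : Rk k₁ f P = Rk k₂ f P := by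
  rw [Rk, Rk]
  refine integral_congr_ae (Filter.Eventually.of_forall fun Q => ?_)
  change k₁ (cu P Q) * f Q = k₂ (cu P Q) * f Q
  rw [h (one_le_cu P Q)]

theorem IsKer.norm_coe (h : IsKer k) : IsKer fun t => ((‖k t‖ : ℝ) : ℂ) := by
  obtain ⟨C, hC⟩ := h.bdd
  refine ⟨Complex.continuous_ofReal.comp h.cont.norm, C, fun t ht => ?_⟩
  rw [hC t ht, norm_zero, Complex.ofReal_zero]

/-- **Composition of radial operators.** -/
theorem Rk_comp (h₁ : IsKer k₁) (h₂ : IsKer k₂) (hf : LocallyIntegrable f) (P : H3) :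
    Rk k₁ (Rk k₂ f) P = Rk (kap0 k₁ k₂) f P := by
  have hm : AEStronglyMeasurable (Function.uncurry fun (W Q : H3) =>
      k₁ (cu P W) * (k₂ (cu W Q) * f Q)) ((volume : Measure H3).prod (volume : Measure H3)) := by
    have e1 : Continuous fun p : H3 × H3 => k₁ (cu P p.1) :=
      h₁.cont.comp (continuous_cu' continuous_const continuous_fst)
    have e2 : Continuous fun p : H3 × H3 => k₂ (cu p.1 p.2) := h₂.cont.comp H3.continuous_cu
    exact e1.aestronglyMeasurable.mul
      (e2.aestronglyMeasurable.mul hf.aestronglyMeasurable.comp_snd)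
  have hint : Integrable (Function.uncurry fun (W Q : H3) =>
      k₁ (cu P W) * (k₂ (cu W Q) * f Q)) ((volume : Measure H3).prod (volume : Measure H3)) := by
    rw [integrable_prod_iff' hm]
    constructor
    · refine Filter.Eventually.of_forall fun Q => ?_
      have e1 : Continuous fun W : H3 => k₁ (cu P W) * (k₂ (cu W Q) * f Q) :=
        (h₁.continuous_cu P).mul ((h₂.cont.comp (continuous_cu_left Q)).mul continuous_const)
      exact e1.integrable_of_hasCompactSupport (h₁.hasCompactSupport P).mul_right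
    · have e1 : (fun Q : H3 => ∫ W : H3, ‖Function.uncurry (fun (W Q : H3) =>
          k₁ (cu P W) * (k₂ (cu W Q) * f Q)) (W, Q)‖) =
          fun Q => ‖kap0 (fun t => ((‖k₁ t‖ : ℝ) : ℂ)) (fun t => ((‖k₂ t‖ : ℝ) : ℂ)) (cu P Q) *
            f Q‖ := by
        ext Q
        have e2 : ∀ W : H3, ‖Function.uncurry (fun (W Q : H3) =>
            k₁ (cu P W) * (k₂ (cu W Q) * f Q)) (W, Q)‖ =
            (‖k₁ (cu P W)‖ * ‖k₂ (cu W Q)‖) * ‖f Q‖ := by
          intro W
          simp only [Function.uncurry_apply_pair, norm_mul]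
          ring
        rw [integral_congr_ae (Filter.Eventually.of_forall e2), integral_mul_const, norm_mul,
          ← kap_eq_kap0, kap]
        congr 1
        have e3 : ∫ W : H3, ((‖k₁ (cu P W)‖ : ℝ) : ℂ) * ((‖k₂ (cu W Q)‖ : ℝ) : ℂ) =
            ((∫ W : H3, ‖k₁ (cu P W)‖ * ‖k₂ (cu W Q)‖ : ℝ) : ℂ) := by
          rw [← integral_complex_ofReal]
          refine integral_congr_ae (Filter.Eventually.of_forall fun W => ?_)
          push_cast
          rfl
        rw [e3, Complex.norm_real, Real.norm_eq_abs, abs_of_nonneg]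
        exact integral_nonneg fun W => mul_nonneg (norm_nonneg _) (norm_nonneg _)
      rw [e1]
      exact ((isKer_kap0 h₁.norm_coe h₂.norm_coe).integrable hf P).norm
  have e0 : Rk k₁ (Rk k₂ f) P = ∫ W : H3, ∫ Q : H3, k₁ (cu P W) * (k₂ (cu W Q) * f Q) := by
    rw [Rk]
    refine integral_congr_ae (Filter.Eventually.of_forall fun W => ?_)
    exact (integral_const_mul (k₁ (cu P W)) (fun Q : H3 => k₂ (cu W Q) * f Q)).symm
  rw [e0, integral_integral_swap hint, Rk]
  refine integral_congr_ae (Filter.Eventually.of_forall fun Q => ?_)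
  change ∫ W : H3, k₁ (cu P W) * (k₂ (cu W Q) * f Q) = kap0 k₁ k₂ (cu P Q) * f Q
  rw [← kap_eq_kap0, kap, ← integral_mul_const]
  exact integral_congr_ae (Filter.Eventually.of_forall fun W => (mul_assoc _ _ _).symm)

theorem Rk_comm (h₁ : IsKer k₁) (h₂ : IsKer k₂) (hf : LocallyIntegrable f) (P : H3) :
    Rk k₁ (Rk k₂ f) P = Rk k₂ (Rk k₁ f) P := by
  rw [Rk_comp h₁ h₂ hf, Rk_comp h₂ h₁ hf, Rk, Rk]
  refine integral_congr_ae (Filter.Eventually.of_forall fun Q => ?_)
  change kap0 k₁ k₂ (cu P Q) * f Q = kap0 k₂ k₁ (cu P Q) * f Q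
  rw [← kap_eq_kap0, ← kap_eq_kap0, kap_comm h₁ h₂]

/-! ### The approximate identity -/

/-- small balls form a basis of neighbourhoods -/
theorem exists_ball_subset (P : H3) {U : Set H3} (hU : U ∈ nhds P) :
    ∃ δ : ℝ, 0 < δ ∧ ∀ Q, cu P Q < 1 + δ → Q ∈ U := by
  set K : Set H3 := {Q | cu P Q ≤ 2} \ interior U with hK
  have hKc : IsCompact K := (isCompact_ball P 2).diff isOpen_interior
  by_cases hne : K.Nonempty
  · obtain ⟨Q₀, hQ₀, hmin⟩ := hKc.exists_isMinOn hne (continuous_cu_right P).continuousOn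
    have h1 : 1 < cu P Q₀ := by
      rcases (one_le_cu P Q₀).lt_or_eq with h | h
      · exact h
      · exfalso
        have : P = Q₀ := cu_eq_one_iff.mp h.symm
        rw [← this] at hQ₀
        exact hQ₀.2 (mem_interior_iff_mem_nhds.mpr hU)
    refine ⟨min (cu P Q₀ - 1) 1, lt_min (by linarith) one_pos, fun Q hQ => ?_⟩
    by_contra hn
    have hQK : Q ∈ K := ⟨by
      have := min_le_right (cu P Q₀ - 1) 1
      change cu P Q ≤ 2
      linarith, fun h => hn (interior_subset h)⟩
    have h2 : cu P Q₀ ≤ cu P Q := hmin hQK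
    have := min_le_left (cu P Q₀ - 1) 1
    linarith
  · refine ⟨1, one_pos, fun Q hQ => ?_⟩
    by_contra hn
    exact hne ⟨Q, by change cu P Q ≤ 2; linarith, fun h => hn (interior_subset h)⟩

instance : (volume : Measure H3).IsOpenPosMeasure := by
  refine ⟨fun U hU hne => ?_⟩
  rw [volume_eq_lintegral hU.measurableSet]
  refine (lt_of_lt_of_le ?_ le_rfl : (0 : ENNReal) < _).ne'
  have hm : Measurable fun p : ℂ × ℝ => ENNReal.ofReal ((p.2 ^ 3)⁻¹) :=
    ENNReal.measurable_ofReal.comp (measurable_snd.pow_const 3).inv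
  rw [setLIntegral_pos_iff hm]
  have hsub : coe '' U ⊆ Function.support fun p : ℂ × ℝ => ENNReal.ofReal ((p.2 ^ 3)⁻¹) := by
    rintro _ ⟨P, -, rfl⟩
    rw [Function.mem_support]
    exact (ENNReal.ofReal_pos.mpr (inv_pos.mpr (pow_pos P.y_pos 3))).ne'
  rw [inter_eq_right.mpr hsub]
  exact (isOpenEmbedding_coe.isOpenMap U hU).measure_pos _ (hne.image _)

/-- the bump kernel -/
noncomputable def bump (δ : ℝ) (t : ℝ) : ℂ := ((max (1 + δ - t) 0 : ℝ) : ℂ)

theorem isKer_bump (δ : ℝ) : IsKer (bump δ) := by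
  refine ⟨Complex.continuous_ofReal.comp
    ((continuous_const.sub continuous_id).max continuous_const), 1 + δ, fun t ht => ?_⟩
  rw [bump, max_eq_right (by linarith), Complex.ofReal_zero]

theorem bump_integral_pos {δ : ℝ} (hδ : 0 < δ) (P : H3) :
    0 < ∫ Q : H3, max (1 + δ - cu P Q) 0 := by
  have hc : Continuous fun Q : H3 => max (1 + δ - cu P Q) 0 :=
    (continuous_const.sub (continuous_cu_right P)).max continuous_const
  have hs : HasCompactSupport fun Q : H3 => max (1 + δ - cu P Q) 0 :=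
    HasCompactSupport.intro (isCompact_ball P (1 + δ))
      fun Q hQ => max_eq_right (by
        have : 1 + δ < cu P Q := not_le.mp hQ
        linarith)
  have hpos : ∀ Q : H3, 0 ≤ max (1 + δ - cu P Q) 0 := fun Q => le_max_right _ _
  rw [integral_pos_iff_support_of_nonneg hpos (hc.integrable_of_hasCompactSupport hs)]
  have hopen : IsOpen (Function.support fun Q : H3 => max (1 + δ - cu P Q) 0) :=
    hc.isOpen_support
  have hmem : P ∈ Function.support fun Q : H3 => max (1 + δ - cu P Q) 0 := by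
    rw [Function.mem_support, cu_self]
    have : max (1 + δ - 1) 0 = δ := by
      rw [add_sub_cancel_left]
      exact max_eq_left hδ.le
    rw [this]
    exact hδ.ne'
  exact hopen.measure_pos _ ⟨P, hmem⟩

/-- **Approximate identity**: a normalised nonnegative kernel with support close to `1`. -/
theorem exists_approx (P : H3) (hf : LocallyIntegrable f) (hfc : ContinuousAt f P) {ε : ℝ}
    (hε : 0 < ε) : ∃ k : ℝ → ℝ, IsKer (fun t => (k t : ℂ)) ∧ (∀ t, 0 ≤ k t) ∧
      ‖Rk (fun t => (k t : ℂ)) f P - f P‖ ≤ ε := by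
  obtain ⟨δ, hδ, hU⟩ := exists_ball_subset P
    (hfc (Metric.closedBall_mem_nhds (f P) hε))
  set I : ℝ := ∫ Q : H3, max (1 + δ - cu P Q) 0 with hI
  have hIpos : 0 < I := bump_integral_pos hδ P
  have hb : IsKer fun t => ((I⁻¹ * max (1 + δ - t) 0 : ℝ) : ℂ) := by
    have := (isKer_bump δ).smul (I⁻¹ : ℂ)
    refine ⟨?_, 1 + δ, fun t ht => ?_⟩
    · exact Complex.continuous_ofReal.comp (continuous_const.mul
        ((continuous_const.sub continuous_id).max continuous_const))
    · rw [max_eq_right (by linarith), mul_zero, Complex.ofReal_zero]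
  refine ⟨fun t => I⁻¹ * max (1 + δ - t) 0, hb,
    fun t => mul_nonneg (inv_nonneg.mpr hIpos.le) (le_max_right _ _), ?_⟩
  have hc : Continuous fun Q : H3 => max (1 + δ - cu P Q) 0 :=
    (continuous_const.sub (continuous_cu_right P)).max continuous_const
  have hs : HasCompactSupport fun Q : H3 => max (1 + δ - cu P Q) 0 :=
    HasCompactSupport.intro (isCompact_ball P (1 + δ))
      fun Q hQ => max_eq_right (by
        have : 1 + δ < cu P Q := not_le.mp hQ
        linarith)
  have hib : Integrable fun Q : H3 => I⁻¹ * max (1 + δ - cu P Q) 0 :=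
    (hc.integrable_of_hasCompactSupport hs).const_mul _
  have h1 : ∫ Q : H3, I⁻¹ * max (1 + δ - cu P Q) 0 = 1 := by
    rw [integral_const_mul, ← hI, inv_mul_cancel₀ hIpos.ne']
  have h2 : f P = ∫ Q : H3, ((I⁻¹ * max (1 + δ - cu P Q) 0 : ℝ) : ℂ) * f P := by
    rw [integral_mul_const, integral_complex_ofReal, h1, Complex.ofReal_one, one_mul]
  have h3 : Integrable fun Q : H3 => ((I⁻¹ * max (1 + δ - cu P Q) 0 : ℝ) : ℂ) * f P :=
    hib.ofReal.mul_const _
  have h4 := hb.integrable hf P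
  have h5 : Rk (fun t => ((I⁻¹ * max (1 + δ - t) 0 : ℝ) : ℂ)) f P - f P =
      ∫ Q : H3, ((I⁻¹ * max (1 + δ - cu P Q) 0 : ℝ) : ℂ) * (f Q - f P) := by
    have h7 : ∫ Q : H3, ((I⁻¹ * max (1 + δ - cu P Q) 0 : ℝ) : ℂ) * (f Q - f P) =
        (∫ Q : H3, ((I⁻¹ * max (1 + δ - cu P Q) 0 : ℝ) : ℂ) * f Q) -
        ∫ Q : H3, ((I⁻¹ * max (1 + δ - cu P Q) 0 : ℝ) : ℂ) * f P := by
      rw [← integral_sub h4 h3]
      exact integral_congr_ae (Filter.Eventually.of_forall fun Q => mul_sub _ _ _)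
    rw [h7, ← h2]
    rfl
  rw [h5]
  refine (norm_integral_le_integral_norm _).trans ?_
  have h6 : ∫ Q : H3, ‖((I⁻¹ * max (1 + δ - cu P Q) 0 : ℝ) : ℂ) * (f Q - f P)‖ ≤
      ∫ Q : H3, (I⁻¹ * max (1 + δ - cu P Q) 0) * ε := by
    refine integral_mono_of_nonneg (Filter.Eventually.of_forall fun Q => norm_nonneg _)
      (hib.mul_const ε) (Filter.Eventually.of_forall fun Q => ?_)
    change ‖((I⁻¹ * max (1 + δ - cu P Q) 0 : ℝ) : ℂ) * (f Q - f P)‖ ≤ _
    have hnn : 0 ≤ I⁻¹ * max (1 + δ - cu P Q) 0 :=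
      mul_nonneg (inv_nonneg.mpr hIpos.le) (le_max_right _ _)
    rw [norm_mul, Complex.norm_real, Real.norm_eq_abs, abs_of_nonneg hnn]
    by_cases hQ : cu P Q < 1 + δ
    · refine mul_le_mul_of_nonneg_left ?_ hnn
      have := hU Q hQ
      rw [mem_preimage, Metric.mem_closedBall, dist_eq_norm] at this
      exact this
    · have h8 : max (1 + δ - cu P Q) 0 = 0 := max_eq_right (by linarith [not_lt.mp hQ])
      simp only [h8, mul_zero, zero_mul]
      exact le_rfl
  refine h6.trans ?_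
  rw [integral_mul_const, h1, one_mul]

/-- a kernel which does not kill `f` -/
theorem exists_ker_of_ne (hf : LocallyIntegrable f) {P : H3} (hfc : ContinuousAt f P)
    (hne : f P ≠ 0) : ∃ k, IsKer k ∧ Rk k f P ≠ 0 := by
  obtain ⟨k, hk, -, h⟩ := exists_approx P hf hfc (ε := ‖f P‖ / 2)
    (half_pos (norm_pos_iff.mpr hne))
  refine ⟨_, hk, fun h0 => ?_⟩
  rw [h0, zero_sub, norm_neg] at h
  have := norm_pos_iff.mpr hne
  linarith

/-! ### Joint eigenfunctions -/

/-- `f` is an eigenfunction of all radial operators, with eigenvalues `lam k`. -/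
structure IsEig (f : H3 → ℂ) (lam : (ℝ → ℂ) → ℂ) : Prop where
  cont : Continuous f
  eig : ∀ k, IsKer k → ∀ P, Rk k f P = lam k * f P

theorem IsEig.isChar {lam : (ℝ → ℂ) → ℂ} (h : IsEig f lam) (hne : ∃ P, f P ≠ 0) :
    IsChar lam := by
  obtain ⟨P, hP⟩ := hne
  have hf : LocallyIntegrable f := h.cont.locallyIntegrable
  have cancel : ∀ {a b : ℂ}, a * f P = b * f P → a = b := fun e => mul_right_cancel₀ hP e
  refine ⟨?_, ?_, ?_, ?_, ?_⟩
  · intro k k' hk hk'
    apply cancel
    rw [← h.eig _ (hk.add hk'), Rk_add hk hk' hf, h.eig _ hk, h.eig _ hk']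
    ring
  · intro c k hk
    apply cancel
    rw [← h.eig _ (hk.smul c), Rk_const_mul, h.eig _ hk]
    ring
  · intro k k' hk hk' e
    apply cancel
    rw [← h.eig _ hk, ← h.eig _ hk', Rk_congr e]
  · intro k₁ k₂ k h₁ h₂ hk e
    apply cancel
    have e1 : Rk k f P = Rk (kap0 k₁ k₂) f P := by
      have i := isKer_kap0 h₁ h₂
      obtain ⟨C, hC⟩ := hk.bdd
      obtain ⟨C', hC'⟩ := i.bdd
      exact Rk_congr (eqOn_of_abel_eq hk.cont hC i.cont hC' (by rw [e, abel_kap0 h₁ h₂])) P
    have e2 : Rk k₂ f = fun Q => lam k₂ * f Q := funext fun Q => h.eig _ h₂ Q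
    rw [← h.eig _ hk, e1, ← Rk_comp h₁ h₂ hf, e2]
    have e3 : Rk k₁ (fun Q => lam k₂ * f Q) P = lam k₂ * Rk k₁ f P := by
      rw [Rk, Rk, ← integral_const_mul]
      refine integral_congr_ae (Filter.Eventually.of_forall fun Q => ?_)
      change k₁ (cu P Q) * (lam k₂ * f Q) = lam k₂ * (k₁ (cu P Q) * f Q)
      ring
    rw [e3, h.eig _ h₁]
    ring
  · obtain ⟨k, hk, hne⟩ := exists_ker_of_ne hf h.cont.continuousAt hP
    refine ⟨k, hk, fun h0 => hne ?_⟩
    rw [h.eig _ hk, h0, zero_mul]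

/-- **Classification.** -/
theorem IsEig.exists_nu {lam : (ℝ → ℂ) → ℂ} (h : IsEig f lam) (hne : ∃ P, f P ≠ 0) :
    ∃ ν : ℂ, ∀ k, IsKer k → lam k = sph ν k :=
  (h.isChar hne).exists_nu

/-! ### Powers of the height -/

/-- `y ^ (1 + ν)` -/
noncomputable def hpow (ν : ℂ) (P : H3) : ℂ := (P.y : ℂ) * Complex.exp (ν * (log P.y : ℝ))

theorem continuous_hpow (ν : ℂ) : Continuous (hpow ν) := by
  refine (Complex.continuous_ofReal.comp continuous_y).mul (Complex.continuous_exp.comp
    (continuous_const.mul (Complex.continuous_ofReal.comp ?_)))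
  exact continuous_y.log fun W => W.y_pos.ne'

theorem Rk_hpow (hk : IsKer k) (ν : ℂ) (P : H3) : Rk k (hpow ν) P = sph ν k * hpow ν P := by
  have h1 := integral_ker_height hk P (F := fun s => Complex.exp (ν * s))
    (Complex.continuous_exp.comp (continuous_const.mul Complex.continuous_ofReal))
  have h2 : cv (abel k) (fun s => Complex.exp (ν * s)) (log P.y) =
      Complex.exp (ν * (log P.y : ℝ)) * sph (-ν) k := by
    rw [cv, sph, lap, ← integral_const_mul]
    refine integral_congr_ae (Filter.Eventually.of_forall fun t => ?_)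
    change abel k t * Complex.exp (ν * ((log P.y - t : ℝ) : ℂ)) =
      Complex.exp (ν * (log P.y : ℝ)) * (abel k t * Complex.exp (-ν * t))
    have : Complex.exp (ν * ((log P.y - t : ℝ) : ℂ)) =
        Complex.exp (ν * (log P.y : ℝ)) * Complex.exp (-ν * t) := by
      rw [← Complex.exp_add]
      congr 1
      push_cast
      ring
    rw [this]
    ring
  rw [h2, sph_neg] at h1
  change ∫ W : H3, k (cu P W) * ((W.y : ℂ) * Complex.exp (ν * (log W.y : ℝ))) = _
  rw [h1, hpow]
  ring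

theorem isEig_hpow (ν : ℂ) : IsEig (hpow ν) (sph ν) :=
  ⟨continuous_hpow ν, fun _ hk P => Rk_hpow hk ν P⟩

theorem IsEig.comp_smul {lam : (ℝ → ℂ) → ℂ} (h : IsEig f lam) (g : GL (Fin 2) ℂ) :
    IsEig (fun P => f (g • P)) lam :=
  ⟨h.cont.comp (continuous_const_smul g), fun k hk P => by rw [Rk_smul, h.eig k hk]⟩

end Fermat.Agent.LT.H3
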