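import Fermat.Agent.LT.H3.Measure

/-!
# Products of copies of hyperbolic 3-space

`ι → H3` with the componentwise action of `ι → GL (Fin 2) ℂ`, product measure, product kernels.
-/

open Complex MeasureTheory
open scoped ComplexConjugate MatrixGroups Topology ENNReal Pointwise

namespace Fermat.Agent.LT

namespace H3

noncomputable section

variable {ι : Type*} [Fintype ι]

omit [Fintype ι] in
theorem pi_smul_apply (g : ι → GL (Fin 2) ℂ) (x : ι → H3) (i : ι) : (g • x) i = g i • x i := rfl

instance instContinuousSMulPi : ContinuousSMul (ι → GL (Fin 2) ℂ) (ι → H3) where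
  continuous_smul := by
    refine continuous_pi fun i => ?_
    have h1 : Continuous fun p : (ι → GL (Fin 2) ℂ) × (ι → H3) => (p.1 i, p.2 i) := by fun_prop
    exact continuous_smul.comp h1

instance instContinuousConstSMulPi : ContinuousConstSMul (ι → GL (Fin 2) ℂ) (ι → H3) :=
  inferInstance

theorem measurePreserving_pi_smul (g : ι → GL (Fin 2) ℂ) :
    MeasurePreserving (fun x : ι → H3 => g • x) volume volume :=
  volume_preserving_pi fun i => measurePreserving_smul' (g i)

instance instSMulInvariantMeasurePi :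
    SMulInvariantMeasure (ι → GL (Fin 2) ℂ) (ι → H3) volume where
  measure_preimage_smul g _ hs := (measurePreserving_pi_smul g).measure_preimage hs.nullMeasurableSet

example : (volume : Measure (ι → H3)) = Measure.pi fun _ => volume := rfl

instance : SigmaFinite (volume : Measure (ι → H3)) := inferInstance

instance : IsLocallyFiniteMeasure (volume : Measure (ι → H3)) := inferInstance

instance : IsFiniteMeasureOnCompacts (volume : Measure (ι → H3)) := inferInstance

omit [Fintype ι] in
/-- Products of closed balls are compact. -/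
theorem isCompact_pi_ball (x : ι → H3) (R : ι → ℝ) :
    IsCompact {x' : ι → H3 | ∀ i, cu (x i) (x' i) ≤ R i} := by
  have := isCompact_univ_pi fun i => isCompact_ball (x i) (R i)
  convert! this using 1
  ext x'
  simp [Set.mem_pi]

/-- Product kernels. -/
def pk (k : ι → ℝ → ℂ) (x x' : ι → H3) : ℂ := ∏ i, k i (cu (x i) (x' i))

theorem pk_smul (k : ι → ℝ → ℂ) (g : ι → GL (Fin 2) ℂ) (x x' : ι → H3) :
    pk k (g • x) (g • x') = pk k x x' := by
  simp only [pk, pi_smul_apply, cu_smul]

theorem pk_comm (k : ι → ℝ → ℂ) (x x' : ι → H3) : pk k x x' = pk k x' x := by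
  simp only [pk, cu_comm]

theorem pk_eq_zero {k : ι → ℝ → ℂ} {R : ℝ} (hk : ∀ i t, R < t → k i t = 0) {x x' : ι → H3}
    {i : ι} (h : R < cu (x i) (x' i)) : pk k x x' = 0 :=
  Finset.prod_eq_zero (Finset.mem_univ i) (hk i _ h)

theorem continuous_pk {k : ι → ℝ → ℂ} (hk : ∀ i, Continuous (k i)) :
    Continuous fun p : (ι → H3) × (ι → H3) => pk k p.1 p.2 := by
  unfold pk
  refine continuous_finsetProd _ fun i _ => (hk i).comp ?_
  have h1 : Continuous fun p : (ι → H3) × (ι → H3) => (p.1 i, p.2 i) := by fun_prop
  exact continuous_cu.comp h1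

theorem hasCompactSupport_pk {k : ι → ℝ → ℂ} {R : ℝ} (hk : ∀ i t, R < t → k i t = 0)
    (x : ι → H3) : HasCompactSupport (pk k x) := by
  refine HasCompactSupport.intro (isCompact_pi_ball x fun _ => R) fun x' hx' => ?_
  simp only [Set.mem_ofPred_eq, not_forall, not_le] at hx'
  obtain ⟨i, hi⟩ := hx'
  exact pk_eq_zero hk hi

/-- The total mass of a radial kernel does not depend on the point. -/
theorem integral_radial_eq {E : Type*} [NormedAddCommGroup E] [NormedSpace ℝ E] (k : ℝ → E)
    (P Q : H3) : ∫ P', k (cu P P') = ∫ P', k (cu Q P') := by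
  obtain ⟨g, hg⟩ := MulAction.exists_smul_eq (GL (Fin 2) ℂ) P Q
  rw [← integral_smul_eq (fun P' => k (cu Q P')) g]
  simp only [← hg, cu_smul]

theorem lintegral_radial_eq (k : ℝ → ℝ≥0∞) (P Q : H3) :
    ∫⁻ P', k (cu P P') = ∫⁻ P', k (cu Q P') := by
  obtain ⟨g, hg⟩ := MulAction.exists_smul_eq (GL (Fin 2) ℂ) P Q
  rw [← lintegral_smul_eq (fun P' => k (cu Q P')) g]
  simp only [← hg, cu_smul]

theorem continuous_radial {k : ℝ → ℂ} (hk : Continuous k) (P : H3) :
    Continuous fun Q => k (cu P Q) := hk.comp (continuous_cu_right P)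

theorem hasCompactSupport_radial {k : ℝ → ℂ} {R : ℝ} (hk : ∀ t, R < t → k t = 0) (P : H3) :
    HasCompactSupport fun Q => k (cu P Q) :=
  HasCompactSupport.intro (isCompact_ball P R) fun _ hQ => hk _ (not_le.mp hQ)

/-- Radial kernels of bounded support are integrable against continuous functions. -/
theorem integrable_radial_mul {k : ℝ → ℂ} (hk : Continuous k) {R : ℝ}
    (hR : ∀ t, R < t → k t = 0) {f : H3 → ℂ} (hf : Continuous f) (P : H3) :
    Integrable fun Q => k (cu P Q) * f Q :=
  ((continuous_radial hk P).mul hf).integrable_of_hasCompactSupport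
    ((hasCompactSupport_radial hR P).mul_right)

theorem integrable_pk_mul {k : ι → ℝ → ℂ} (hk : ∀ i, Continuous (k i)) {R : ℝ}
    (hR : ∀ i t, R < t → k i t = 0) {f : (ι → H3) → ℂ} (hf : Continuous f) (x : ι → H3) :
    Integrable fun x' => pk k x x' * f x' :=
  (((continuous_pk hk).comp (continuous_const.prodMk continuous_id)).mul
    hf).integrable_of_hasCompactSupport ((hasCompactSupport_pk hR x).mul_right)

end

end H3

end Fermat.Agent.LT
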