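import Fermat.Agent.LT.H3.Abel

/-!
# Characters of the convolution algebra of radial kernels (helper70)

* `cv f g`: convolution on the line; `lap ν g = ∫ g(t) exp(ν t) dt`; `sph ν k = lap ν (abel k)`;
* `exists_nu`: a nonzero linear multiplicative functional on the radial kernels is `sph ν`.
-/

set_option autoImplicit false

open MeasureTheory Set Real ContinuousLinearMap
open scoped Convolution

namespace Fermat.Agent.LT.H3

/-- kernels: continuous functions of `cosh d`, zero for large argument -/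
structure IsKer (k : ℝ → ℂ) : Prop where
  cont : Continuous k
  bdd : ∃ C, ∀ t, C ≤ t → k t = 0

/-- convolution of functions on the line -/
noncomputable def cv (f g : ℝ → ℂ) : ℝ → ℂ := fun x => ∫ t, f t * g (x - t)

theorem cv_eq (f g : ℝ → ℂ) : cv f g = f ⋆[mul ℝ ℂ, volume] g := rfl

theorem cv_comm (f g : ℝ → ℂ) : cv f g = cv g f := by
  ext x
  rw [cv_eq, convolution_eq_swap]
  exact integral_congr_ae (Filter.Eventually.of_forall fun t => mul_comm _ _)

theorem cv_swap (f g : ℝ → ℂ) (x : ℝ) : cv f g x = ∫ t, f (x - t) * g t := by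
  rw [cv_eq, convolution_eq_swap]
  rfl

theorem IsKer.add {k k' : ℝ → ℂ} (h : IsKer k) (h' : IsKer k') : IsKer (fun t => k t + k' t) := by
  obtain ⟨C, hC⟩ := h.bdd
  obtain ⟨C', hC'⟩ := h'.bdd
  refine ⟨h.cont.add h'.cont, max C C', fun t ht => ?_⟩
  rw [hC t ((le_max_left _ _).trans ht), hC' t ((le_max_right _ _).trans ht), add_zero]

theorem IsKer.smul {k : ℝ → ℂ} (h : IsKer k) (c : ℂ) : IsKer (fun t => c * k t) := by
  obtain ⟨C, hC⟩ := h.bdd
  refine ⟨continuous_const.mul h.cont, C, fun t ht => ?_⟩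
  rw [hC t ht, mul_zero]

theorem IsKer.star {k : ℝ → ℂ} (h : IsKer k) : IsKer (fun t => starRingEnd ℂ (k t)) := by
  obtain ⟨C, hC⟩ := h.bdd
  refine ⟨Complex.continuous_conj.comp h.cont, C, fun t ht => ?_⟩
  rw [hC t ht, map_zero]


/-! ### Even functions with compact support -/

theorem IsKer.exists_pos {k : ℝ → ℂ} (h : IsKer k) : ∃ C, 0 < C ∧ ∀ t, C ≤ t → k t = 0 := by
  obtain ⟨C, hC⟩ := h.bdd
  exact ⟨max C 1, lt_max_of_lt_right one_pos, fun t ht => hC t ((le_max_left _ _).trans ht)⟩

theorem abs_le_two_cosh (r : ℝ) : |r| ≤ 2 * cosh r := by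
  rw [← Real.cosh_abs, Real.cosh_eq]
  have h1 := Real.add_one_le_exp |r|
  have h2 := Real.exp_pos (-|r|)
  linarith

theorem IsKer.abel_zero {k : ℝ → ℂ} (h : IsKer k) : ∃ R, 0 < R ∧ ∀ r, R ≤ |r| → abel k r = 0 := by
  obtain ⟨C, hC0, hC⟩ := h.exists_pos
  refine ⟨2 * C, by positivity, fun r hr => abel_eq_zero hC ?_⟩
  have := abs_le_two_cosh r
  linarith

theorem hasCompactSupport_of_zero {g : ℝ → ℂ} {R : ℝ} (h : ∀ r, R ≤ |r| → g r = 0) :
    HasCompactSupport g := by
  refine HasCompactSupport.intro (K := Icc (-R) R) isCompact_Icc fun x hx => h x ?_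
  by_contra hlt
  exact hx (abs_le.mp (not_le.mp hlt).le)

theorem exists_zero_of_hasCompactSupport {g : ℝ → ℂ} (h : HasCompactSupport g) :
    ∃ R, 0 < R ∧ ∀ r, R ≤ |r| → g r = 0 := by
  obtain ⟨R, hR⟩ := h.isCompact.isBounded.exists_norm_le
  refine ⟨max R 0 + 1, by positivity, fun r hr => ?_⟩
  by_contra hne
  have h1 := hR r (subset_tsupport _ hne)
  rw [Real.norm_eq_abs] at h1
  have := le_max_left R 0
  linarith

theorem IsKer.hasCompactSupport_abel {k : ℝ → ℂ} (h : IsKer k) : HasCompactSupport (abel k) := by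
  obtain ⟨R, -, hR⟩ := h.abel_zero
  exact hasCompactSupport_of_zero hR

theorem IsKer.contDiff_abel {k : ℝ → ℂ} (h : IsKer k) : ContDiff ℝ 1 (abel k) := by
  obtain ⟨C, hC⟩ := h.bdd
  exact H3.contDiff_abel h.cont hC

theorem isKer_ofAbel {g : ℝ → ℂ} (hg : ContDiff ℝ 2 g) (he : ∀ r, g (-r) = g r)
    (hs : HasCompactSupport g) : IsKer (ofAbel g) := by
  obtain ⟨R, hR0, hR⟩ := exists_zero_of_hasCompactSupport hs
  exact ⟨continuous_ofAbel hg he, cosh R, ofAbel_eq_zero he hR0
    (fun r hr => hR r (hr.trans (le_abs_self r))) (hg.of_le one_le_two)⟩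

theorem abel_ofAbel' {g : ℝ → ℂ} (hg : ContDiff ℝ 2 g) (he : ∀ r, g (-r) = g r)
    (hs : HasCompactSupport g) : abel (ofAbel g) = g := by
  obtain ⟨R, hR0, hR⟩ := exists_zero_of_hasCompactSupport hs
  exact abel_ofAbel hg he hR0 (fun r hr => hR r (hr.trans (le_abs_self r)))

section Cv

variable {f g : ℝ → ℂ}

theorem cv_even (hf : ∀ r, f (-r) = f r) (hg : ∀ r, g (-r) = g r) (r : ℝ) :
    cv f g (-r) = cv f g r :=
  convolution_neg_of_neg_eq (μ := volume) (mul ℝ ℂ) (Filter.Eventually.of_forall hf)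
    (Filter.Eventually.of_forall hg)

theorem cv_hasCompactSupport (hf : HasCompactSupport f) (hg : HasCompactSupport g) :
    HasCompactSupport (cv f g) := by
  rw [cv_eq]
  exact HasCompactSupport.convolution (μ := volume) (mul ℝ ℂ) hf hg

theorem cv_continuous (hf : Continuous f) (hgs : HasCompactSupport g) (hg : Continuous g) :
    Continuous (cv f g) :=
  hgs.continuous_convolution_right (μ := volume) (mul ℝ ℂ) hf.locallyIntegrable hg

theorem cv_hasDerivAt_right (hf : Continuous f) (hgs : HasCompactSupport g) (hg : ContDiff ℝ 1 g)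
    (x : ℝ) : HasDerivAt (cv f g) (cv f (deriv g) x) x :=
  hgs.hasDerivAt_convolution_right (μ := volume) (mul ℝ ℂ) hf.locallyIntegrable hg x

theorem cv_hasDerivAt_left (hfs : HasCompactSupport f) (hf : ContDiff ℝ 1 f) (hg : Continuous g)
    (x : ℝ) : HasDerivAt (cv f g) (cv (deriv f) g x) x :=
  hfs.hasDerivAt_convolution_left (μ := volume) (mul ℝ ℂ) hf hg.locallyIntegrable x

theorem cv_deriv (hfs : HasCompactSupport f) (hf : ContDiff ℝ 1 f) (hgs : HasCompactSupport g)
    (hg : ContDiff ℝ 1 g) : cv (deriv f) g = cv f (deriv g) := by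
  ext x
  exact (cv_hasDerivAt_left hfs hf hg.continuous x).unique
    (cv_hasDerivAt_right hf.continuous hgs hg x)

theorem cv_contDiff_succ {n : ℕ} (hfs : HasCompactSupport f) (hf : ContDiff ℝ 1 f)
    (hgs : HasCompactSupport g) (hg : ContDiff ℝ n g) : ContDiff ℝ (n + 1 : ℕ) (cv f g) := by
  have h1 : deriv (cv f g) = cv (deriv f) g := by
    ext x
    exact (cv_hasDerivAt_left hfs hf hg.continuous x).deriv
  rw [show ((n + 1 : ℕ) : WithTop ℕ∞) = (n : WithTop ℕ∞) + 1 by push_cast; rfl,
    contDiff_succ_iff_deriv]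
  refine ⟨fun x => (cv_hasDerivAt_left hfs hf hg.continuous x).differentiableAt, ?_, ?_⟩
  · intro h
    exact absurd h (by simp)
  · rw [h1]
    have h2 : Continuous (deriv f) := (contDiff_one_iff_deriv.mp hf).2
    exact hgs.contDiff_convolution_right (μ := volume) (n := n) (mul ℝ ℂ) h2.locallyIntegrable hg

theorem cv_add_right {g' : ℝ → ℂ} (hf : Continuous f) (hgs : HasCompactSupport g)
    (hg : Continuous g) (hgs' : HasCompactSupport g') (hg' : Continuous g') (x : ℝ) :
    cv f (fun t => g t + g' t) x = cv f g x + cv f g' x :=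
  (hgs.convolutionExists_right (μ := volume) (mul ℝ ℂ) hf.locallyIntegrable hg x).distrib_add
    (hgs'.convolutionExists_right (μ := volume) (mul ℝ ℂ) hf.locallyIntegrable hg' x)

theorem cv_const_mul_right (c : ℂ) (x : ℝ) : cv f (fun t => c * g t) x = c * cv f g x := by
  rw [cv, cv, ← integral_const_mul]
  refine integral_congr_ae (Filter.Eventually.of_forall fun t => ?_)
  change f t * (c * g (x - t)) = c * (f t * g (x - t))
  ring

end Cv

/-! ### The two-sided Laplace transform -/

/-- `∫ g(t) exp(ν t) dt` -/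
noncomputable def lap (ν : ℂ) (g : ℝ → ℂ) : ℂ := ∫ t : ℝ, g t * Complex.exp (ν * t)

/-- the spherical transform -/
noncomputable def sph (ν : ℂ) (k : ℝ → ℂ) : ℂ := lap ν (abel k)

section Lap

variable {f g : ℝ → ℂ} {ν : ℂ}

theorem lap_integrable (hg : Continuous g) (hs : HasCompactSupport g) (ν : ℂ) :
    Integrable fun t : ℝ => g t * Complex.exp (ν * t) :=
  (hg.mul (Complex.continuous_exp.comp (continuous_const.mul Complex.continuous_ofReal))
    ).integrable_of_hasCompactSupport hs.mul_right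

theorem lap_cv (hf : Continuous f) (hfs : HasCompactSupport f) (hg : Continuous g)
    (hgs : HasCompactSupport g) (ν : ℂ) : lap ν (cv f g) = lap ν f * lap ν g := by
  have h1 := integral_convolution (mul ℝ ℂ) (lap_integrable hf hfs ν) (lap_integrable hg hgs ν)
  rw [lap, lap, lap]
  refine Eq.trans ?_ h1
  refine integral_congr_ae (Filter.Eventually.of_forall fun x => ?_)
  change cv f g x * Complex.exp (ν * x) = ∫ t : ℝ, f t * Complex.exp (ν * t) *
    (g (x - t) * Complex.exp (ν * ((x - t : ℝ) : ℂ)))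
  rw [cv, ← integral_mul_const]
  refine integral_congr_ae (Filter.Eventually.of_forall fun t => ?_)
  change f t * g (x - t) * Complex.exp (ν * x) = _
  have : Complex.exp (ν * x) = Complex.exp (ν * t) * Complex.exp (ν * ((x - t : ℝ) : ℂ)) := by
    rw [← Complex.exp_add]
    congr 1
    push_cast
    ring
  rw [this]
  ring

theorem lap_neg (he : ∀ r, g (-r) = g r) (ν : ℂ) : lap (-ν) g = lap ν g := by
  rw [lap, lap, ← integral_neg_eq_self]
  refine integral_congr_ae (Filter.Eventually.of_forall fun t => ?_)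
  change g (-t) * Complex.exp (-ν * ((-t : ℝ) : ℂ)) = g t * Complex.exp (ν * t)
  rw [he]
  congr 2
  push_cast
  ring

theorem lap_eq_cosh (hg : Continuous g) (hs : HasCompactSupport g) (he : ∀ r, g (-r) = g r)
    (ν : ℂ) : lap ν g = ∫ t : ℝ, g t * Complex.cosh (ν * t) := by
  have h1 : (fun t : ℝ => g t * Complex.cosh (ν * t)) = fun t : ℝ =>
      (1 / 2 : ℂ) * (g t * Complex.exp (ν * t) + g t * Complex.exp (-ν * t)) := by
    ext t
    rw [Complex.cosh, neg_mul]
    ring
  rw [h1, integral_const_mul, integral_add (lap_integrable hg hs ν) (lap_integrable hg hs (-ν))]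
  change _ = (1 / 2 : ℂ) * (lap ν g + lap (-ν) g)
  rw [lap_neg he]
  ring

theorem lap_add (hf : Continuous f) (hfs : HasCompactSupport f) (hg : Continuous g)
    (hgs : HasCompactSupport g) (ν : ℂ) : lap ν (fun t => f t + g t) = lap ν f + lap ν g := by
  rw [lap, lap, lap, ← integral_add (lap_integrable hf hfs ν) (lap_integrable hg hgs ν)]
  refine integral_congr_ae (Filter.Eventually.of_forall fun t => ?_)
  exact add_mul _ _ _

theorem lap_const_mul (c : ℂ) (ν : ℂ) : lap ν (fun t => c * g t) = c * lap ν g := by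
  rw [lap, lap, ← integral_const_mul]
  refine integral_congr_ae (Filter.Eventually.of_forall fun t => ?_)
  exact mul_assoc _ _ _

/-- integration by parts -/
theorem lap_deriv (hg : ContDiff ℝ 1 g) (hs : HasCompactSupport g) (ν : ℂ) :
    lap ν (deriv g) = -(ν * lap ν g) := by
  have h0 : ∀ t : ℝ, HasDerivAt (fun t : ℝ => g t * Complex.exp (ν * t))
      (deriv g t * Complex.exp (ν * t) + g t * (ν * Complex.exp (ν * t))) t := by
    intro t
    have h1 : HasDerivAt g (deriv g t) t := (hg.differentiable one_ne_zero t).hasDerivAt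
    have h2 : HasDerivAt (fun t : ℝ => Complex.exp (ν * t)) (ν * Complex.exp (ν * t)) t := by
      have h3 : HasDerivAt (fun t : ℝ => ν * (t : ℂ)) ν t := by
        simpa using (Complex.ofRealCLM.hasDerivAt (x := t)).const_mul ν
      have h4 := (Complex.hasDerivAt_exp (ν * t)).comp t h3
      rw [mul_comm] at h4
      exact h4
    exact h1.mul h2
  have hc1 : Continuous (deriv g) := (contDiff_one_iff_deriv.mp hg).2
  have hs1 : HasCompactSupport (deriv g) := hs.deriv
  have i1 := lap_integrable hc1 hs1 ν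
  have i2 := lap_integrable hg.continuous hs ν
  have i3 : Integrable fun t : ℝ => g t * (ν * Complex.exp (ν * t)) := by
    refine (i2.const_mul ν).congr (Filter.Eventually.of_forall fun t => ?_)
    change ν * (g t * Complex.exp (ν * t)) = g t * (ν * Complex.exp (ν * t))
    ring
  have h5 := integral_eq_zero_of_hasDerivAt_of_integrable h0 (i1.add i3) i2
  rw [integral_add i1 i3] at h5
  have h6 : ∫ t : ℝ, g t * (ν * Complex.exp (ν * t)) = ν * lap ν g := by
    rw [lap, ← integral_const_mul]
    refine integral_congr_ae (Filter.Eventually.of_forall fun t => ?_)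
    change g t * (ν * Complex.exp (ν * t)) = ν * (g t * Complex.exp (ν * t))
    ring
  rw [h6] at h5
  exact eq_neg_of_add_eq_zero_left h5

end Lap

end Fermat.Agent.LT.H3
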