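import Fermat.Agent.LT.H3.Measure
import Fermat.Agent.LT.H3.Line

/-!
# Radial kernels on hyperbolic 3-space (helper70)

* `IsKer k`: `k : ℝ → ℂ` continuous, zero for large argument; the kernel is `k (cu P Q)`.
* `exists_comp`: composition of two radial kernels is radial and its Abel transform is the
  convolution of the Abel transforms.
-/

set_option autoImplicit false

open MeasureTheory Set Real ContinuousLinearMap
open scoped Convolution

namespace Fermat.Agent.LT.H3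

/-! ### bounds for coordinates -/

theorem cu_eq_norm (P Q : H3) :
    cu P Q = (‖P.z - Q.z‖ ^ 2 + P.y ^ 2 + Q.y ^ 2) / (2 * P.y * Q.y) := by
  rw [cu, Complex.sq_norm]

theorem norm_sq_le_of_cu_le {P Q : H3} {C : ℝ} (h : cu P Q ≤ C) :
    ‖P.z - Q.z‖ ^ 2 ≤ 2 * C * P.y * Q.y := by
  have hP := P.y_pos
  have hQ := Q.y_pos
  rw [cu_eq_norm, div_le_iff₀ (by positivity)] at h
  nlinarith [sq_nonneg P.y, sq_nonneg Q.y]

theorem cu_eq_cosh (z : ℂ) {y y' : ℝ} (hy : 0 < y) (hy' : 0 < y') :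
    cu (mk z y hy) (mk z y' hy') = cosh (log y - log y') := by
  rw [cosh_log_sub hy hy', cu_eq_norm]
  change (‖z - z‖ ^ 2 + y ^ 2 + y' ^ 2) / (2 * y * y') = _
  rw [sub_self, norm_zero]
  congr 1
  ring

/-! ### Composition -/

section Comp

variable {k₁ k₂ : ℝ → ℂ}

/-- the composed kernel as a function of two points -/
noncomputable def kap (k₁ k₂ : ℝ → ℂ) (P Q : H3) : ℂ := ∫ W : H3, k₁ (cu P W) * k₂ (cu W Q)

theorem kap_smul (g : GL (Fin 2) ℂ) (P Q : H3) : kap k₁ k₂ (g • P) (g • Q) = kap k₁ k₂ P Q := by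
  rw [kap, ← integral_smul_eq_self _ (g := g), kap]
  refine integral_congr_ae (Filter.Eventually.of_forall fun W => ?_)
  change k₁ (cu (g • P) (g • W)) * k₂ (cu (g • W) (g • Q)) = _
  rw [cu_smul, cu_smul]

theorem kap_eq_of_cu_eq {P Q P' Q' : H3} (h : cu P Q = cu P' Q') :
    kap k₁ k₂ P Q = kap k₁ k₂ P' Q' := by
  obtain ⟨g, rfl, rfl⟩ := exists_smul_smul_iff.mpr h
  rw [kap_smul]

theorem kap_eq_setIntegral {C : ℝ} (hC : ∀ t, C ≤ t → k₁ t = 0) (P Q : H3) :
    kap k₁ k₂ P Q = ∫ W in {W : H3 | cu P W ≤ C}, k₁ (cu P W) * k₂ (cu W Q) := by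
  rw [kap]
  symm
  refine setIntegral_eq_integral_of_forall_compl_eq_zero fun W hW => ?_
  have : C ≤ cu P W := le_of_lt (not_le.mp hW)
  rw [hC _ this, zero_mul]

theorem continuous_cu' {X : Type*} [TopologicalSpace X] {f g : X → H3} (hf : Continuous f)
    (hg : Continuous g) : Continuous fun x => cu (f x) (g x) := by
  have h := continuous_cu.comp (hf.prodMk hg)
  exact h

theorem continuous_cu_left (Q : H3) : Continuous fun P => cu P Q :=
  continuous_cu' continuous_id continuous_const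

theorem continuous_kap (h₁ : IsKer k₁) (h₂ : IsKer k₂) (P : H3) :
    Continuous fun Q => kap k₁ k₂ P Q := by
  obtain ⟨C, hC⟩ := h₁.bdd
  have h0 : (fun Q => kap k₁ k₂ P Q) =
      fun Q => ∫ W in {W : H3 | cu P W ≤ C}, k₁ (cu P W) * k₂ (cu W Q) :=
    funext fun Q => kap_eq_setIntegral hC P Q
  rw [h0]
  refine continuous_parametric_integral_of_continuous (X := H3) (Y := H3)
    (f := fun Q W => k₁ (cu P W) * k₂ (cu W Q)) ?_ (isCompact_ball P C)
  exact (h₁.cont.comp (continuous_cu' continuous_const continuous_snd)).mul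
    (h₂.cont.comp (continuous_cu' continuous_snd continuous_fst))

theorem kap_eq_zero {C₁ C₂ : ℝ} (hC₁ : ∀ t, C₁ ≤ t → k₁ t = 0) (hC₂ : ∀ t, C₂ ≤ t → k₂ t = 0)
    (h₂ : 0 ≤ C₂) {P Q : H3} (h : 4 * C₁ * C₂ * P.y < Q.y) : kap k₁ k₂ P Q = 0 := by
  rw [kap]
  refine integral_eq_zero_of_ae (Filter.Eventually.of_forall fun W => ?_)
  change k₁ (cu P W) * k₂ (cu W Q) = 0
  by_cases hW : cu P W ≤ C₁
  · by_cases hW2 : cu W Q ≤ C₂
    · exfalso
      have e1 := y_le_of_cu_le hW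
      have e2 := y_le_of_cu_le hW2
      have := P.y_pos
      nlinarith [mul_le_mul_of_nonneg_left e1 (by positivity : (0 : ℝ) ≤ 2 * C₂)]
    · rw [hC₂ _ (le_of_lt (not_le.mp hW2)), mul_zero]
  · rw [hC₁ _ (le_of_lt (not_le.mp hW)), zero_mul]

/-- the point `(0, y)` -/
noncomputable def hgt (t : ℝ) : H3 := mk 0 (Real.exp t) (Real.exp_pos t)

theorem cu_hgt (s t : ℝ) : cu (hgt s) (hgt t) = cosh (s - t) := by
  rw [hgt, hgt, cu_eq_cosh, Real.log_exp, Real.log_exp]

/-- the composed kernel as a function of `cosh d` -/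
noncomputable def kap0 (k₁ k₂ : ℝ → ℂ) (t : ℝ) : ℂ := kap k₁ k₂ (hgt 0) (hgt (arcosh (max t 1)))

theorem kap_eq_kap0 (P Q : H3) : kap k₁ k₂ P Q = kap0 k₁ k₂ (cu P Q) := by
  refine kap_eq_of_cu_eq ?_
  rw [cu_hgt, zero_sub, Real.cosh_neg, max_eq_left (one_le_cu P Q), Real.cosh_arcosh (one_le_cu P Q)]

theorem continuous_hgt : Continuous hgt :=
  continuous_iff.mpr ⟨continuous_const, Real.continuous_exp⟩

theorem isKer_kap0 (h₁ : IsKer k₁) (h₂ : IsKer k₂) : IsKer (kap0 k₁ k₂) := by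
  refine ⟨(continuous_kap h₁ h₂ _).comp (continuous_hgt.comp ?_), ?_⟩
  · exact Real.continuousOn_arcosh.comp_continuous (continuous_id.max continuous_const)
      fun t => Set.mem_Ici.mpr (le_max_right _ _)
  · obtain ⟨C₁, hC₁⟩ := h₁.bdd
    obtain ⟨C₂, hC₂⟩ := h₂.bdd
    have hC₁' : ∀ t, max C₁ 0 ≤ t → k₁ t = 0 := fun t ht => hC₁ t ((le_max_left _ _).trans ht)
    have hC₂' : ∀ t, max C₂ 0 ≤ t → k₂ t = 0 := fun t ht => hC₂ t ((le_max_left _ _).trans ht)
    refine ⟨4 * max C₁ 0 * max C₂ 0 + 1, fun t ht => ?_⟩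
    refine kap_eq_zero hC₁' hC₂' (le_max_right _ _) ?_
    change 4 * max C₁ 0 * max C₂ 0 * Real.exp 0 < Real.exp (arcosh (max t 1))
    have h1 : 1 ≤ max t 1 := le_max_right _ _
    rw [Real.exp_zero, mul_one, Real.exp_arcosh h1]
    have h2 : t ≤ max t 1 := le_max_left _ _
    have h3 : 0 ≤ √((max t 1) ^ 2 - 1) := Real.sqrt_nonneg _
    linarith

/-- `∫_ℝ F(s) ds = ∫_{y>0} F(log y) dy/y` -/
theorem integral_log {E : Type*} [NormedAddCommGroup E] [NormedSpace ℝ E] (F : ℝ → E) :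
    ∫ y in Ioi (0 : ℝ), y⁻¹ • F (log y) = ∫ s, F s := by
  have h1 : Real.exp '' univ = Ioi 0 := by
    rw [image_univ, Real.range_exp]
  rw [← h1, integral_image_eq_integral_abs_deriv_smul MeasurableSet.univ
    (fun x _ => (Real.hasDerivAt_exp x).hasDerivWithinAt) Real.exp_injective.injOn,
    Measure.restrict_univ]
  refine integral_congr_ae (Filter.Eventually.of_forall fun s => ?_)
  change |Real.exp s| • (Real.exp s)⁻¹ • F (log (Real.exp s)) = F s
  rw [abs_of_pos (Real.exp_pos s), smul_smul, mul_inv_cancel₀ (Real.exp_pos s).ne', one_smul,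
    Real.log_exp]

theorem isCompact_ball_left (Q : H3) (C : ℝ) : IsCompact {P : H3 | cu P Q ≤ C} := by
  simp_rw [cu_comm _ Q]
  exact isCompact_ball Q C

theorem continuous_mk (y : ℝ) (hy : 0 < y) : Continuous fun z : ℂ => mk z y hy :=
  continuous_iff.mpr ⟨continuous_id, continuous_const⟩

/-- integrability of a continuous function supported in a compact set -/
theorem integrable_of_support {X : Type*} [TopologicalSpace X] [MeasurableSpace X] [BorelSpace X]
    [T2Space X] {μ : Measure X} [IsFiniteMeasureOnCompacts μ] {f : X → ℂ} (hf : Continuous f)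
    {K : Set X} (hK : IsCompact K) (h : ∀ x, x ∉ K → f x = 0) : Integrable f μ :=
  hf.integrable_of_hasCompactSupport (HasCompactSupport.intro hK h)

theorem integrable_fubini (h₁ : IsKer k₁) (h₂ : IsKer k₂) (P : H3) {y : ℝ} (hy : 0 < y) :
    Integrable (Function.uncurry fun (z : ℂ) (W : H3) => k₁ (cu P W) * k₂ (cu W (mk z y hy)))
      ((volume : Measure ℂ).prod (volume : Measure H3)) := by
  obtain ⟨C₁, hC₁⟩ := h₁.bdd
  obtain ⟨C₂, hC₂⟩ := h₂.bdd
  set M : ℝ := 2 * C₂ * (2 * C₁ * P.y) * y with hM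
  have hKc : IsCompact {W : H3 | cu P W ≤ C₁} := isCompact_ball P C₁
  obtain ⟨B, hB⟩ := (hKc.image_of_continuousOn continuous_z.continuousOn).isBounded.exists_norm_le
  refine integrable_of_support (K := Metric.closedBall (0 : ℂ) (B + √(|2 * C₂| * (|2 * C₁| * P.y) * y))
    ×ˢ {W : H3 | cu P W ≤ C₁}) ?_ ((isCompact_closedBall _ _).prod hKc) ?_
  · refine (h₁.cont.comp (continuous_cu' continuous_const continuous_snd)).mul
      (h₂.cont.comp (continuous_cu' continuous_snd ((continuous_mk y hy).comp continuous_fst)))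
  · rintro ⟨z, W⟩ hzW
    change k₁ (cu P W) * k₂ (cu W (mk z y hy)) = 0
    by_cases hW : cu P W ≤ C₁
    · by_cases hz : cu W (mk z y hy) ≤ C₂
      · exfalso
        refine hzW ⟨?_, hW⟩
        have e1 := norm_sq_le_of_cu_le hz
        have e2 : W.y ≤ 2 * C₁ * P.y := y_le_of_cu_le hW
        have e3 : ‖W.z‖ ≤ B := hB _ ⟨W, hW, rfl⟩
        have hPy := P.y_pos
        have hWy := W.y_pos
        change ‖W.z - z‖ ^ 2 ≤ 2 * C₂ * W.y * y at e1
        have e4 : ‖W.z - z‖ ^ 2 ≤ |2 * C₂| * (|2 * C₁| * P.y) * y := by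
          refine e1.trans ?_
          gcongr
          · exact le_abs_self _
          · exact e2.trans (by gcongr; exact le_abs_self _)
        have e5 : ‖W.z - z‖ ≤ √(|2 * C₂| * (|2 * C₁| * P.y) * y) := by
          rw [← Real.sqrt_sq (norm_nonneg (W.z - z))]
          exact Real.sqrt_le_sqrt e4
        rw [mem_closedBall_zero_iff]
        have e6 : ‖z‖ ≤ ‖W.z‖ + ‖W.z - z‖ := by
          have : z = W.z - (W.z - z) := by ring
          nth_rewrite 1 [this]
          exact norm_sub_le _ _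
        linarith
      · rw [hC₂ _ (le_of_lt (not_le.mp hz)), mul_zero]
    · rw [hC₁ _ (le_of_lt (not_le.mp hW)), zero_mul]

/-- coordinates: integral of a kernel against a function of the height -/
theorem integral_ker_height (h : IsKer k₁) (P : H3) {F : ℝ → ℂ} (hF : Continuous F) :
    ∫ W : H3, k₁ (cu P W) * ((W.y : ℂ) * F (log W.y)) =
      (P.y : ℂ) * cv (abel k₁) F (log P.y) := by
  have hPy := P.y_pos
  obtain ⟨C, hC⟩ := h.bdd
  have h1 : Integrable (fun W : H3 => k₁ (cu P W) * ((W.y : ℂ) * F (log W.y))) := by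
    refine integrable_of_support (K := {W : H3 | cu P W ≤ C}) ?_ (isCompact_ball P C) ?_
    · refine (h.cont.comp (continuous_cu_right P)).mul ?_
      refine (Complex.continuous_ofReal.comp continuous_y).mul (hF.comp ?_)
      exact continuous_y.log fun W => W.y_pos.ne'
    · intro W hW
      rw [hC _ (le_of_lt (not_le.mp hW)), zero_mul]
  rw [integral_eq_iterated h1]
  have h3 : ∀ y ∈ Ioi (0 : ℝ), (y ^ 3)⁻¹ • ∫ z : ℂ,
      k₁ (cu P (ofPair (z, y))) * (((ofPair (z, y)).y : ℂ) * F (log (ofPair (z, y)).y)) =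
      y⁻¹ • ((P.y : ℂ) * (abel k₁ (log P.y - log y) * F (log y))) := by
    intro y hy
    have hy' : 0 < y := hy
    have h4 : ∀ z : ℂ, k₁ (cu P (ofPair (z, y))) * (((ofPair (z, y)).y : ℂ) *
        F (log (ofPair (z, y)).y)) =
        k₁ ((‖P.z - z‖ ^ 2 + P.y ^ 2 + y ^ 2) / (2 * P.y * y)) * ((y : ℂ) * F (log y)) := by
      intro z
      rw [ofPair_of_pos (p := (z, y)) hy', cu_eq_norm]
      rfl
    rw [integral_congr_ae (Filter.Eventually.of_forall h4), integral_mul_const,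
      integral_horo k₁ hPy hy' P.z]
    simp only [Complex.real_smul]
    push_cast
    have hy0 : (y : ℂ) ≠ 0 := by exact_mod_cast hy'.ne'
    field_simp
  rw [setIntegral_congr_fun measurableSet_Ioi h3,
    integral_log (fun s => (P.y : ℂ) * (abel k₁ (log P.y - s) * F s)), integral_const_mul, cv_swap]

theorem abel_kap0 (h₁ : IsKer k₁) (h₂ : IsKer k₂) :
    abel (kap0 k₁ k₂) = cv (abel k₁) (abel k₂) := by
  ext r
  obtain ⟨C₂, hC₂⟩ := h₂.bdd
  have e0 := integral_horo (kap0 k₁ k₂) (Real.exp_pos r) one_pos 0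
  have e1 : ∀ z : ℂ, kap0 k₁ k₂ ((‖0 - z‖ ^ 2 + Real.exp r ^ 2 + 1 ^ 2) / (2 * Real.exp r * 1)) =
      ∫ W : H3, k₁ (cu (hgt r) W) * k₂ (cu W (mk z 1 one_pos)) := by
    intro z
    have e5 := kap_eq_kap0 (k₁ := k₁) (k₂ := k₂) (hgt r) (mk z 1 one_pos)
    rw [cu_eq_norm] at e5
    exact e5.symm
  have e2 : ∫ z : ℂ, kap0 k₁ k₂ ((‖0 - z‖ ^ 2 + Real.exp r ^ 2 + 1 ^ 2) / (2 * Real.exp r * 1)) =
      ∫ z : ℂ, ∫ W : H3, k₁ (cu (hgt r) W) * k₂ (cu W (mk z 1 one_pos)) :=
    integral_congr_ae (Filter.Eventually.of_forall e1)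
  rw [e2, integral_integral_swap (integrable_fubini h₁ h₂ _ one_pos)] at e0
  have e3 : ∀ W : H3, ∫ z : ℂ, k₁ (cu (hgt r) W) * k₂ (cu W (mk z 1 one_pos)) =
      k₁ (cu (hgt r) W) * ((W.y : ℂ) * abel k₂ (log W.y)) := by
    intro W
    rw [integral_const_mul]
    have e4 := integral_horo k₂ W.y_pos one_pos W.z
    have e5 : (W.y * 1) • abel k₂ (log W.y - log 1) = (W.y : ℂ) * abel k₂ (log W.y) := by
      rw [Real.log_one, sub_zero, mul_one, Complex.real_smul]
    rw [e5] at e4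
    rw [← e4]
    congr 1
    refine integral_congr_ae (Filter.Eventually.of_forall fun z => ?_)
    change k₂ (cu W (mk z 1 one_pos)) = _
    rw [cu_eq_norm]
    rfl
  rw [integral_congr_ae (Filter.Eventually.of_forall e3),
    integral_ker_height h₁ _ (continuous_abel h₂.cont hC₂)] at e0
  change ((Real.exp r : ℝ) : ℂ) * cv (abel k₁) (abel k₂) (log (Real.exp r)) = _ at e0
  rw [Real.log_exp, Real.log_one, sub_zero, mul_one, Complex.real_smul] at e0
  exact (mul_left_cancel₀ (by exact_mod_cast (Real.exp_pos r).ne') e0).symm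

/-- **Composition of radial kernels.** -/
theorem exists_comp (h₁ : IsKer k₁) (h₂ : IsKer k₂) : ∃ k, IsKer k ∧
    abel k = cv (abel k₁) (abel k₂) ∧
    ∀ P Q : H3, ∫ W : H3, k₁ (cu P W) * k₂ (cu W Q) = k (cu P Q) :=
  ⟨kap0 k₁ k₂, isKer_kap0 h₁ h₂, abel_kap0 h₁ h₂, fun P Q => kap_eq_kap0 P Q⟩

theorem kap_comm (h₁ : IsKer k₁) (h₂ : IsKer k₂) (P Q : H3) : kap k₁ k₂ P Q = kap k₂ k₁ P Q := by
  rw [kap_eq_kap0, kap_eq_kap0]
  have i₁ := isKer_kap0 h₁ h₂
  have i₂ := isKer_kap0 h₂ h₁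
  obtain ⟨C, hC⟩ := i₁.bdd
  obtain ⟨C', hC'⟩ := i₂.bdd
  refine eqOn_of_abel_eq i₁.cont hC i₂.cont hC' ?_ (one_le_cu P Q)
  rw [abel_kap0 h₁ h₂, abel_kap0 h₂ h₁, cv_comm]

end Comp

end Fermat.Agent.LT.H3
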