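import Mathlib

/-!
# Hyperbolic 3-space: the upper half space model and the action of `GL (Fin 2) ℂ`

`H3 = {(z, y) : ℂ × ℝ | 0 < y}`, the Hermitian matrix `herm P` of determinant one attached to
a point, the action of `GL (Fin 2) ℂ`, the point pair invariant `cu P Q = cosh d(P, Q)`.
-/

open Complex Matrix
open scoped ComplexConjugate MatrixGroups Topology

namespace Fermat.Agent.LT

/-- Hyperbolic 3-space, upper half space model. -/
def H3 : Type := {p : ℂ × ℝ // 0 < p.2}

namespace H3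

noncomputable section

/-- The point with coordinates `z`, `y`. -/
def mk (z : ℂ) (y : ℝ) (hy : 0 < y) : H3 := ⟨(z, y), hy⟩

/-- The complex coordinate. -/
def z (P : H3) : ℂ := P.1.1

/-- The height. -/
def y (P : H3) : ℝ := P.1.2

theorem y_pos (P : H3) : 0 < P.y := P.2

theorem y_ne (P : H3) : P.y ≠ 0 := P.y_pos.ne'

@[simp] theorem z_mk (z : ℂ) (y : ℝ) (hy : 0 < y) : (mk z y hy).z = z := rfl

@[simp] theorem y_mk (z : ℂ) (y : ℝ) (hy : 0 < y) : (mk z y hy).y = y := rfl

@[ext] theorem ext {P Q : H3} (hz : P.z = Q.z) (hy : P.y = Q.y) : P = Q :=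
  Subtype.ext (Prod.ext hz hy)

@[simp] theorem mk_eta (P : H3) : mk P.z P.y P.y_pos = P := rfl

/-- The base point `(0, 1)`. -/
def j : H3 := mk 0 1 one_pos

@[simp] theorem z_j : j.z = 0 := rfl

@[simp] theorem y_j : j.y = 1 := rfl

instance : Inhabited H3 := ⟨j⟩

/-! ### The action -/

/-- The denominator `|cz + d|² + |c|² y²`. -/
def den (g : GL (Fin 2) ℂ) (P : H3) : ℝ :=
  normSq (g 1 0 * P.z + g 1 1) + normSq (g 1 0) * P.y ^ 2

/-- The numerator `(az + b) conj (cz + d) + a conj c y²`. -/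
def num (g : GL (Fin 2) ℂ) (P : H3) : ℂ :=
  (g 0 0 * P.z + g 0 1) * conj (g 1 0 * P.z + g 1 1) + g 0 0 * conj (g 1 0) * (P.y : ℂ) ^ 2

theorem det_ne (g : GL (Fin 2) ℂ) : g 0 0 * g 1 1 - g 0 1 * g 1 0 ≠ 0 := by
  have := g.isUnit.map (Matrix.detMonoidHom (n := Fin 2) (R := ℂ))
  rw [Matrix.coe_detMonoidHom, Matrix.det_fin_two] at this
  exact this.ne_zero

theorem den_pos (g : GL (Fin 2) ℂ) (P : H3) : 0 < den g P := by
  unfold den
  by_cases hc : g 1 0 = 0
  · have hd : g 1 1 ≠ 0 := by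
      intro hd
      exact det_ne g (by rw [hc, hd]; ring)
    rw [hc]
    have := normSq_pos.mpr hd
    simpa using this
  · have h1 := mul_pos (normSq_pos.mpr hc) (pow_pos P.y_pos 2)
    have h2 := normSq_nonneg (g 1 0 * P.z + g 1 1)
    linarith

/-- The absolute value of the determinant. -/
def adet (g : GL (Fin 2) ℂ) : ℝ := ‖(g : Matrix (Fin 2) (Fin 2) ℂ).det‖

theorem adet_pos (g : GL (Fin 2) ℂ) : 0 < adet g := by
  unfold adet
  rw [Matrix.det_fin_two]
  exact norm_pos_iff.mpr (det_ne g)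

theorem adet_mul (g h : GL (Fin 2) ℂ) : adet (g * h) = adet g * adet h := by
  unfold adet
  rw [Units.val_mul, Matrix.det_mul, norm_mul]

theorem adet_one : adet 1 = 1 := by
  unfold adet
  simp

instance : SMul (GL (Fin 2) ℂ) H3 where
  smul g P := mk (num g P / den g P) (adet g * P.y / den g P)
    (div_pos (mul_pos (adet_pos g) P.y_pos) (den_pos g P))

theorem z_smul (g : GL (Fin 2) ℂ) (P : H3) : (g • P).z = num g P / den g P := rfl

theorem y_smul (g : GL (Fin 2) ℂ) (P : H3) : (g • P).y = adet g * P.y / den g P := rfl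

/-- The positive definite Hermitian matrix of determinant one attached to a point. -/
def herm (P : H3) : Matrix (Fin 2) (Fin 2) ℂ :=
  ((P.y : ℂ)⁻¹) • !![(normSq P.z : ℂ) + (P.y : ℂ) ^ 2, P.z; conj P.z, 1]

theorem herm_injective : Function.Injective herm := by
  intro P Q h
  have h11 := congrFun (congrFun h 1) 1
  have h01 := congrFun (congrFun h 0) 1
  simp only [herm, Matrix.smul_apply, Matrix.of_apply, Matrix.cons_val', Matrix.cons_val_zero,
    Matrix.cons_val_one, smul_eq_mul, mul_one] at h11 h01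
  have hPQ : P.y = Q.y := ofReal_injective (_root_.inv_inj.mp h11)
  rw [h11] at h01
  have hy : (Q.y : ℂ)⁻¹ ≠ 0 := inv_ne_zero (ofReal_ne_zero.mpr Q.y_ne)
  exact ext (mul_left_cancel₀ hy h01) hPQ

theorem normSq_num (g : GL (Fin 2) ℂ) (P : H3) :
    normSq (num g P) + (adet g * P.y) ^ 2 =
      den g P * (normSq (g 0 0 * P.z + g 0 1) + normSq (g 0 0) * P.y ^ 2) := by
  have hd : adet g ^ 2 = normSq (g 0 0 * g 1 1 - g 0 1 * g 1 0) := by
    unfold adet
    rw [Matrix.det_fin_two, Complex.sq_norm]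
  rw [mul_pow, hd]
  unfold num den
  simp only [normSq_apply, add_re, add_im, mul_re, mul_im, conj_re, conj_im, sub_re, sub_im,
    ofReal_re, ofReal_im, pow_two]
  ring

theorem herm_smul (g : GL (Fin 2) ℂ) (P : H3) :
    herm (g • P) = ((adet g : ℂ)⁻¹) • ((g : Matrix (Fin 2) (Fin 2) ℂ) * herm P * gᴴ) := by
  have hD : (den g P : ℂ) ≠ 0 := ofReal_ne_zero.mpr (den_pos g P).ne'
  have hA : (adet g : ℂ) ≠ 0 := ofReal_ne_zero.mpr (adet_pos g).ne'
  have hy : (P.y : ℂ) ≠ 0 := ofReal_ne_zero.mpr P.y_ne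
  have hDe : (den g P : ℂ) = (g 1 0 * P.z + g 1 1) * conj (g 1 0 * P.z + g 1 1) +
      g 1 0 * conj (g 1 0) * (P.y : ℂ) ^ 2 := by
    unfold den
    rw [Complex.mul_conj, Complex.mul_conj]
    push_cast
    ring
  have hNe : num g P = (g 0 0 * P.z + g 0 1) * conj (g 1 0 * P.z + g 1 1) +
      g 0 0 * conj (g 1 0) * (P.y : ℂ) ^ 2 := rfl
  have hN : (num g P) * conj (num g P) + (adet g * P.y : ℂ) ^ 2 =
      den g P * ((g 0 0 * P.z + g 0 1) * conj (g 0 0 * P.z + g 0 1) +
        g 0 0 * conj (g 0 0) * (P.y : ℂ) ^ 2) := by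
    have := congrArg (fun t : ℝ => (t : ℂ)) (normSq_num g P)
    push_cast at this
    rw [← Complex.mul_conj, ← Complex.mul_conj, ← Complex.mul_conj] at this
    linear_combination this
  have hg : (g : Matrix (Fin 2) (Fin 2) ℂ) = !![g 0 0, g 0 1; g 1 0, g 1 1] :=
    Matrix.eta_fin_two _
  have hgH : (g : Matrix (Fin 2) (Fin 2) ℂ)ᴴ =
      !![conj (g 0 0), conj (g 1 0); conj (g 0 1), conj (g 1 1)] := Matrix.eta_fin_two _
  rw [hgH]
  unfold herm
  rw [z_smul, y_smul]
  generalize den g P = D at *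
  generalize num g P = N at *
  generalize adet g = A at *
  rw [hg]
  generalize g 0 0 = a at *
  generalize g 0 1 = b at *
  generalize g 1 0 = c at *
  generalize g 1 1 = d at *
  rw [← Complex.mul_conj, ← Complex.mul_conj]
  rw [Matrix.mul_smul, Matrix.smul_mul, smul_smul, Matrix.mul_fin_two, Matrix.mul_fin_two]
  simp only [map_add, map_mul] at hN hDe hNe
  ext i j
  fin_cases i <;> fin_cases j
  · simp
    field_simp
    linear_combination hN
  · simp
    field_simp
    linear_combination hNe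
  · simp
    field_simp
    rw [hNe]
    simp only [map_add, map_mul, conj_conj, map_pow, conj_ofReal]
    ring
  · simp
    field_simp
    linear_combination hDe

instance : MulAction (GL (Fin 2) ℂ) H3 where
  one_smul P := by
    apply herm_injective
    rw [herm_smul, adet_one, Units.val_one]
    simp
  mul_smul g h P := by
    apply herm_injective
    rw [herm_smul, herm_smul, herm_smul, adet_mul, Units.val_mul, Matrix.conjTranspose_mul]
    simp only [Matrix.mul_smul, Matrix.smul_mul, smul_smul, Matrix.mul_assoc]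
    push_cast
    rw [_root_.mul_inv]

/-- Upper triangular matrices act by affine maps. -/
theorem den_of_upper {g : GL (Fin 2) ℂ} (h : g 1 0 = 0) (P : H3) :
    den g P = normSq (g 1 1) := by
  unfold den
  rw [h]
  simp

theorem upper_ne {g : GL (Fin 2) ℂ} (h : g 1 0 = 0) : g 0 0 ≠ 0 ∧ g 1 1 ≠ 0 := by
  have := det_ne g
  rw [h] at this
  constructor <;> · intro h'; rw [h'] at this; simp at this

theorem z_smul_of_upper {g : GL (Fin 2) ℂ} (h : g 1 0 = 0) (P : H3) :
    (g • P).z = (g 0 0 * P.z + g 0 1) / g 1 1 := by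
  have h1 := (upper_ne h).2
  have h2 : conj (g 1 1) ≠ 0 := (map_ne_zero _).mpr h1
  rw [z_smul, den_of_upper h, ← Complex.mul_conj]
  unfold num
  rw [h]
  simp only [zero_mul, zero_add, map_zero, mul_zero, add_zero]
  field_simp

theorem y_smul_of_upper {g : GL (Fin 2) ℂ} (h : g 1 0 = 0) (P : H3) :
    (g • P).y = ‖g 0 0 / g 1 1‖ * P.y := by
  have h1 : ‖g 1 1‖ ≠ 0 := norm_ne_zero_iff.mpr (upper_ne h).2
  rw [y_smul, den_of_upper h, normSq_eq_norm_sq]
  unfold adet
  rw [Matrix.det_fin_two, h, mul_zero, sub_zero, norm_mul, norm_div]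
  field_simp

/-- Scalars act trivially. -/
theorem smul_of_scalar {g : GL (Fin 2) ℂ} (h10 : g 1 0 = 0) (h01 : g 0 1 = 0)
    (h : g 0 0 = g 1 1) (P : H3) : g • P = P := by
  have h1 := (upper_ne h10).2
  apply ext
  · rw [z_smul_of_upper h10, h01, h, add_zero, mul_div_cancel_left₀ _ h1]
  · rw [y_smul_of_upper h10, h, div_self h1, norm_one, one_mul]

/-! ### The point pair invariant `cosh d` -/

/-- The point pair invariant `cosh d(P, Q)`. -/
def cu (P Q : H3) : ℝ := (normSq (P.z - Q.z) + P.y ^ 2 + Q.y ^ 2) / (2 * P.y * Q.y)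

theorem cu_comm (P Q : H3) : cu P Q = cu Q P := by
  unfold cu
  rw [← normSq_neg (P.z - Q.z), neg_sub]
  ring

theorem cu_eq (P Q : H3) :
    cu P Q = 1 + (normSq (P.z - Q.z) + (P.y - Q.y) ^ 2) / (2 * P.y * Q.y) := by
  have h1 := P.y_ne
  have h2 := Q.y_ne
  unfold cu
  field_simp
  ring

theorem one_le_cu (P Q : H3) : 1 ≤ cu P Q := by
  rw [cu_eq]
  have := P.y_pos
  have := Q.y_pos
  have : 0 ≤ (normSq (P.z - Q.z) + (P.y - Q.y) ^ 2) / (2 * P.y * Q.y) :=
    div_nonneg (add_nonneg (normSq_nonneg _) (sq_nonneg _)) (by positivity)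
  linarith

theorem cu_pos (P Q : H3) : 0 < cu P Q := one_pos.trans_le (one_le_cu P Q)

@[simp] theorem cu_self (P : H3) : cu P P = 1 := by
  rw [cu_eq]
  simp

theorem cu_eq_one_iff {P Q : H3} : cu P Q = 1 ↔ P = Q := by
  refine ⟨fun h => ?_, fun h => h ▸ cu_self P⟩
  rw [cu_eq] at h
  have h1 := P.y_pos
  have h2 := Q.y_pos
  have h3 : (normSq (P.z - Q.z) + (P.y - Q.y) ^ 2) / (2 * P.y * Q.y) = 0 := by linarith
  have h4 : (2 * P.y * Q.y) ≠ 0 := by positivity
  have h5 : normSq (P.z - Q.z) + (P.y - Q.y) ^ 2 = 0 := by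
    rcases div_eq_zero_iff.mp h3 with h | h
    · exact h
    · exact absurd h h4
  have h6 := normSq_nonneg (P.z - Q.z)
  have h7 := sq_nonneg (P.y - Q.y)
  have h8 : normSq (P.z - Q.z) = 0 := by linarith
  have h9 : (P.y - Q.y) ^ 2 = 0 := by linarith
  exact ext (sub_eq_zero.mp (normSq_eq_zero.mp h8)) (sub_eq_zero.mp (by simpa using h9))

/-- The inverse of `herm`. -/
def hermInv (P : H3) : Matrix (Fin 2) (Fin 2) ℂ :=
  ((P.y : ℂ)⁻¹) • !![1, -P.z; -conj P.z, (normSq P.z : ℂ) + (P.y : ℂ) ^ 2]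

theorem herm_mul_hermInv (P : H3) : herm P * hermInv P = 1 := by
  have hy : (P.y : ℂ) ≠ 0 := ofReal_ne_zero.mpr P.y_ne
  unfold herm hermInv
  rw [← Complex.mul_conj, Matrix.smul_mul, Matrix.mul_smul, smul_smul, Matrix.mul_fin_two,
    Matrix.one_fin_two]
  ext i j
  fin_cases i <;> fin_cases j
  · simp
    field_simp
    try ring
  · simp
    ring_nf
    try simp
  · simp
  · simp
    field_simp
    try ring

theorem trace_herm_mul_hermInv (P Q : H3) : (herm P * hermInv Q).trace = 2 * (cu P Q : ℂ) := by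
  have hy : (P.y : ℂ) ≠ 0 := ofReal_ne_zero.mpr P.y_ne
  have hy' : (Q.y : ℂ) ≠ 0 := ofReal_ne_zero.mpr Q.y_ne
  unfold herm hermInv cu
  push_cast
  rw [← Complex.mul_conj, ← Complex.mul_conj, ← Complex.mul_conj, Matrix.smul_mul, Matrix.mul_smul,
    smul_smul, Matrix.mul_fin_two, Matrix.trace_smul, Matrix.trace_fin_two_of, map_sub]
  simp only [smul_eq_mul]
  field_simp
  ring

theorem hermInv_smul (g : GL (Fin 2) ℂ) (P : H3) :
    hermInv (g • P) = (adet g : ℂ) • (((g⁻¹ : GL (Fin 2) ℂ) : Matrix (Fin 2) (Fin 2) ℂ)ᴴ *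
      hermInv P * ((g⁻¹ : GL (Fin 2) ℂ) : Matrix (Fin 2) (Fin 2) ℂ)) := by
  have hA : (adet g : ℂ) ≠ 0 := ofReal_ne_zero.mpr (adet_pos g).ne'
  have h1 : herm (g • P) * ((adet g : ℂ) • (((g⁻¹ : GL (Fin 2) ℂ) : Matrix (Fin 2) (Fin 2) ℂ)ᴴ *
      hermInv P * ((g⁻¹ : GL (Fin 2) ℂ) : Matrix (Fin 2) (Fin 2) ℂ))) = 1 := by
    rw [herm_smul, Matrix.mul_smul, Matrix.smul_mul, smul_smul, mul_inv_cancel₀ hA, one_smul]
    have h2 : (g : Matrix (Fin 2) (Fin 2) ℂ)ᴴ *
        ((g⁻¹ : GL (Fin 2) ℂ) : Matrix (Fin 2) (Fin 2) ℂ)ᴴ = 1 := by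
      rw [← Matrix.conjTranspose_mul, ← Units.val_mul, inv_mul_cancel, Units.val_one,
        Matrix.conjTranspose_one]
    have h3 : (g : Matrix (Fin 2) (Fin 2) ℂ) *
        ((g⁻¹ : GL (Fin 2) ℂ) : Matrix (Fin 2) (Fin 2) ℂ) = 1 := by
      rw [← Units.val_mul, mul_inv_cancel, Units.val_one]
    calc _ = (g : Matrix (Fin 2) (Fin 2) ℂ) * herm P * ((g : Matrix (Fin 2) (Fin 2) ℂ)ᴴ *
          ((g⁻¹ : GL (Fin 2) ℂ) : Matrix (Fin 2) (Fin 2) ℂ)ᴴ) * hermInv P *
            ((g⁻¹ : GL (Fin 2) ℂ) : Matrix (Fin 2) (Fin 2) ℂ) := by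
            simp only [Matrix.mul_assoc]
      _ = (g : Matrix (Fin 2) (Fin 2) ℂ) * (herm P * hermInv P) *
            ((g⁻¹ : GL (Fin 2) ℂ) : Matrix (Fin 2) (Fin 2) ℂ) := by
            rw [h2]
            simp only [Matrix.mul_assoc, Matrix.one_mul]
      _ = 1 := by rw [herm_mul_hermInv, Matrix.mul_one, h3]
  have h4 := herm_mul_hermInv (g • P)
  have h5 : hermInv (g • P) * herm (g • P) = 1 := mul_eq_one_comm.mp h4
  calc hermInv (g • P) = hermInv (g • P) * (herm (g • P) * _) := by rw [h1, Matrix.mul_one]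
    _ = _ := by rw [← Matrix.mul_assoc, h5, Matrix.one_mul]

/-- Invariance of the point pair invariant. -/
@[simp] theorem cu_smul (g : GL (Fin 2) ℂ) (P Q : H3) : cu (g • P) (g • Q) = cu P Q := by
  have hA : (adet g : ℂ) ≠ 0 := ofReal_ne_zero.mpr (adet_pos g).ne'
  have h2 : (g : Matrix (Fin 2) (Fin 2) ℂ)ᴴ *
      ((g⁻¹ : GL (Fin 2) ℂ) : Matrix (Fin 2) (Fin 2) ℂ)ᴴ = 1 := by
    rw [← Matrix.conjTranspose_mul, ← Units.val_mul, inv_mul_cancel, Units.val_one,
      Matrix.conjTranspose_one]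
  have h3 : ((g⁻¹ : GL (Fin 2) ℂ) : Matrix (Fin 2) (Fin 2) ℂ) *
      (g : Matrix (Fin 2) (Fin 2) ℂ) = 1 := by
    rw [← Units.val_mul, inv_mul_cancel, Units.val_one]
  have key : (herm (g • P) * hermInv (g • Q)).trace = (herm P * hermInv Q).trace := by
    rw [herm_smul, hermInv_smul, Matrix.mul_smul, Matrix.smul_mul, smul_smul, mul_inv_cancel₀ hA,
      one_smul]
    calc _ = ((g : Matrix (Fin 2) (Fin 2) ℂ) * (herm P * ((g : Matrix (Fin 2) (Fin 2) ℂ)ᴴ *
          ((g⁻¹ : GL (Fin 2) ℂ) : Matrix (Fin 2) (Fin 2) ℂ)ᴴ) * hermInv Q *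
            ((g⁻¹ : GL (Fin 2) ℂ) : Matrix (Fin 2) (Fin 2) ℂ))).trace := by
            simp only [Matrix.mul_assoc]
      _ = (herm P * hermInv Q).trace := by
            rw [h2, Matrix.mul_one, Matrix.trace_mul_comm, Matrix.mul_assoc, h3, Matrix.mul_one]
  rw [trace_herm_mul_hermInv, trace_herm_mul_hermInv] at key
  have := mul_left_cancel₀ (two_ne_zero) key
  exact_mod_cast this

/-! ### Topology -/

instance : TopologicalSpace H3 := inferInstanceAs (TopologicalSpace {p : ℂ × ℝ // 0 < p.2})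

instance : T2Space H3 := inferInstanceAs (T2Space {p : ℂ × ℝ // 0 < p.2})

instance : SecondCountableTopology H3 :=
  inferInstanceAs (SecondCountableTopology {p : ℂ × ℝ // 0 < p.2})

/-- The coordinates as a pair. -/
def coe (P : H3) : ℂ × ℝ := (P.z, P.y)

theorem coe_def (P : H3) : coe P = (P.z, P.y) := rfl

@[simp] theorem coe_fst (P : H3) : (coe P).1 = P.z := rfl

@[simp] theorem coe_snd (P : H3) : (coe P).2 = P.y := rfl

theorem coe_injective : Function.Injective coe := fun _ _ h =>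
  ext (congrArg Prod.fst h) (congrArg Prod.snd h)

theorem range_coe : Set.range coe = {p : ℂ × ℝ | 0 < p.2} :=
  Subtype.range_coe

theorem isOpen_range_coe : IsOpen (Set.range coe) := by
  rw [range_coe]
  exact isOpen_lt continuous_const continuous_snd

theorem isOpenEmbedding_coe : Topology.IsOpenEmbedding coe := by
  have h : IsOpen {p : ℂ × ℝ | 0 < p.2} := isOpen_lt continuous_const continuous_snd
  exact h.isOpenEmbedding_subtypeVal

theorem continuous_coe : Continuous coe := isOpenEmbedding_coe.continuous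

@[fun_prop] theorem continuous_z : Continuous z := continuous_fst.comp continuous_coe

@[fun_prop] theorem continuous_y : Continuous y := continuous_snd.comp continuous_coe

theorem continuous_iff {X : Type*} [TopologicalSpace X] {f : X → H3} :
    Continuous f ↔ Continuous (fun x => (f x).z) ∧ Continuous (fun x => (f x).y) := by
  refine ⟨fun h => ⟨continuous_z.comp h, continuous_y.comp h⟩, fun h => ?_⟩
  exact isOpenEmbedding_coe.isEmbedding.continuous_iff.mpr (h.1.prodMk h.2)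

instance : LocallyCompactSpace H3 := isOpenEmbedding_coe.locallyCompactSpace

instance : SigmaCompactSpace H3 := inferInstance

/-- Extension of a function of `(z, y)` by the base point outside the half space. -/
def ofPair (p : ℂ × ℝ) : H3 := if h : 0 < p.2 then mk p.1 p.2 h else j

theorem ofPair_of_pos {p : ℂ × ℝ} (h : 0 < p.2) : ofPair p = mk p.1 p.2 h := dif_pos h

theorem coe_ofPair {p : ℂ × ℝ} (h : 0 < p.2) : coe (ofPair p) = p := by
  rw [ofPair_of_pos h]
  rfl

@[simp] theorem ofPair_coe (P : H3) : ofPair (coe P) = P := ofPair_of_pos P.y_pos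

@[fun_prop] theorem continuous_cu : Continuous fun p : H3 × H3 => cu p.1 p.2 := by
  unfold cu
  refine Continuous.div (by fun_prop) (by fun_prop) fun p => ?_
  have h1 := p.1.y_ne
  have h2 := p.2.y_ne
  positivity

theorem continuous_cu_right (P : H3) : Continuous (cu P) :=
  continuous_cu.comp (continuous_const.prodMk continuous_id)

theorem y_le_of_cu_le {P Q : H3} {R : ℝ} (h : cu P Q ≤ R) : Q.y ≤ 2 * R * P.y := by
  have h1 := P.y_pos
  have h2 := Q.y_pos
  unfold cu at h
  rw [div_le_iff₀ (by positivity)] at h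
  have h3 := normSq_nonneg (P.z - Q.z)
  have h4 : Q.y * Q.y ≤ (2 * R * P.y) * Q.y := by nlinarith [sq_nonneg P.y]
  exact le_of_mul_le_mul_right h4 h2

theorem normSq_le_of_cu_le {P Q : H3} {R : ℝ} (h : cu P Q ≤ R) :
    normSq (P.z - Q.z) ≤ 2 * R * P.y * Q.y := by
  have h1 := P.y_pos
  have h2 := Q.y_pos
  unfold cu at h
  rw [div_le_iff₀ (by positivity)] at h
  nlinarith [sq_nonneg P.y, sq_nonneg Q.y]

/-- Closed balls are compact. -/
theorem isCompact_ball (P : H3) (R : ℝ) : IsCompact {Q | cu P Q ≤ R} := by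
  by_cases hR : R < 1
  · have : {Q | cu P Q ≤ R} = ∅ := by
      ext Q
      simp only [Set.mem_ofPred_eq, Set.mem_empty_iff_false, iff_false, not_le]
      exact hR.trans_le (one_le_cu P Q)
    rw [this]
    exact isCompact_empty
  rw [not_lt] at hR
  have hy := P.y_pos
  have hK : IsCompact ((Metric.closedBall P.z (2 * R * P.y)) ×ˢ
      (Set.Icc (P.y / (2 * R)) (2 * R * P.y))) :=
    (isCompact_closedBall _ _).prod isCompact_Icc
  have hsub : ((Metric.closedBall P.z (2 * R * P.y)) ×ˢ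
      (Set.Icc (P.y / (2 * R)) (2 * R * P.y))) ⊆ Set.range coe := by
    rw [range_coe]
    rintro ⟨a, b⟩ ⟨-, hb⟩
    have : 0 < P.y / (2 * R) := by positivity
    exact this.trans_le hb.1
  have hK' := isOpenEmbedding_coe.isInducing.isCompact_preimage' hK hsub
  refine hK'.of_isClosed_subset (isClosed_le (continuous_cu_right P) continuous_const) ?_
  intro Q hQ
  have hQ' : cu P Q ≤ R := hQ
  have h1 := y_le_of_cu_le hQ'
  have h2 := y_le_of_cu_le (P := Q) (Q := P) (R := R) (by rw [cu_comm]; exact hQ')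
  have h3 := normSq_le_of_cu_le hQ'
  refine ⟨?_, ?_, h1⟩
  · rw [Metric.mem_closedBall, coe_fst, dist_comm, Complex.dist_eq]
    refine abs_le_of_sq_le_sq' ?_ (by positivity) |>.2
    rw [← normSq_eq_norm_sq]
    calc _ ≤ _ := h3
      _ ≤ 2 * R * P.y * (2 * R * P.y) := by gcongr
      _ = _ := by ring
  · rw [coe_snd, div_le_iff₀ (by positivity)]
    linarith

theorem continuous_entry (i k : Fin 2) : Continuous fun g : GL (Fin 2) ℂ => g i k :=
  Units.continuous_val.matrix_elem i k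

theorem continuous_den : Continuous fun p : GL (Fin 2) ℂ × H3 => den p.1 p.2 := by
  unfold den
  have h1 := (continuous_entry 1 0).comp (continuous_fst (X := GL (Fin 2) ℂ) (Y := H3))
  have h2 := (continuous_entry 1 1).comp (continuous_fst (X := GL (Fin 2) ℂ) (Y := H3))
  simp only [Function.comp_def] at h1 h2
  fun_prop

theorem continuous_num : Continuous fun p : GL (Fin 2) ℂ × H3 => num p.1 p.2 := by
  unfold num
  have h1 := (continuous_entry 1 0).comp (continuous_fst (X := GL (Fin 2) ℂ) (Y := H3))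
  have h2 := (continuous_entry 1 1).comp (continuous_fst (X := GL (Fin 2) ℂ) (Y := H3))
  have h3 := (continuous_entry 0 0).comp (continuous_fst (X := GL (Fin 2) ℂ) (Y := H3))
  have h4 := (continuous_entry 0 1).comp (continuous_fst (X := GL (Fin 2) ℂ) (Y := H3))
  simp only [Function.comp_def] at h1 h2 h3 h4
  fun_prop

theorem continuous_adet : Continuous adet := by
  unfold adet
  exact (Units.continuous_val.matrix_det).norm

instance : ContinuousSMul (GL (Fin 2) ℂ) H3 where
  continuous_smul := by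
    refine continuous_iff.mpr ⟨?_, ?_⟩
    · simp only [z_smul]
      exact continuous_num.div (continuous_ofReal.comp continuous_den) fun p =>
        ofReal_ne_zero.mpr (den_pos _ _).ne'
    · simp only [y_smul]
      exact ((continuous_adet.comp continuous_fst).mul (continuous_y.comp continuous_snd)).div
        continuous_den fun p => (den_pos _ _).ne'

/-! ### Generation, transitivity, stabiliser, Cartan decomposition -/

/-- The upper triangular matrix with entries `a`, `b`, `0`, `d`. -/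
def ut (a b d : ℂ) (ha : a ≠ 0) (hd : d ≠ 0) : GL (Fin 2) ℂ :=
  Matrix.GeneralLinearGroup.mkOfDetNeZero !![a, b; 0, d] (by
    rw [Matrix.det_fin_two_of, mul_zero, sub_zero]
    exact mul_ne_zero ha hd)

theorem coe_ut (a b d : ℂ) (ha : a ≠ 0) (hd : d ≠ 0) :
    (ut a b d ha hd : Matrix (Fin 2) (Fin 2) ℂ) = !![a, b; 0, d] := rfl

/-- The Weyl element. -/
def wl : GL (Fin 2) ℂ :=
  Matrix.GeneralLinearGroup.mkOfDetNeZero !![0, -1; 1, 0] (by
    rw [Matrix.det_fin_two_of]
    simp)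

theorem coe_wl : (wl : Matrix (Fin 2) (Fin 2) ℂ) = !![0, -1; 1, 0] := rfl

theorem adet_wl : adet wl = 1 := by
  unfold adet
  rw [coe_wl, Matrix.det_fin_two_of]
  simp

theorem den_wl (P : H3) : den wl P = normSq P.z + P.y ^ 2 := by
  unfold den
  rw [coe_wl]
  simp

theorem num_wl (P : H3) : num wl P = -conj P.z := by
  unfold num
  rw [coe_wl]
  simp

theorem z_wl_smul (P : H3) : (wl • P).z = -conj P.z / ((normSq P.z + P.y ^ 2 : ℝ) : ℂ) := by
  rw [z_smul, num_wl, den_wl]

theorem y_wl_smul (P : H3) : (wl • P).y = P.y / (normSq P.z + P.y ^ 2) := by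
  rw [y_smul, adet_wl, den_wl, one_mul]

/-- Bruhat decomposition. -/
theorem bruhat (g : GL (Fin 2) ℂ) (hc : g 1 0 ≠ 0) :
    g = ut 1 (g 0 0 / g 1 0) 1 one_ne_zero one_ne_zero * wl *
      ut (g 1 0) (g 1 1) ((g 0 0 * g 1 1 - g 0 1 * g 1 0) / g 1 0) hc
        (div_ne_zero (det_ne g) hc) := by
  apply Units.ext
  rw [Units.val_mul, Units.val_mul, coe_ut, coe_ut, coe_wl, Matrix.mul_fin_two,
    Matrix.mul_fin_two]
  conv_lhs => rw [Matrix.eta_fin_two (g : Matrix (Fin 2) (Fin 2) ℂ)]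
  ext i j
  fin_cases i <;> fin_cases j
  · simp
    field_simp
  · simp
    field_simp
    ring
  · simp
  · simp

/-- Induction over `GL (Fin 2) ℂ`: upper triangular matrices and the Weyl element generate. -/
theorem gl_induction {p : GL (Fin 2) ℂ → Prop}
    (h1 : ∀ a b d ha hd, p (ut a b d ha hd)) (hw : p wl)
    (hmul : ∀ g h, p g → p h → p (g * h)) (g : GL (Fin 2) ℂ) : p g := by
  by_cases hc : g 1 0 = 0
  · have : g = ut (g 0 0) (g 0 1) (g 1 1) (upper_ne hc).1 (upper_ne hc).2 := by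
      apply Units.ext
      rw [coe_ut]
      conv_lhs => rw [Matrix.eta_fin_two (g : Matrix (Fin 2) (Fin 2) ℂ)]
      rw [hc]
    rw [this]
    exact h1 _ _ _ _ _
  · rw [bruhat g hc]
    exact hmul _ _ (hmul _ _ (h1 _ _ _ _ _) hw) (h1 _ _ _ _ _)

/-- The upper triangular matrix moving the base point to `P`. -/
def toGL (P : H3) : GL (Fin 2) ℂ :=
  ut (P.y : ℂ) P.z 1 (ofReal_ne_zero.mpr P.y_ne) one_ne_zero

theorem z_ut_smul (a b d : ℂ) (ha : a ≠ 0) (hd : d ≠ 0) (P : H3) :
    (ut a b d ha hd • P).z = (a * P.z + b) / d :=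
  z_smul_of_upper (g := ut a b d ha hd) rfl P

theorem y_ut_smul (a b d : ℂ) (ha : a ≠ 0) (hd : d ≠ 0) (P : H3) :
    (ut a b d ha hd • P).y = ‖a / d‖ * P.y :=
  y_smul_of_upper (g := ut a b d ha hd) rfl P

@[simp] theorem toGL_smul_j (P : H3) : toGL P • j = P := by
  apply ext
  · unfold toGL
    rw [z_ut_smul]
    simp
  · unfold toGL
    rw [y_ut_smul]
    simp [abs_of_pos P.y_pos]

instance : MulAction.IsPretransitive (GL (Fin 2) ℂ) H3 where
  exists_smul_eq P Q := ⟨toGL Q * (toGL P)⁻¹, by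
    rw [mul_smul, inv_smul_eq_iff.mpr (toGL_smul_j P).symm, toGL_smul_j]⟩

theorem herm_j : herm j = 1 := by
  unfold herm
  rw [Matrix.one_fin_two]
  simp

/-- The stabiliser of the base point. -/
theorem smul_j_eq_iff (g : GL (Fin 2) ℂ) :
    g • j = j ↔ (g : Matrix (Fin 2) (Fin 2) ℂ) * (g : Matrix (Fin 2) (Fin 2) ℂ)ᴴ =
      (adet g : ℂ) • (1 : Matrix (Fin 2) (Fin 2) ℂ) := by
  have hA : (adet g : ℂ) ≠ 0 := ofReal_ne_zero.mpr (adet_pos g).ne'
  rw [← herm_injective.eq_iff, herm_smul, herm_j, Matrix.mul_one, inv_smul_eq_iff₀ hA]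

/-- The entries of `g` are bounded in terms of the distance of `g • j` and `j`. -/
theorem sum_normSq_eq (g : GL (Fin 2) ℂ) :
    normSq (g 0 0) + normSq (g 0 1) + normSq (g 1 0) + normSq (g 1 1) =
      2 * adet g * cu (g • j) j := by
  have hA : (adet g : ℂ) ≠ 0 := ofReal_ne_zero.mpr (adet_pos g).ne'
  have h1 : hermInv j = 1 := by
    unfold hermInv
    rw [Matrix.one_fin_two]
    simp
  have h2 := trace_herm_mul_hermInv (g • j) j
  rw [h1, Matrix.mul_one, herm_smul, herm_j, Matrix.mul_one, Matrix.trace_smul, smul_eq_mul,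
    inv_mul_eq_iff_eq_mul₀ hA] at h2
  have h3 : ((g : Matrix (Fin 2) (Fin 2) ℂ) * (g : Matrix (Fin 2) (Fin 2) ℂ)ᴴ).trace =
      ((normSq (g 0 0) + normSq (g 0 1) + normSq (g 1 0) + normSq (g 1 1) : ℝ) : ℂ) := by
    rw [Matrix.trace_fin_two, Matrix.mul_apply, Matrix.mul_apply, Fin.sum_univ_two,
      Fin.sum_univ_two]
    simp only [Matrix.conjTranspose_apply]
    push_cast
    rw [← Complex.mul_conj, ← Complex.mul_conj, ← Complex.mul_conj, ← Complex.mul_conj]
    simp only [← starRingEnd_apply]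
    ring
  rw [h3] at h2
  have h4 : normSq (g 0 0) + normSq (g 0 1) + normSq (g 1 0) + normSq (g 1 1) =
      adet g * (2 * cu (g • j) j) := by exact_mod_cast h2
  rw [h4]
  ring

theorem smul_vert {k : ℂ} (hk : k ≠ 0) (P : H3) (hz : P.z = 0) :
    ut k 0 1 hk one_ne_zero • P = mk 0 (‖k‖ * P.y) (mul_pos (norm_pos_iff.mpr hk) P.y_pos) := by
  apply ext
  · rw [z_ut_smul, hz]
    simp
  · rw [y_ut_smul]
    simp

theorem isHermitian_herm (P : H3) : (herm P).IsHermitian := by
  unfold herm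
  rw [Matrix.IsHermitian, Matrix.conjTranspose_smul]
  ext i j
  fin_cases i <;> fin_cases j <;> simp

theorem det_herm (P : H3) : (herm P).det = 1 := by
  have hy : (P.y : ℂ) ≠ 0 := ofReal_ne_zero.mpr P.y_ne
  unfold herm
  rw [← Complex.mul_conj, Matrix.det_smul, Matrix.det_fin_two_of, Fintype.card_fin]
  field_simp
  ring

theorem herm_vert {t : ℝ} (ht : 0 < t) :
    herm (mk 0 t ht) = !![(t : ℂ), 0; 0, (t : ℂ)⁻¹] := by
  have hy : (t : ℂ) ≠ 0 := ofReal_ne_zero.mpr ht.ne'
  unfold herm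
  ext i j
  fin_cases i <;> fin_cases j
  · simp
    field_simp
  · simp
  · simp
  · simp

/-- Cartan decomposition: every point is moved to the vertical axis above `j` by an element
fixing `j`. -/
theorem exists_rotate (P : H3) :
    ∃ k : GL (Fin 2) ℂ, k • j = j ∧ ∃ (t : ℝ) (ht : 0 < t), k • P = mk 0 t ht := by
  have hH := isHermitian_herm P
  have hs := hH.spectral_theorem
  rw [Unitary.conjStarAlgAut_apply] at hs
  set U := hH.eigenvectorUnitary with hU
  set a := hH.eigenvalues 0 with ha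
  set b := hH.eigenvalues 1 with hb
  have hdet : a * b = 1 := by
    have h1 := hH.det_eq_prod_eigenvalues
    rw [det_herm, Fin.prod_univ_two, ← ha, ← hb] at h1
    have h2 : ((a * b : ℝ) : ℂ) = ((1 : ℝ) : ℂ) := by
      push_cast
      exact h1.symm
    exact ofReal_injective h2
  have htr : 0 < a + b := by
    have h1 := hH.trace_eq_sum_eigenvalues
    rw [Fin.sum_univ_two, ← ha, ← hb] at h1
    have h2 : (herm P).trace = (((normSq P.z + P.y ^ 2 + 1) / P.y : ℝ) : ℂ) := by
      unfold herm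
      rw [Matrix.trace_smul, Matrix.trace_fin_two_of]
      push_cast
      rw [smul_eq_mul]
      ring
    rw [h2] at h1
    have h3 : (normSq P.z + P.y ^ 2 + 1) / P.y = a + b := by
      apply ofReal_injective
      rw [h1]
      push_cast
      rfl
    rw [← h3]
    have := P.y_pos
    have := normSq_nonneg P.z
    positivity
  have ha0 : 0 < a := by
    by_contra h
    rw [not_lt] at h
    have hb0 : 0 < b := by linarith
    nlinarith
  let k : GL (Fin 2) ℂ := Unitary.toUnits (star U)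
  have hk : (k : Matrix (Fin 2) (Fin 2) ℂ) = star (U : Matrix (Fin 2) (Fin 2) ℂ) := rfl
  have hkH : (k : Matrix (Fin 2) (Fin 2) ℂ)ᴴ = (U : Matrix (Fin 2) (Fin 2) ℂ) := by
    rw [hk, Matrix.star_eq_conjTranspose, Matrix.conjTranspose_conjTranspose]
  have hUU : star (U : Matrix (Fin 2) (Fin 2) ℂ) * (U : Matrix (Fin 2) (Fin 2) ℂ) = 1 :=
    Unitary.coe_star_mul_self U
  have hkk : (k : Matrix (Fin 2) (Fin 2) ℂ) * (k : Matrix (Fin 2) (Fin 2) ℂ)ᴴ = 1 := by
    rw [hk, ← hk, hkH, hk]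
    exact hUU
  have hadet : adet k = 1 := by
    have h1 : adet k * adet k = 1 := by
      unfold adet
      have h2 := congrArg Matrix.det hkk
      rw [Matrix.det_mul, Matrix.det_conjTranspose, Matrix.det_one] at h2
      have h3 := congrArg norm h2
      rw [norm_mul, norm_star, norm_one] at h3
      exact h3
    have h2 := adet_pos k
    nlinarith
  refine ⟨k, ?_, a, ha0, ?_⟩
  · rw [smul_j_eq_iff, hkk, hadet]
    simp
  · apply herm_injective
    rw [herm_smul, hadet, hkH, hk, herm_vert]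
    rw [hs]
    have : (star (U : Matrix (Fin 2) (Fin 2) ℂ)) * ((U : Matrix (Fin 2) (Fin 2) ℂ) *
        Matrix.diagonal (RCLike.ofReal ∘ hH.eigenvalues) * star (U : Matrix (Fin 2) (Fin 2) ℂ)) *
        (U : Matrix (Fin 2) (Fin 2) ℂ) = Matrix.diagonal (RCLike.ofReal ∘ hH.eigenvalues) := by
      calc _ = (star (U : Matrix (Fin 2) (Fin 2) ℂ) * (U : Matrix (Fin 2) (Fin 2) ℂ)) *
          Matrix.diagonal (RCLike.ofReal ∘ hH.eigenvalues) *
            (star (U : Matrix (Fin 2) (Fin 2) ℂ) * (U : Matrix (Fin 2) (Fin 2) ℂ)) := by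
            simp only [Matrix.mul_assoc]
        _ = _ := by rw [hUU, Matrix.one_mul, Matrix.mul_one]
    rw [this]
    have hb' : (b : ℂ) = (a : ℂ)⁻¹ := by
      rw [← ofReal_inv, ofReal_inj]
      exact eq_inv_of_mul_eq_one_right hdet
    ext i j
    fin_cases i <;> fin_cases j
    · simp [ha]
    · simp
    · simp
    · simp [← hb, hb']

/-- Normal form of a pair of points. -/
theorem exists_normal (P Q : H3) :
    ∃ g : GL (Fin 2) ℂ, g • P = j ∧ ∃ (t : ℝ) (ht : 0 < t), 1 ≤ t ∧ g • Q = mk 0 t ht := by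
  obtain ⟨k, hk, t, ht, hkt⟩ := exists_rotate ((toGL P)⁻¹ • Q)
  have hP : (toGL P)⁻¹ • P = j := inv_smul_eq_iff.mpr (toGL_smul_j P).symm
  rcases le_total 1 t with h | h
  · refine ⟨k * (toGL P)⁻¹, ?_, t, ht, h, ?_⟩
    · rw [mul_smul, hP, hk]
    · rw [mul_smul, hkt]
  · refine ⟨wl * (k * (toGL P)⁻¹), ?_, t⁻¹, inv_pos.mpr ht, one_le_inv_iff₀.mpr ⟨ht, h⟩, ?_⟩
    · rw [mul_smul, mul_smul, hP, hk]
      apply ext
      · rw [z_wl_smul]
        simp
      · rw [y_wl_smul]
        simp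
    · rw [mul_smul, mul_smul, hkt]
      apply ext
      · rw [z_wl_smul]
        simp
      · rw [y_wl_smul]
        simp
        field_simp

theorem cu_j_vert {t : ℝ} (ht : 0 < t) : cu j (mk 0 t ht) = (t + t⁻¹) / 2 := by
  unfold cu
  simp
  field_simp
  ring

/-- Two-point transitivity. -/
theorem exists_smul_smul_iff {P Q P' Q' : H3} :
    (∃ g : GL (Fin 2) ℂ, g • P = P' ∧ g • Q = Q') ↔ cu P Q = cu P' Q' := by
  refine ⟨fun ⟨g, h1, h2⟩ => by rw [← h1, ← h2, cu_smul], fun h => ?_⟩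
  obtain ⟨g, hg, t, ht, ht1, hgt⟩ := exists_normal P Q
  obtain ⟨g', hg', t', ht', ht1', hgt'⟩ := exists_normal P' Q'
  have h1 : (t + t⁻¹) / 2 = (t' + t'⁻¹) / 2 := by
    rw [← cu_j_vert ht, ← cu_j_vert ht', ← hg, ← hgt, ← hgt']
    nth_rewrite 2 [hg]
    rw [← hg', cu_smul, cu_smul]
    exact h
  have h2 : t = t' := by
    have h3 : (t - t') * (t * t' - 1) = 0 := by
      field_simp at h1
      linear_combination h1
    rcases mul_eq_zero.mp h3 with h4 | h4
    · linarith
    · nlinarith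
  subst h2
  refine ⟨g'⁻¹ * g, ?_, ?_⟩
  · rw [mul_smul, hg, inv_smul_eq_iff, hg']
  · rw [mul_smul, hgt, inv_smul_eq_iff, hgt']

/-- Any two points can be exchanged. -/
theorem exists_swap (P Q : H3) : ∃ g : GL (Fin 2) ℂ, g • P = Q ∧ g • Q = P :=
  exists_smul_smul_iff.mpr (cu_comm P Q)

end

end H3

end Fermat.Agent.LT
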