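import Fermat.Agent.LT.H3.Extend

/-!
# The spherical transforms separate `ν²` (helper70)
-/

set_option autoImplicit false

open MeasureTheory Set Real Filter Topology

namespace Fermat.Agent.LT.H3

theorem isChar_sph (ν : ℂ) : IsChar (sph ν) := by
  refine (isEig_hpow ν).isChar ⟨j, ?_⟩
  have h : ((j : H3).y : ℂ) ≠ 0 := by exact_mod_cast j.y_ne
  exact mul_ne_zero h (Complex.exp_ne_zero _)

theorem lap_deriv_deriv {g : ℝ → ℂ} (hg : ContDiff ℝ 2 g) (hs : HasCompactSupport g) (ν : ℂ) :
    lap ν (deriv (deriv g)) = ν ^ 2 * lap ν g := by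
  have hg1 : ContDiff ℝ 1 (deriv g) := by
    have : ContDiff ℝ (1 + 1) g := by
      have e : (1 : WithTop ℕ∞) + 1 = 2 := by norm_num
      rw [e]; exact hg
    exact (contDiff_succ_iff_deriv.mp this).2.2
  rw [lap_deriv hg1 hs.deriv, lap_deriv (hg.of_le one_le_two) hs]
  ring

theorem deriv_deriv_even {g : ℝ → ℂ} (he : ∀ r, g (-r) = g r) (r : ℝ) :
    deriv (deriv g) (-r) = deriv (deriv g) r := by
  have h1 : (fun r => deriv g (-r)) = fun r => - deriv g r :=
    funext fun r => deriv_neg_of_even he r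
  have h2 := deriv_comp_neg (deriv g) r
  rw [h1] at h2
  rw [deriv.fun_neg] at h2
  exact (neg_inj.mp h2).symm

/-- a kernel with Abel transform `g''` -/
theorem exists_second {k : ℝ → ℂ} (hk4 : ContDiff ℝ 4 (abel k)) (hk : IsKer k) :
    ∃ k', IsKer k' ∧ ∀ ν : ℂ, sph ν k' = ν ^ 2 * sph ν k := by
  set g := abel k with hg
  have hgs : HasCompactSupport g := hk.hasCompactSupport_abel
  have hge : ∀ r, g (-r) = g r := abel_even k
  have hg3 : ContDiff ℝ 3 (deriv g) := by
    have : ContDiff ℝ (3 + 1) g := by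
      have e : (3 : WithTop ℕ∞) + 1 = 4 := by norm_num
      rw [e]; exact hk4
    exact (contDiff_succ_iff_deriv.mp this).2.2
  have hg2 : ContDiff ℝ 2 (deriv (deriv g)) := by
    have : ContDiff ℝ (2 + 1) (deriv g) := by
      have e : (2 : WithTop ℕ∞) + 1 = 3 := by norm_num
      rw [e]; exact hg3
    exact (contDiff_succ_iff_deriv.mp this).2.2
  have hds : HasCompactSupport (deriv (deriv g)) := hgs.deriv.deriv
  refine ⟨ofAbel (deriv (deriv g)), isKer_ofAbel hg2 (deriv_deriv_even hge) hds, fun ν => ?_⟩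
  rw [sph, abel_ofAbel' hg2 (deriv_deriv_even hge) hds, sph]
  exact lap_deriv_deriv (hk4.of_le (by norm_num)) hgs ν

/-- **`sph ν` determines `ν²`.** -/
theorem sq_eq_of_sph_eq {ν ν' : ℂ} (h : ∀ k, IsKer k → sph ν k = sph ν' k) : ν ^ 2 = ν' ^ 2 := by
  obtain ⟨k, hk, hk4, hne⟩ := (isChar_sph ν).exists_smooth
  obtain ⟨k', hk', hk2⟩ := exists_second hk4 hk
  have h1 := h k' hk'
  rw [hk2, hk2, ← h k hk] at h1
  exact mul_right_cancel₀ hne h1

theorem sph_congr_sq {ν ν' : ℂ} (h : ν ^ 2 = ν' ^ 2) (k : ℝ → ℂ) : sph ν k = sph ν' k := by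
  rcases sq_eq_sq_iff_eq_or_eq_neg.mp h with h | h
  · rw [h]
  · rw [h, sph_neg]

theorem abel_star (k : ℝ → ℂ) (r : ℝ) :
    abel (fun t => starRingEnd ℂ (k t)) r = starRingEnd ℂ (abel k r) := by
  rw [abel, abel, integral_conj, Complex.real_smul, Complex.real_smul, map_mul, Complex.conj_ofReal]

theorem sph_star (k : ℝ → ℂ) (ν : ℂ) :
    sph ν (fun t => starRingEnd ℂ (k t)) = starRingEnd ℂ (sph (starRingEnd ℂ ν) k) := by
  rw [sph, sph, lap, lap, ← integral_conj]
  refine integral_congr_ae (Eventually.of_forall fun t => ?_)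
  change abel (fun t => starRingEnd ℂ (k t)) t * Complex.exp (ν * t) =
    starRingEnd ℂ (abel k t * Complex.exp (starRingEnd ℂ ν * t))
  rw [abel_star, map_mul, ← Complex.exp_conj, map_mul, Complex.conj_conj, Complex.conj_ofReal]

/-- real kernels have real transform if `ν²` is real -/
theorem sph_real {ν : ℂ} (hν : (ν ^ 2).im = 0) {k : ℝ → ℂ} (hk : ∀ t, (k t).im = 0) :
    (sph ν k).im = 0 := by
  have e : (fun t => starRingEnd ℂ (k t)) = k := funext fun t => Complex.conj_eq_iff_im.mpr (hk t)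
  have h1 := sph_star k ν
  have h2 : sph (starRingEnd ℂ ν) k = sph ν k := by
    apply sph_congr_sq
    rw [← map_pow]
    exact Complex.conj_eq_iff_im.mpr hν
  rw [e, h2] at h1
  exact Complex.conj_eq_iff_im.mp h1.symm

/-- if `sph ν k` is real for all real kernels then `ν²` is real -/
theorem sq_real_of_sph_real {ν : ℂ}
    (h : ∀ k : ℝ → ℂ, IsKer k → (∀ t, (k t).im = 0) → (sph ν k).im = 0) : (ν ^ 2).im = 0 := by
  have h1 : ∀ k, IsKer k → sph ν k = sph (starRingEnd ℂ ν) k := by
    intro k hk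
    -- split into real and imaginary parts
    have hre : IsKer fun t => (((k t).re : ℝ) : ℂ) := by
      obtain ⟨C, hC⟩ := hk.bdd
      refine ⟨Complex.continuous_ofReal.comp (Complex.continuous_re.comp hk.cont), C,
        fun t ht => ?_⟩
      rw [hC t ht, Complex.zero_re, Complex.ofReal_zero]
    have him : IsKer fun t => (((k t).im : ℝ) : ℂ) := by
      obtain ⟨C, hC⟩ := hk.bdd
      refine ⟨Complex.continuous_ofReal.comp (Complex.continuous_im.comp hk.cont), C,
        fun t ht => ?_⟩
      rw [hC t ht, Complex.zero_im, Complex.ofReal_zero]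
    have e : k = fun t => (((k t).re : ℝ) : ℂ) + Complex.I * (((k t).im : ℝ) : ℂ) := by
      ext t
      rw [mul_comm Complex.I]
      exact (Complex.re_add_im (k t)).symm
    have key : ∀ k' : ℝ → ℂ, IsKer k' → (∀ t, (k' t).im = 0) →
        sph ν k' = sph (starRingEnd ℂ ν) k' := by
      intro k' hk' hr
      have e1 : (fun t => starRingEnd ℂ (k' t)) = k' :=
        funext fun t => Complex.conj_eq_iff_im.mpr (hr t)
      have e2 := sph_star k' (starRingEnd ℂ ν)
      rw [e1, Complex.conj_conj, Complex.conj_eq_iff_im.mpr (h k' hk' hr)] at e2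
      exact e2.symm
    rw [e, sph_add hre (him.smul _), sph_add hre (him.smul _), sph_const_mul, sph_const_mul,
      key _ hre (fun t => Complex.ofReal_im _), key _ him (fun t => Complex.ofReal_im _)]
  have h2 := sq_eq_of_sph_eq h1
  rw [← map_pow] at h2
  exact Complex.conj_eq_iff_im.mp h2.symm

/-! ### Spherical functions -/

/-- `sph ν k = 2π ∫ k (cosh t) (sinh (ν t) / ν) sinh t dt` -/
theorem sph_eq_integral {k : ℝ → ℂ} (hk : IsKer k) (ν : ℂ) :
    sph ν k = 2 * π * ∫ t : ℝ, k (cosh t) * SS ν t * (sinh t : ℂ) := by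
  obtain ⟨C, hC⟩ := hk.bdd
  have hg := hk.contDiff_abel
  have hgs := hk.hasCompactSupport_abel
  have hSc : Continuous (SS ν) :=
    continuous_iff_continuousAt.mpr fun t => (hasDerivAt_SS ν t).continuousAt
  have hd : ∀ t : ℝ, HasDerivAt (fun t => abel k t * SS ν t)
      (-((2 * π * sinh t) • k (cosh t)) * SS ν t + abel k t * Complex.cosh (ν * t)) t := fun t =>
    (hasDerivAt_abel hk.cont hC t).mul (hasDerivAt_SS ν t)
  have i0 : Integrable fun t => abel k t * SS ν t :=
    (hg.continuous.mul hSc).integrable_of_hasCompactSupport hgs.mul_right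
  have i2 : Integrable fun t : ℝ => abel k t * Complex.cosh (ν * t) :=
    (hg.continuous.mul (continuous_cosh' ν)).integrable_of_hasCompactSupport hgs.mul_right
  have hkc : Continuous fun t : ℝ => k (cosh t) := hk.cont.comp Real.continuous_cosh
  have hks : HasCompactSupport fun t : ℝ => k (cosh t) := by
    obtain ⟨C, hC0, hC⟩ := hk.exists_pos
    refine hasCompactSupport_of_zero (R := 2 * C) fun r hr => hC _ ?_
    have := abs_le_two_cosh r
    linarith
  have i3 : Integrable fun t : ℝ => k (cosh t) * SS ν t * (sinh t : ℂ) :=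
    ((hkc.mul hSc).mul (Complex.continuous_ofReal.comp Real.continuous_sinh)
      ).integrable_of_hasCompactSupport (hks.mul_right.mul_right)
  have e1 : (fun t : ℝ => -((2 * π * sinh t) • k (cosh t)) * SS ν t) =
      fun t : ℝ => -(2 * π : ℂ) * (k (cosh t) * SS ν t * (sinh t : ℂ)) := by
    ext t
    rw [Complex.real_smul]
    push_cast
    ring
  have i1 : Integrable fun t : ℝ => -((2 * π * sinh t) • k (cosh t)) * SS ν t := by
    rw [e1]
    exact i3.const_mul _
  have h := integral_eq_zero_of_hasDerivAt_of_integrable hd (i1.add i2) i0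
  rw [integral_add i1 i2, e1, integral_const_mul, ← sph_eq_cosh hk] at h
  linear_combination h

theorem SS_one (t : ℝ) : SS 1 t = (sinh t : ℂ) := by
  have h := mul_SS 1 t
  rw [one_mul, one_mul] at h
  rw [h]
  exact (Complex.ofReal_sinh t).symm

theorem SS_zero_left (t : ℝ) : SS 0 t = (t : ℂ) := by
  rw [SS]
  simp

end Fermat.Agent.LT.H3
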