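import Fermat.Agent.LT.H3.Whittaker

/-!
# Radial kernels acting on expansions in products of Whittaker functions
-/

set_option autoImplicit false

open MeasureTheory Set Filter Topology
open scoped Real

namespace Fermat.Agent.LT.H3

noncomputable section

/-- a radial kernel in one variable acts on a product -/
theorem integral_ker_prod {J : Type*} [Fintype J] [DecidableEq J] (k : ℝ → ℂ) (f : J → H3 → ℂ)
    (w : J) {lam : ℂ} (P : J → H3)
    (h : ∫ Q : H3, k (cu (P w) Q) * f w Q = lam * f w (P w)) :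
    ∫ Q : H3, k (cu (P w) Q) * ∏ v, f v (Function.update P w Q v) = lam * ∏ v, f v (P v) := by
  have h1 : ∀ Q : H3, k (cu (P w) Q) * ∏ v, f v (Function.update P w Q v) =
      (k (cu (P w) Q) * f w Q) * ∏ v ∈ Finset.univ.erase w, f v (P v) := by
    intro Q
    rw [← Finset.mul_prod_erase Finset.univ _ (Finset.mem_univ w), Function.update_self, mul_assoc]
    congr 2
    refine Finset.prod_congr rfl fun v hv => ?_
    rw [Function.update_of_ne (Finset.ne_of_mem_erase hv)]
  simp_rw [h1]
  rw [integral_mul_const, h, ← Finset.mul_prod_erase Finset.univ _ (Finset.mem_univ w)]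
  ring

/-- termwise integration against a radial kernel -/
theorem integral_ker_tsum {k : ℝ → ℂ} (h : IsKer k) {ι : Type*} [Countable ι] {F : ι → H3 → ℂ}
    (hF : ∀ i, Continuous (F i)) {lam : ℂ} {P : H3} {G : ι → ℂ}
    (hlam : ∀ i, ∫ Q : H3, k (cu P Q) * F i Q = lam * G i)
    (hM : ∀ C : ℝ, ∃ M : ℝ, ∀ Q : H3, cu P Q ≤ C → ∀ s : Finset ι, ∑ i ∈ s, ‖F i Q‖ ≤ M) :
    ∫ Q : H3, k (cu P Q) * ∑' i, F i Q = lam * ∑' i, G i := by
  obtain ⟨C, hC⟩ := h.bdd
  obtain ⟨M, hM⟩ := hM C
  have hker : Continuous fun Q : H3 => k (cu P Q) := h.cont.comp (continuous_cu_right P)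
  have hint : ∀ i, Integrable fun Q : H3 => k (cu P Q) * F i Q := fun i =>
    integrable_of_support (hker.mul (hF i)) (isCompact_ball P C) fun Q hQ => by
      rw [hC _ (le_of_lt (not_le.mp hQ)), zero_mul]
  have hintk : Integrable fun Q : H3 => ‖k (cu P Q)‖ := by
    refine (integrable_of_support hker (isCompact_ball P C) fun Q hQ => ?_).norm
    exact hC _ (le_of_lt (not_le.mp hQ))
  have hsum : Summable fun i => ∫ Q : H3, ‖k (cu P Q) * F i Q‖ := by
    refine summable_of_sum_le (c := ∫ Q : H3, ‖k (cu P Q)‖ * M)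
      (fun i => integral_nonneg fun Q => norm_nonneg _) fun s => ?_
    rw [← integral_finsetSum s fun i _ => (hint i).norm]
    refine integral_mono (integrable_finsetSum s fun i _ => (hint i).norm)
      (hintk.mul_const M) fun Q => ?_
    simp only [norm_mul]
    rw [← Finset.mul_sum]
    by_cases hQ : cu P Q ≤ C
    · exact mul_le_mul_of_nonneg_left (hM Q hQ s) (norm_nonneg _)
    · rw [hC _ (le_of_lt (not_le.mp hQ)), norm_zero, zero_mul, zero_mul]
  have h1 : ∀ Q : H3, k (cu P Q) * ∑' i, F i Q = ∑' i, k (cu P Q) * F i Q := by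
    intro Q
    exact tsum_mul_left.symm
  simp_rw [h1]
  rw [← integral_tsum_of_summable_integral_norm hint hsum]
  simp_rw [hlam]
  exact tsum_mul_left

/-- **(I)**: an absolutely convergent expansion in products of Whittaker functions is an
eigenfunction of the radial kernels in each variable. -/
theorem integral_ker_whit_tsum {k : ℝ → ℂ} (h : IsKer k) {J ι : Type*} [Fintype J]
    [DecidableEq J] [Countable ι] (ν : J → ℂ) (c : ι → ℂ) (ξ : ι → J → ℂ)
    (hξ : ∀ i, c i ≠ 0 → ∀ w, ξ i w ≠ 0) (P : J → H3) (w : J)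
    (hM : ∀ C : ℝ, ∃ M : ℝ, ∀ Q : H3, cu (P w) Q ≤ C → ∀ s : Finset ι,
      ∑ i ∈ s, ‖c i * ∏ v, whit (ν v) (ξ i v) (Function.update P w Q v)‖ ≤ M) :
    ∫ Q : H3, k (cu (P w) Q) *
        ∑' i, c i * ∏ v, whit (ν v) (ξ i v) (Function.update P w Q v) =
      sph (ν w) k * ∑' i, c i * ∏ v, whit (ν v) (ξ i v) (P v) := by
  refine integral_ker_tsum h (fun i => ?_) (fun i => ?_) hM
  · by_cases hc : c i = 0
    · simp only [hc, zero_mul]
      exact continuous_const
    · refine continuous_const.mul (continuous_finsetProd _ fun v _ => ?_)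
      have h1 : Continuous fun Q : H3 => Function.update P w Q v := by
        by_cases hv : v = w
        · subst hv
          simp only [Function.update_self]
          exact continuous_id
        · simp only [Function.update_of_ne hv]
          exact continuous_const
      exact (continuous_whit (hξ i hc v)).comp h1
  · by_cases hc : c i = 0
    · simp only [hc, zero_mul, mul_zero, integral_zero]
    · have h1 := integral_ker_prod k (fun v => whit (ν v) (ξ i v)) w P
        (integral_ker_whit h (ν w) (hξ i hc w) (P w))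
      calc ∫ Q : H3, k (cu (P w) Q) *
            (c i * ∏ v, whit (ν v) (ξ i v) (Function.update P w Q v)) =
          c i * ∫ Q : H3, k (cu (P w) Q) *
            ∏ v, whit (ν v) (ξ i v) (Function.update P w Q v) := by
            rw [← integral_const_mul]
            refine integral_congr_ae (ae_of_all _ fun Q => ?_)
            simp only
            ring
        _ = _ := by
          rw [h1]
          ring

/-- the same with the factors in the other order -/
theorem integral_ker_whit_tsum' {k : ℝ → ℂ} (h : IsKer k) {J ι : Type*} [Fintype J]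
    [DecidableEq J] [Countable ι] (ν : ℂ) (c : ι → ℂ) (ξ : ι → J → ℂ)
    (hξ : ∀ i, c i ≠ 0 → ∀ w, ξ i w ≠ 0) (W : (J → H3) → (J → ℂ) → ℂ)
    (hW : ∀ P x, W P x = ∏ v, (((P v).y : ℂ) * besselK ν (4 * π * ‖x v‖ * (P v).y)) *
      Complex.exp (2 * π * Complex.I * ((2 * (x v * (P v).z).re : ℝ) : ℂ)))
    (P : J → H3) (w : J)
    (hM : ∀ C : ℝ, ∃ M : ℝ, ∀ Q : H3, cu (P w) Q ≤ C → ∀ s : Finset ι,
      ∑ i ∈ s, ‖c i * W (Function.update P w Q) (ξ i)‖ ≤ M) :
    ∫ Q : H3, k (cu (P w) Q) * ∑' i, c i * W (Function.update P w Q) (ξ i) =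
      sph ν k * ∑' i, c i * W P (ξ i) := by
  have hW' : ∀ P x, W P x = ∏ v, whit ν (x v) (P v) := by
    intro P x
    rw [hW]
    refine Finset.prod_congr rfl fun v _ => ?_
    rw [whit, e2]
    ring
  simp only [hW'] at hM ⊢
  exact integral_ker_whit_tsum h (fun _ => ν) c ξ hξ P w hM

end

end Fermat.Agent.LT.H3
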