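import Fermat.Agent.LT.H3.Radial
import Fermat.Agent.LT.H3.Nu
import Fermat.Agent.LT.BesselMellin
import Fermat.Agent.LT.BesselCont

/-!
# Radial kernels acting on Whittaker functions of hyperbolic 3-space

For `c ≠ 0`, `ν : ℂ`, `whit ν c P = e (2 Re (c z)) * y K_ν (4 π |c| y)`:
`∫ k (cu P Q) whit ν c Q = sph ν k * whit ν c P` for every continuous radial kernel with compact
support. No Laplacian: `whit` is an integral of translates of `y ^ (1 + ν)` if `0 < re ν`.
-/

set_option autoImplicit false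

open MeasureTheory Set Filter Topology
open scoped Real ComplexConjugate

namespace Fermat.Agent.LT.H3

noncomputable section

/-- `e (2 Re (c z))` -/
def e2 (c z : ℂ) : ℂ := Complex.exp (2 * π * Complex.I * ((2 * (c * z).re : ℝ) : ℂ))

theorem norm_e2 (c z : ℂ) : ‖e2 c z‖ = 1 := by
  rw [e2, show 2 * (π : ℂ) * Complex.I * ((2 * (c * z).re : ℝ) : ℂ) =
    ((2 * π * (2 * (c * z).re) : ℝ) : ℂ) * Complex.I by push_cast; ring, Complex.norm_exp_ofReal_mul_I]

theorem e2_add (c z w : ℂ) : e2 c (z + w) = e2 c z * e2 c w := by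
  rw [e2, e2, e2, ← Complex.exp_add]
  congr 1
  rw [mul_add, Complex.add_re]
  push_cast
  ring

theorem e2_zero (c : ℂ) : e2 c 0 = 1 := by
  simp [e2]

theorem continuous_e2 (c : ℂ) : Continuous (e2 c) := by
  unfold e2
  fun_prop

/-- the Whittaker function -/
def whit (ν c : ℂ) (P : H3) : ℂ := e2 c P.z * (P.y * besselK ν (4 * π * ‖c‖ * P.y))

/-! ### powers of the height -/

theorem integral_ker_height_cpow {k : ℝ → ℂ} (h : IsKer k) (ν : ℂ) (P : H3) :
    ∫ Q : H3, k (cu P Q) * (Q.y : ℂ) ^ (1 + ν) = sph ν k * (P.y : ℂ) ^ (1 + ν) := by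
  have hpow : ∀ Q : H3, (Q.y : ℂ) ^ (1 + ν) =
      (Q.y : ℂ) * Complex.exp (ν * (Real.log Q.y : ℝ)) := by
    intro Q
    have hQ : (Q.y : ℂ) ≠ 0 := by exact_mod_cast Q.y_ne
    rw [Complex.cpow_add _ _ hQ, Complex.cpow_one, Complex.cpow_def_of_ne_zero hQ,
      ← Complex.ofReal_log Q.y_pos.le, mul_comm ν]
  simp_rw [hpow]
  rw [integral_ker_height h P (F := fun t : ℝ => Complex.exp (ν * t)) (by fun_prop)]
  have h1 : cv (abel k) (fun t : ℝ => Complex.exp (ν * t)) (Real.log P.y) =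
      sph (-ν) k * Complex.exp (ν * (Real.log P.y : ℝ)) := by
    rw [cv, sph, lap, ← integral_mul_const]
    refine integral_congr_ae (ae_of_all _ fun t => ?_)
    simp only
    rw [mul_assoc, ← Complex.exp_add]
    congr 2
    push_cast
    ring
  rw [h1, sph_neg]
  ring

/-- a radial kernel commutes with the group -/
theorem integral_ker_smul (k : ℝ → ℂ) (f : H3 → ℂ) (g : GL (Fin 2) ℂ) (P : H3) :
    ∫ Q : H3, k (cu P Q) * f (g • Q) = ∫ Q : H3, k (cu (g • P) Q) * f Q := by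
  rw [← integral_smul_eq (fun Q : H3 => k (cu (g • P) Q) * f Q) g]
  simp only [cu_smul]

/-- the element with `y (gw w • P) = y / (‖z - w‖² + y²)` -/
def gw (w : ℂ) : GL (Fin 2) ℂ := wl * ut 1 (-w) 1 one_ne_zero one_ne_zero

theorem y_gw (w : ℂ) (P : H3) : (gw w • P).y = P.y / (‖P.z - w‖ ^ 2 + P.y ^ 2) := by
  rw [gw, mul_smul, y_wl_smul, y_ut_smul, z_ut_smul, Complex.normSq_eq_norm_sq]
  simp [sub_eq_add_neg]

theorem integral_ker_gw {k : ℝ → ℂ} (h : IsKer k) (ν w : ℂ) (P : H3) :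
    ∫ Q : H3, k (cu P Q) * ((gw w • Q).y : ℂ) ^ (1 + ν) =
      sph ν k * ((gw w • P).y : ℂ) ^ (1 + ν) := by
  rw [integral_ker_smul k (fun Q => (Q.y : ℂ) ^ (1 + ν)) (gw w) P, integral_ker_height_cpow h]

/-! ### the Fourier integral -/

/-- Gaussian integral over `ℂ` -/
theorem integral_gauss_e2 (c : ℂ) {u : ℝ} (hu : 0 < u) :
    ∫ w : ℂ, ((Real.exp (-(u * ‖w‖ ^ 2)) : ℝ) : ℂ) * e2 c w =
      (π / u) * ((Real.exp (-(4 * π ^ 2 * ‖c‖ ^ 2 / u)) : ℝ) : ℂ) := by
  have h := GaussianFourier.integral_cexp_neg_mul_sq_norm_add (V := ℂ) (b := (u : ℂ)) (by simpa using hu)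
    (4 * π * Complex.I) (conj c)
  have h1 : ∀ w : ℂ, Complex.exp (-(u : ℂ) * (‖w‖ : ℂ) ^ 2 +
      4 * π * Complex.I * (inner ℝ (conj c) w : ℝ)) =
      ((Real.exp (-(u * ‖w‖ ^ 2)) : ℝ) : ℂ) * e2 c w := by
    intro w
    rw [e2, Complex.ofReal_exp, ← Complex.exp_add]
    congr 1
    have : (inner ℝ (conj c) w : ℝ) = (c * w).re := by
      rw [Complex.inner]
      simp
      ring
    rw [this]
    push_cast
    ring
  rw [← integral_congr_ae (ae_of_all _ h1), h, Complex.finrank_real_complex]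
  have hu' : (u : ℂ) ≠ 0 := by exact_mod_cast hu.ne'
  congr 1
  · norm_num
  · rw [Complex.ofReal_exp]
    congr 1
    rw [mul_pow, mul_pow, Complex.I_sq, Complex.norm_conj]
    push_cast
    field_simp

theorem integrable_gauss {u : ℝ} (hu : 0 < u) :
    Integrable fun w : ℂ => Real.exp (-(u * ‖w‖ ^ 2)) := by
  have h := (GaussianFourier.integrable_cexp_neg_mul_sq_norm_add (V := ℂ) (b := (u : ℂ))
    (by simpa using hu) 0 0).norm
  refine h.congr (ae_of_all _ fun w => ?_)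
  simp only [Complex.norm_exp]
  congr 1
  simp [← Complex.ofReal_pow]

theorem integral_gauss {u : ℝ} (hu : 0 < u) :
    ∫ w : ℂ, Real.exp (-(u * ‖w‖ ^ 2)) = π / u := by
  have h := GaussianFourier.integral_rexp_neg_mul_sq_norm (V := ℂ) hu
  rw [Complex.finrank_real_complex] at h
  simpa using h

theorem integral_inv_e2 {ν c : ℂ} (hν : 0 < ν.re) (hc : c ≠ 0) {y : ℝ} (hy : 0 < y) :
    ∫ w : ℂ, ((1 / (‖w‖ ^ 2 + y ^ 2) : ℝ) : ℂ) ^ (1 + ν) * e2 c w =
      2 * π * ((2 * π * ‖c‖ : ℝ) : ℂ) ^ ν / Complex.Gamma (1 + ν) *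
        (((y : ℂ) ^ ν)⁻¹ * besselK ν (4 * π * ‖c‖ * y)) := by
  have hν1 : 0 < (1 + ν).re := by rw [Complex.add_re, Complex.one_re]; linarith
  have hΓ : Complex.Gamma (1 + ν) ≠ 0 := Complex.Gamma_ne_zero_of_re_pos hν1
  set F : ℂ → ℝ → ℂ := fun w u =>
    (u : ℂ) ^ (1 + ν - 1) * Complex.exp (-(((‖w‖ ^ 2 + y ^ 2 : ℝ) : ℂ) * u)) * e2 c w with hF
  have hmeas : AEStronglyMeasurable (Function.uncurry F)
      ((volume : Measure ℂ).prod (volume.restrict (Ioi 0))) := by
    have h1 : Measurable fun p : ℂ × ℝ => (p.2 : ℂ) ^ (1 + ν - 1) :=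
      (Complex.measurable_ofReal.comp measurable_snd).pow_const _
    have h2 : Measurable fun p : ℂ × ℝ =>
        Complex.exp (-(((‖p.1‖ ^ 2 + y ^ 2 : ℝ) : ℂ) * p.2)) * e2 c p.1 := by
      have : Continuous fun p : ℂ × ℝ =>
          Complex.exp (-(((‖p.1‖ ^ 2 + y ^ 2 : ℝ) : ℂ) * p.2)) * e2 c p.1 :=
        (by fun_prop : Continuous fun p : ℂ × ℝ =>
          Complex.exp (-(((‖p.1‖ ^ 2 + y ^ 2 : ℝ) : ℂ) * p.2))).mul
          ((continuous_e2 c).comp continuous_fst)
      exact this.measurable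
    have h3 : Function.uncurry F = fun p : ℂ × ℝ => (p.2 : ℂ) ^ (1 + ν - 1) *
        (Complex.exp (-(((‖p.1‖ ^ 2 + y ^ 2 : ℝ) : ℂ) * p.2)) * e2 c p.1) := by
      ext p
      simp only [Function.uncurry, hF]
      ring
    rw [h3]
    exact (h1.mul h2).aestronglyMeasurable
  have hnorm : ∀ (w : ℂ) (u : ℝ), 0 < u → ‖F w u‖ =
      u ^ ν.re * Real.exp (-(y ^ 2 * u)) * Real.exp (-(u * ‖w‖ ^ 2)) := by
    intro w u hu
    rw [hF]
    simp only
    rw [norm_mul, norm_mul, norm_e2, mul_one, Complex.norm_cpow_eq_rpow_re_of_pos hu,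
      ← Complex.ofReal_mul, ← Complex.ofReal_neg, ← Complex.ofReal_exp, Complex.norm_real,
      Real.norm_of_nonneg (Real.exp_pos _).le, mul_assoc, ← Real.exp_add]
    congr 2
    · simp
    · ring
  have hsec : ∀ u : ℝ, 0 < u → Integrable fun w : ℂ => F w u := by
    intro u hu
    refine (integrable_norm_iff ?_).mp ?_
    · have : Continuous fun w : ℂ => F w u := by
        rw [hF]
        exact (by fun_prop : Continuous fun w : ℂ => (u : ℂ) ^ (1 + ν - 1) *
          Complex.exp (-(((‖w‖ ^ 2 + y ^ 2 : ℝ) : ℂ) * u))).mul (continuous_e2 c)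
      exact this.aestronglyMeasurable
    · exact ((integrable_gauss hu).const_mul (u ^ ν.re * Real.exp (-(y ^ 2 * u)))).congr
        (ae_of_all _ fun w => (hnorm w u hu).symm)
  have hint : Integrable (Function.uncurry F)
      ((volume : Measure ℂ).prod (volume.restrict (Ioi 0))) := by
    rw [integrable_prod_iff' hmeas]
    constructor
    · filter_upwards [self_mem_ae_restrict measurableSet_Ioi] with u hu
      exact hsec u hu
    · have h1 : ∀ u ∈ Ioi (0 : ℝ), ∫ w : ℂ, ‖Function.uncurry F (w, u)‖ =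
          π * (u ^ (ν.re - 1) * Real.exp (-(y ^ 2) * u ^ (1 : ℝ))) := by
        intro u hu
        have hu' : 0 < u := hu
        have h2 : ∫ w : ℂ, ‖Function.uncurry F (w, u)‖ =
            ∫ w : ℂ, (u ^ ν.re * Real.exp (-(y ^ 2 * u))) * Real.exp (-(u * ‖w‖ ^ 2)) :=
          integral_congr_ae (ae_of_all _ fun w => hnorm w u hu')
        rw [h2, integral_const_mul, integral_gauss hu', Real.rpow_sub_one hu'.ne', Real.rpow_one,
          neg_mul]
        field_simp
      have h3 : IntegrableOn (fun u : ℝ =>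
          π * (u ^ (ν.re - 1) * Real.exp (-(y ^ 2) * u ^ (1 : ℝ)))) (Ioi 0) :=
        (integrableOn_rpow_mul_exp_neg_mul_rpow (p := 1) (s := ν.re - 1) (b := y ^ 2)
          (by linarith) one_pos (by positivity)).const_mul π
      exact h3.congr_fun (fun u hu => (h1 u hu).symm) measurableSet_Ioi
  have e1 : ∀ w : ℂ, ∫ u in Ioi (0 : ℝ), F w u =
      Complex.Gamma (1 + ν) * (((1 / (‖w‖ ^ 2 + y ^ 2) : ℝ) : ℂ) ^ (1 + ν) * e2 c w) := by
    intro w
    have h1 := Complex.integral_cpow_mul_exp_neg_mul_Ioi hν1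
      (r := ‖w‖ ^ 2 + y ^ 2) (by positivity)
    rw [hF]
    simp only
    rw [integral_mul_const, h1]
    push_cast
    ring
  have e2' : ∀ u ∈ Ioi (0 : ℝ), ∫ w : ℂ, F w u =
      π * (Complex.exp (-((y ^ 2 * u + 4 * π ^ 2 * ‖c‖ ^ 2 / u : ℝ) : ℂ)) *
        (u : ℂ) ^ (ν - 1)) := by
    intro u hu
    have hu' : 0 < u := hu
    have hu0 : (u : ℂ) ≠ 0 := by exact_mod_cast hu'.ne'
    have h1 : ∀ w : ℂ, F w u = ((u : ℂ) ^ ν * Complex.exp (-((y ^ 2 * u : ℝ) : ℂ))) *
        (((Real.exp (-(u * ‖w‖ ^ 2)) : ℝ) : ℂ) * e2 c w) := by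
      intro w
      have h2 : Complex.exp (-(((‖w‖ ^ 2 + y ^ 2 : ℝ) : ℂ) * u)) =
          Complex.exp (-((y ^ 2 * u : ℝ) : ℂ)) * Complex.exp ((-(u * ‖w‖ ^ 2) : ℝ) : ℂ) := by
        rw [← Complex.exp_add]
        congr 1
        push_cast
        ring
      rw [hF]
      simp only
      rw [add_sub_cancel_left, Complex.ofReal_exp, h2]
      ring
    simp_rw [h1]
    rw [integral_const_mul, integral_gauss_e2 c hu', Complex.cpow_sub _ _ hu0, Complex.cpow_one,
      Complex.ofReal_add, neg_add, Complex.exp_add, Complex.ofReal_exp, Complex.ofReal_neg]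
    ring
  have hc0 : 0 < ‖c‖ := norm_pos_iff.mpr hc
  have hcy : 0 < 4 * π ^ 2 * ‖c‖ ^ 2 := by have := Real.pi_pos; positivity
  have key : Complex.Gamma (1 + ν) *
      ∫ w : ℂ, ((1 / (‖w‖ ^ 2 + y ^ 2) : ℝ) : ℂ) ^ (1 + ν) * e2 c w =
      π * (2 * ((4 * π ^ 2 * ‖c‖ ^ 2 / y ^ 2 : ℝ) : ℂ) ^ (ν / 2) *
        besselK ν (2 * √(y ^ 2 * (4 * π ^ 2 * ‖c‖ ^ 2)))) := by
    rw [← integral_exp_add_inv ν (by positivity : 0 < y ^ 2) hcy, ← integral_const_mul,
      ← integral_const_mul, ← setIntegral_congr_fun measurableSet_Ioi e2', ←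
      integral_congr_ae (ae_of_all _ e1)]
    exact integral_integral_swap hint
  have h3 : 2 * √(y ^ 2 * (4 * π ^ 2 * ‖c‖ ^ 2)) = 4 * π * ‖c‖ * y := by
    have : y ^ 2 * (4 * π ^ 2 * ‖c‖ ^ 2) = (2 * π * ‖c‖ * y) ^ 2 := by ring
    rw [this, Real.sqrt_sq (by have := Real.pi_pos; positivity)]
    ring
  have h4 : ((4 * π ^ 2 * ‖c‖ ^ 2 / y ^ 2 : ℝ) : ℂ) ^ (ν / 2) =
      ((2 * π * ‖c‖ : ℝ) : ℂ) ^ ν * ((y : ℂ) ^ ν)⁻¹ := by
    have h5 : 0 < 2 * π * ‖c‖ / y := by have := Real.pi_pos; positivity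
    have h6 : (4 * π ^ 2 * ‖c‖ ^ 2 / y ^ 2 : ℝ) = (2 * π * ‖c‖ / y) ^ 2 := by ring
    rw [h6, Complex.cpow_def_of_ne_zero (by exact_mod_cast (pow_pos h5 2).ne'),
      Complex.cpow_def_of_ne_zero (by exact_mod_cast (by have := Real.pi_pos; positivity)),
      Complex.cpow_def_of_ne_zero (by exact_mod_cast hy.ne'), ← Complex.exp_neg,
      ← Complex.exp_add, ← Complex.ofReal_log (pow_pos h5 2).le,
      ← Complex.ofReal_log (by have := Real.pi_pos; positivity), ← Complex.ofReal_log hy.le,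
      Real.log_pow, Real.log_div (by have := Real.pi_pos; positivity) hy.ne']
    congr 1
    push_cast
    ring
  rw [h3, h4] at key
  field_simp
  rw [mul_comm, key]
  ring_nf

/-- the constant relating the Fourier integral and the Whittaker function -/
def cst (ν c : ℂ) : ℂ := 2 * π * ((2 * π * ‖c‖ : ℝ) : ℂ) ^ ν / Complex.Gamma (1 + ν)

theorem cst_ne_zero {ν c : ℂ} (hν : 0 < ν.re) (hc : c ≠ 0) : cst ν c ≠ 0 := by
  have hν1 : 0 < (1 + ν).re := by rw [Complex.add_re, Complex.one_re]; linarith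
  have hc0 : 0 < ‖c‖ := norm_pos_iff.mpr hc
  have h1 : ((2 * π * ‖c‖ : ℝ) : ℂ) ≠ 0 := by
    have := Real.pi_pos
    exact_mod_cast (by positivity : (2 * π * ‖c‖ : ℝ) ≠ 0)
  refine div_ne_zero (mul_ne_zero (mul_ne_zero two_ne_zero (by exact_mod_cast Real.pi_ne_zero)) ?_)
    (Complex.Gamma_ne_zero_of_re_pos hν1)
  exact fun h => h1 ((Complex.cpow_eq_zero_iff _ _).mp h).1

/-- **`whit` is a Fourier integral of translates of a power of the height.** -/
theorem integral_gw_e2 {ν c : ℂ} (hν : 0 < ν.re) (hc : c ≠ 0) (P : H3) :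
    ∫ w : ℂ, ((gw w • P).y : ℂ) ^ (1 + ν) * e2 c w = cst ν c * whit ν c P := by
  have hy := P.y_pos
  have hy0 : (P.y : ℂ) ≠ 0 := by exact_mod_cast hy.ne'
  rw [← integral_add_left_eq_self _ P.z]
  have h1 : ∀ w : ℂ, ((gw (P.z + w) • P).y : ℂ) ^ (1 + ν) * e2 c (P.z + w) =
      ((P.y : ℂ) ^ (1 + ν) * e2 c P.z) *
        (((1 / (‖w‖ ^ 2 + P.y ^ 2) : ℝ) : ℂ) ^ (1 + ν) * e2 c w) := by
    intro w
    rw [y_gw, e2_add, sub_add_cancel_left, norm_neg, div_eq_mul_one_div, Complex.ofReal_mul,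
      Complex.mul_cpow_ofReal_nonneg hy.le (by positivity)]
    ring
  simp_rw [h1]
  rw [integral_const_mul, integral_inv_e2 hν hc hy, whit, cst, Complex.cpow_add _ _ hy0,
    Complex.cpow_one]
  have h2 : (P.y : ℂ) ^ ν ≠ 0 := by simp [Complex.cpow_eq_zero_iff, hy0]
  field_simp

theorem norm_gw_cpow (ν w : ℂ) (P : H3) :
    ‖((gw w • P).y : ℂ) ^ (1 + ν)‖ = (gw w • P).y ^ (1 + ν.re) := by
  rw [Complex.norm_cpow_eq_rpow_re_of_pos (gw w • P).y_pos, Complex.add_re, Complex.one_re]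

theorem integrable_gw_rpow {σ : ℝ} (hσ : 0 < σ) (P : H3) :
    Integrable fun w : ℂ => (gw w • P).y ^ (1 + σ) := by
  have hy := P.y_pos
  have h1 := integrable_rpow_neg_one_add_norm_sq (E := ℂ) (μ := volume) (r := 2 * (1 + σ)) (by
    rw [Complex.finrank_real_complex]
    push_cast
    linarith)
  have h2 := ((h1.comp_smul (inv_ne_zero hy.ne')).comp_sub_left P.z).const_mul
    (P.y ^ (-(1 + σ)))
  refine h2.congr (ae_of_all _ fun w => ?_)
  simp only
  rw [y_gw, norm_smul, Real.norm_of_nonneg (inv_nonneg.mpr hy.le),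
    show -(2 * (1 + σ)) / 2 = -(1 + σ) by ring, Real.rpow_neg hy.le, Real.rpow_neg (by positivity), ← Real.inv_rpow hy.le,
    ← Real.inv_rpow (by positivity), ← Real.mul_rpow (by positivity) (by positivity)]
  congr 1
  field_simp
  ring

theorem IsKer.normC {k : ℝ → ℂ} (h : IsKer k) : IsKer fun t => ((‖k t‖ : ℝ) : ℂ) := by
  obtain ⟨C, hC⟩ := h.bdd
  refine ⟨Complex.continuous_ofReal.comp h.cont.norm, C, fun t ht => ?_⟩
  rw [hC t ht, norm_zero, Complex.ofReal_zero]

theorem continuous_gw_y : Continuous fun p : H3 × ℂ => (gw p.2 • p.1).y := by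
  simp_rw [y_gw]
  refine Continuous.div (by fun_prop) (by fun_prop) fun p => ?_
  have := p.1.y_pos
  positivity

theorem integral_norm_ker_gw {k : ℝ → ℂ} (h : IsKer k) (ν w : ℂ) (P : H3) :
    ∫ Q : H3, ‖k (cu P Q) * (((gw w • Q).y : ℂ) ^ (1 + ν))‖ =
      (sph ν.re fun t => ((‖k t‖ : ℝ) : ℂ)).re * (gw w • P).y ^ (1 + ν.re) := by
  have h1 := integral_ker_gw h.normC (ν.re : ℂ) w P
  have h2 : ∀ Q : H3, ((‖k (cu P Q)‖ : ℝ) : ℂ) * ((gw w • Q).y : ℂ) ^ (1 + (ν.re : ℂ)) =
      ((‖k (cu P Q) * (((gw w • Q).y : ℂ) ^ (1 + ν))‖ : ℝ) : ℂ) := by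
    intro Q
    rw [norm_mul, norm_gw_cpow, Complex.ofReal_mul, Complex.ofReal_cpow (gw w • Q).y_pos.le]
    push_cast
    rfl
  simp_rw [h2] at h1
  rw [integral_complex_ofReal, ← Complex.ofReal_one, ← Complex.ofReal_add,
    ← Complex.ofReal_cpow (gw w • P).y_pos.le] at h1
  have h3 := congrArg Complex.re h1
  rwa [Complex.ofReal_re, Complex.re_mul_ofReal] at h3

/-- the eigenvalue equation in the half plane `0 < re ν` -/
theorem integral_ker_whit_of_pos {k : ℝ → ℂ} (h : IsKer k) {ν c : ℂ} (hν : 0 < ν.re) (hc : c ≠ 0)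
    (P : H3) : ∫ Q : H3, k (cu P Q) * whit ν c Q = sph ν k * whit ν c P := by
  obtain ⟨C, hC⟩ := h.bdd
  set F : H3 → ℂ → ℂ := fun Q w => k (cu P Q) * (((gw w • Q).y : ℂ) ^ (1 + ν) * e2 c w) with hF
  have hcont : Continuous (Function.uncurry F) := by
    have h1 : Continuous fun p : H3 × ℂ => ((gw p.2 • p.1).y : ℂ) ^ (1 + ν) := by
      refine Continuous.cpow (Complex.continuous_ofReal.comp continuous_gw_y) continuous_const
        fun p => ?_
      rw [Complex.ofReal_mem_slitPlane]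
      exact y_pos _
    exact (h.cont.comp (continuous_cu' continuous_const continuous_fst)).mul
      (h1.mul ((continuous_e2 c).comp continuous_snd))
  have hint : Integrable (Function.uncurry F)
      ((volume : Measure H3).prod (volume : Measure ℂ)) := by
    rw [integrable_prod_iff' hcont.aestronglyMeasurable]
    constructor
    · refine ae_of_all _ fun w => ?_
      refine integrable_of_support (K := {Q : H3 | cu P Q ≤ C}) ?_ (isCompact_ball P C) ?_
      · exact hcont.comp (continuous_id.prodMk continuous_const)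
      · intro Q hQ
        simp only [Function.uncurry, hF]
        rw [hC _ (le_of_lt (not_le.mp hQ)), zero_mul]
    · have h1 : ∀ w : ℂ, ∫ Q : H3, ‖Function.uncurry F (Q, w)‖ =
          (sph ν.re fun t => ((‖k t‖ : ℝ) : ℂ)).re * (gw w • P).y ^ (1 + ν.re) := by
        intro w
        rw [← integral_norm_ker_gw h ν w P]
        refine integral_congr_ae (ae_of_all _ fun Q => ?_)
        simp only [Function.uncurry, hF]
        rw [norm_mul, norm_mul, norm_e2, mul_one, norm_mul]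
      simp_rw [h1]
      exact (integrable_gw_rpow hν P).const_mul _
  have h1 : cst ν c * ∫ Q : H3, k (cu P Q) * whit ν c Q = ∫ Q : H3, ∫ w : ℂ, F Q w := by
    rw [← integral_const_mul]
    refine integral_congr_ae (ae_of_all _ fun Q => ?_)
    simp only [hF]
    rw [integral_const_mul, integral_gw_e2 hν hc]
    ring
  have h2 : ∫ w : ℂ, ∫ Q : H3, F Q w = cst ν c * (sph ν k * whit ν c P) := by
    have h3 : ∀ w : ℂ, ∫ Q : H3, F Q w =
        sph ν k * (((gw w • P).y : ℂ) ^ (1 + ν) * e2 c w) := by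
      intro w
      have h4 : ∀ Q : H3, F Q w = k (cu P Q) * ((gw w • Q).y : ℂ) ^ (1 + ν) * e2 c w := by
        intro Q
        simp only [hF]
        ring
      simp_rw [h4]
      rw [integral_mul_const, integral_ker_gw h]
      ring
    simp_rw [h3]
    rw [integral_const_mul, integral_gw_e2 hν hc]
    ring
  rw [integral_integral_swap hint, h2] at h1
  exact mul_left_cancel₀ (cst_ne_zero hν hc) h1

/-! ### continuation in `ν` -/

theorem whit_neg (ν c : ℂ) (P : H3) : whit (-ν) c P = whit ν c P := by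
  rw [whit, whit, besselK_neg]

theorem continuous_whit_joint {c : ℂ} (hc : c ≠ 0) :
    Continuous fun p : ℂ × H3 => whit p.1 c p.2 := by
  have hc0 : 0 < ‖c‖ := norm_pos_iff.mpr hc
  unfold whit
  refine ((continuous_e2 c).comp (continuous_z.comp continuous_snd)).mul
    ((Complex.continuous_ofReal.comp (continuous_y.comp continuous_snd)).mul
      (continuous_besselK_comp continuous_fst
        (continuous_const.mul (continuous_y.comp continuous_snd)) fun p => ?_))
  have := p.2.y_pos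
  have := Real.pi_pos
  positivity

theorem continuous_whit {ν c : ℂ} (hc : c ≠ 0) : Continuous (whit ν c) := by
  have h1 : Continuous fun Q : H3 => ((ν, Q) : ℂ × H3) := continuous_const.prodMk continuous_id
  have h2 := (continuous_whit_joint hc).comp h1
  exact h2

theorem continuous_sph {k : ℝ → ℂ} (h : IsKer k) : Continuous fun ν : ℂ => sph ν k := by
  obtain ⟨R, -, hR⟩ := h.abel_zero
  have h1 : (fun ν : ℂ => sph ν k) =
      fun ν : ℂ => ∫ t in Icc (-R) R, abel k t * Complex.exp (ν * t) := by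
    ext ν
    rw [sph, lap]
    symm
    refine setIntegral_eq_integral_of_forall_compl_eq_zero fun t ht => ?_
    rw [hR t (by
      by_contra hlt
      exact ht (abs_le.mp (not_le.mp hlt).le)), zero_mul]
  rw [h1]
  have hc := h.contDiff_abel.continuous
  have h2 : Continuous (Function.uncurry fun (ν : ℂ) (t : ℝ) => abel k t * Complex.exp (ν * t)) :=
    (hc.comp continuous_snd).mul (by fun_prop)
  exact continuous_parametric_integral_of_continuous (μ := volume) h2 isCompact_Icc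

/-- **Whittaker functions are eigenfunctions of all radial kernels.** -/
theorem integral_ker_whit {k : ℝ → ℂ} (h : IsKer k) (ν : ℂ) {c : ℂ} (hc : c ≠ 0)
    (P : H3) : ∫ Q : H3, k (cu P Q) * whit ν c Q = sph ν k * whit ν c P := by
  obtain ⟨C, hC⟩ := h.bdd
  have h1 : Continuous fun ν : ℂ => ∫ Q : H3, k (cu P Q) * whit ν c Q := by
    have h2 : (fun ν : ℂ => ∫ Q : H3, k (cu P Q) * whit ν c Q) =
        fun ν : ℂ => ∫ Q in {Q : H3 | cu P Q ≤ C}, k (cu P Q) * whit ν c Q := by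
      ext ν
      symm
      refine setIntegral_eq_integral_of_forall_compl_eq_zero fun Q hQ => ?_
      rw [hC _ (le_of_lt (not_le.mp hQ)), zero_mul]
    rw [h2]
    have h3 : Continuous (Function.uncurry fun (ν : ℂ) (Q : H3) => k (cu P Q) * whit ν c Q) :=
      (h.cont.comp (continuous_cu' continuous_const continuous_snd)).mul
        (continuous_whit_joint hc)
    exact continuous_parametric_integral_of_continuous (μ := volume) h3 (isCompact_ball P C)
  have h2 : Continuous fun ν : ℂ => sph ν k * whit ν c P := by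
    have h3 : Continuous fun ν : ℂ => ((ν, P) : ℂ × H3) := continuous_id.prodMk continuous_const
    have h4 := (continuous_whit_joint hc).comp h3
    exact (continuous_sph h).mul h4
  have h3 : {ν : ℂ | 0 ≤ ν.re} ⊆
      {ν : ℂ | ∫ Q : H3, k (cu P Q) * whit ν c Q = sph ν k * whit ν c P} := by
    rw [← Complex.closure_setOfPred_lt_re]
    exact closure_minimal (fun ν hν => integral_ker_whit_of_pos h hν hc P) (isClosed_eq h1 h2)
  rcases le_total 0 ν.re with hν | hν
  · exact h3 hν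
  · have h4 : -ν ∈ {ν : ℂ | 0 ≤ ν.re} := by
      rw [mem_ofPred_eq, Complex.neg_re]
      linarith
    have h5 := h3 h4
    simp only [mem_ofPred_eq, whit_neg, sph_neg] at h5
    exact h5

end

end Fermat.Agent.LT.H3
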