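import Fermat.Agent.LT.H3.Spherical

/-!
# Extension from compactly supported to decaying kernels (helper70)

`IsDec k C`: `k` continuous and `‖k t‖ ≤ C / t ^ 3` on `[1, ∞)` (for instance Gaussians in `t`).
* `IsDec.integrable`: `Q ↦ k (cu P Q)` is integrable;
* `IsEig.extend`: if `f` is bounded and `Rk k f = sph ν k * f` for compactly supported kernels,
  `|Re ν| ≤ 1`, then `Rk k f = (∫ abel k t * cosh (ν t) dt) * f` for all `k` with `IsDec k C`.
-/

set_option autoImplicit false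

open MeasureTheory Set Real Filter Topology

namespace Fermat.Agent.LT.H3

/-- decaying kernels -/
structure IsDec (k : ℝ → ℂ) (C : ℝ) : Prop where
  cont : Continuous k
  dec : ∀ t, 1 ≤ t → ‖k t‖ ≤ C * (t ^ 3)⁻¹

/-- cutoff -/
noncomputable def cut (n : ℕ) (t : ℝ) : ℝ := max 0 (min 1 (n + 1 - t))

theorem cut_nonneg (n : ℕ) (t : ℝ) : 0 ≤ cut n t := le_max_left _ _

theorem cut_le_one (n : ℕ) (t : ℝ) : cut n t ≤ 1 := max_le zero_le_one (min_le_left _ _)

theorem cut_eq_one {n : ℕ} {t : ℝ} (h : t ≤ n) : cut n t = 1 := by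
  rw [cut, min_eq_left (by linarith), max_eq_right zero_le_one]

theorem cut_eq_zero {n : ℕ} {t : ℝ} (h : n + 1 ≤ t) : cut n t = 0 := by
  rw [cut]
  exact max_eq_left ((min_le_right _ _).trans (by linarith))

theorem continuous_cut (n : ℕ) : Continuous (cut n) :=
  continuous_const.max (continuous_const.min (continuous_const.sub continuous_id))

theorem cut_eventually (t : ℝ) : ∀ᶠ n : ℕ in atTop, cut n t = 1 := by
  filter_upwards [eventually_ge_atTop ⌈t⌉₊] with n hn
  exact cut_eq_one ((Nat.le_ceil t).trans (by exact_mod_cast hn))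

/-- truncated kernel -/
noncomputable def trunc (k : ℝ → ℂ) (n : ℕ) (t : ℝ) : ℂ := k t * (cut n t : ℂ)

theorem isKer_trunc {k : ℝ → ℂ} (hk : Continuous k) (n : ℕ) : IsKer (trunc k n) := by
  refine ⟨hk.mul (Complex.continuous_ofReal.comp (continuous_cut n)), n + 1, fun t ht => ?_⟩
  rw [trunc, cut_eq_zero ht, Complex.ofReal_zero, mul_zero]

theorem norm_trunc_le (k : ℝ → ℂ) (n : ℕ) (t : ℝ) : ‖trunc k n t‖ ≤ ‖k t‖ := by
  rw [trunc, norm_mul, Complex.norm_real, Real.norm_eq_abs, abs_of_nonneg (cut_nonneg n t)]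
  exact mul_le_of_le_one_right (norm_nonneg _) (cut_le_one n t)

theorem tendsto_trunc (k : ℝ → ℂ) (t : ℝ) : Tendsto (fun n => trunc k n t) atTop (𝓝 (k t)) := by
  refine tendsto_const_nhds.congr' ?_
  filter_upwards [cut_eventually t] with n hn
  rw [trunc, hn, Complex.ofReal_one, mul_one]

theorem rpow_neg_three {t : ℝ} (ht : 0 < t) : t ^ (-3 : ℝ) = (t ^ 3)⁻¹ := by
  rw [Real.rpow_neg ht.le]
  norm_cast

theorem integrableOn_inv_cube {c : ℝ} (hc : 0 < c) :
    IntegrableOn (fun t : ℝ => (t ^ 3)⁻¹) (Ioi c) :=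
  (integrableOn_Ioi_rpow_of_lt (by norm_num : (-3 : ℝ) < -1) hc).congr_fun
    (fun _ ht => rpow_neg_three (hc.trans ht)) measurableSet_Ioi

theorem integral_inv_cube {c : ℝ} (hc : 0 < c) :
    ∫ t in Ioi c, (t ^ 3)⁻¹ = (2 * c ^ 2)⁻¹ := by
  rw [← setIntegral_congr_fun measurableSet_Ioi
    (fun t (ht : t ∈ Ioi c) => rpow_neg_three (hc.trans ht)),
    integral_Ioi_rpow_of_lt (by norm_num : (-3 : ℝ) < -1) hc]
  have h4 : c ^ ((-3 : ℝ) + 1) = (c ^ 2)⁻¹ := by
    rw [show (-3 : ℝ) + 1 = -2 by norm_num, Real.rpow_neg hc.le]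
    norm_cast
  rw [h4]
  field_simp
  norm_num

/-- bound for the Abel transform -/
theorem norm_abel_le {k : ℝ → ℂ} {C : ℝ} (h : ∀ t, 1 ≤ t → ‖k t‖ ≤ C * (t ^ 3)⁻¹) (r : ℝ) :
    ‖abel k r‖ ≤ π * C * (cosh r ^ 2)⁻¹ := by
  have hc := Real.cosh_pos r
  have h1 : ‖∫ t in Ioi (cosh r), k t‖ ≤ ∫ t in Ioi (cosh r), C * (t ^ 3)⁻¹ := by
    refine norm_integral_le_of_norm_le ((integrableOn_inv_cube hc).const_mul C) ?_
    refine (ae_restrict_iff' measurableSet_Ioi).mpr (Eventually.of_forall fun t ht => ?_)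
    exact h t ((Real.one_le_cosh r).trans (le_of_lt ht))
  rw [integral_const_mul, integral_inv_cube hc] at h1
  rw [abel, norm_smul, Real.norm_eq_abs, abs_of_pos (by positivity)]
  calc 2 * π * ‖∫ t in Ioi (cosh r), k t‖ ≤ 2 * π * (C * (2 * cosh r ^ 2)⁻¹) := by gcongr
    _ = π * C * (cosh r ^ 2)⁻¹ := by field_simp

theorem inv_cosh_le (t : ℝ) : (cosh t)⁻¹ ≤ 4 * (1 + t ^ 2)⁻¹ := by
  have h1 : (1 + t ^ 2) / 4 ≤ cosh t := by
    rw [← Real.cosh_abs, Real.cosh_eq]
    have h2 := Real.quadratic_le_exp_of_nonneg (abs_nonneg t)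
    have h3 := Real.exp_pos (-|t|)
    have h4 := abs_nonneg t
    have h5 := sq_abs t
    nlinarith
  rw [show 4 * (1 + t ^ 2)⁻¹ = ((1 + t ^ 2) / 4)⁻¹ by rw [inv_div]; ring]
  exact inv_anti₀ (by positivity) h1

theorem integrable_inv_cosh : Integrable fun t : ℝ => (cosh t)⁻¹ := by
  refine (integrable_inv_one_add_sq.const_mul 4).mono'
    (Real.continuous_cosh.inv₀ fun t => (Real.cosh_pos t).ne').aestronglyMeasurable
    (Eventually.of_forall fun t => ?_)
  rw [Real.norm_eq_abs, abs_of_pos (inv_pos.mpr (Real.cosh_pos t))]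
  exact inv_cosh_le t

theorem norm_cosh_le (z : ℂ) : ‖Complex.cosh z‖ ≤ cosh z.re := by
  rw [Complex.cosh, Real.cosh_eq, norm_div, Complex.norm_ofNat]
  gcongr
  refine (norm_add_le _ _).trans ?_
  rw [Complex.norm_exp, Complex.norm_exp, Complex.neg_re]

theorem norm_cosh_mul_le {ν : ℂ} (hν : |ν.re| ≤ 1) (t : ℝ) :
    ‖Complex.cosh (ν * t)‖ ≤ cosh t := by
  refine (norm_cosh_le _).trans ?_
  rw [Complex.re_mul_ofReal, Real.cosh_le_cosh, abs_mul]
  exact mul_le_of_le_one_left (abs_nonneg t) hν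

/-- the spherical transform as an integral against `cosh` -/
noncomputable def sphC (ν : ℂ) (k : ℝ → ℂ) : ℂ := ∫ t : ℝ, abel k t * Complex.cosh (ν * t)

theorem norm_integrand_le {k : ℝ → ℂ} {C : ℝ} (h : ∀ t, 1 ≤ t → ‖k t‖ ≤ C * (t ^ 3)⁻¹) {ν : ℂ}
    (hν : |ν.re| ≤ 1) (t : ℝ) :
    ‖abel k t * Complex.cosh (ν * t)‖ ≤ π * C * (cosh t)⁻¹ := by
  have hc := Real.cosh_pos t
  have hC : 0 ≤ C := by
    have := (norm_nonneg _).trans (h 1 le_rfl)
    simpa using this
  rw [norm_mul]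
  calc ‖abel k t‖ * ‖Complex.cosh (ν * t)‖ ≤ (π * C * (cosh t ^ 2)⁻¹) * cosh t := by
        gcongr
        · exact norm_abel_le h t
        · exact norm_cosh_mul_le hν t
    _ = π * C * (cosh t)⁻¹ := by field_simp

namespace IsDec

variable {k : ℝ → ℂ} {C : ℝ} (hd : IsDec k C)

include hd in
theorem nonneg : 0 ≤ C := by
  have := (norm_nonneg _).trans (hd.dec 1 le_rfl)
  simpa using this

include hd in
theorem dec_trunc (n : ℕ) (t : ℝ) (ht : 1 ≤ t) : ‖trunc k n t‖ ≤ C * (t ^ 3)⁻¹ :=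
  (norm_trunc_le k n t).trans (hd.dec t ht)

include hd in
theorem tendsto_abel (r : ℝ) : Tendsto (fun n => abel (trunc k n) r) atTop (𝓝 (abel k r)) := by
  have hc := Real.cosh_pos r
  refine Tendsto.const_smul ?_ (2 * π)
  refine tendsto_integral_of_dominated_convergence (fun t => C * (t ^ 3)⁻¹)
    (fun n => (isKer_trunc hd.cont n).cont.aestronglyMeasurable)
    ((integrableOn_inv_cube hc).const_mul C) (fun n => ?_)
    (Eventually.of_forall fun t => tendsto_trunc k t)
  refine (ae_restrict_iff' measurableSet_Ioi).mpr (Eventually.of_forall fun t ht => ?_)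
  exact hd.dec_trunc n t ((Real.one_le_cosh r).trans (le_of_lt ht))

include hd in
theorem tendsto_sph {ν : ℂ} (hν : |ν.re| ≤ 1) :
    Tendsto (fun n => sph ν (trunc k n)) atTop (𝓝 (sphC ν k)) := by
  simp_rw [fun n => sph_eq_cosh (isKer_trunc hd.cont n) ν]
  refine tendsto_integral_of_dominated_convergence (fun t => π * C * (cosh t)⁻¹)
    (fun n => ?_) (integrable_inv_cosh.const_mul _)
    (fun n => Eventually.of_forall fun t => norm_integrand_le (hd.dec_trunc n) hν t)
    (Eventually.of_forall fun t => (hd.tendsto_abel t).mul_const _)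
  exact ((isKer_trunc hd.cont n).contDiff_abel.continuous.mul
    (continuous_cosh' ν)).aestronglyMeasurable

end IsDec

theorem hpow_neg_one (P : H3) : hpow (-1) P = 1 := by
  have h : (P.y : ℂ) ≠ 0 := by exact_mod_cast P.y_ne
  rw [hpow, neg_one_mul, Complex.exp_neg, ← Complex.ofReal_exp, Real.exp_log P.y_pos,
    mul_inv_cancel₀ h]

/-- total mass of a compactly supported kernel -/
theorem integral_ker {k : ℝ → ℂ} (hk : IsKer k) (P : H3) : ∫ Q : H3, k (cu P Q) = sph 1 k := by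
  have h := Rk_hpow hk (-1) P
  rw [hpow_neg_one, mul_one, sph_neg] at h
  rw [← h, Rk]
  refine integral_congr_ae (Eventually.of_forall fun Q => ?_)
  change k (cu P Q) = k (cu P Q) * hpow (-1) Q
  rw [hpow_neg_one, mul_one]

theorem norm_sph_one_le {k : ℝ → ℂ} (hk : IsKer k) {C : ℝ}
    (h : ∀ t, 1 ≤ t → ‖k t‖ ≤ C * (t ^ 3)⁻¹) :
    ‖sph 1 k‖ ≤ ∫ t : ℝ, π * C * (cosh t)⁻¹ := by
  rw [sph_eq_cosh hk]
  exact norm_integral_le_of_norm_le (integrable_inv_cosh.const_mul _)
    (Eventually.of_forall fun t => norm_integrand_le h (by simp) t)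

theorem aecover_ball (P : H3) : AECover (volume : Measure H3) atTop
    fun n : ℕ => {Q : H3 | cu P Q ≤ n} := by
  refine ⟨Eventually.of_forall fun Q => ?_, fun n => ?_⟩
  · filter_upwards [eventually_ge_atTop ⌈cu P Q⌉₊] with n hn
    exact (Nat.le_ceil _).trans (by exact_mod_cast hn)
  · exact (isClosed_le (continuous_cu_right P) continuous_const).measurableSet

theorem IsDec.integrable {k : ℝ → ℂ} {C : ℝ} (hd : IsDec k C) (P : H3) :
    Integrable fun Q : H3 => k (cu P Q) := by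
  have hcont : Continuous fun Q : H3 => k (cu P Q) := hd.cont.comp (continuous_cu_right P)
  refine (aecover_ball P).integrable_of_integral_norm_bounded (∫ t : ℝ, π * C * (cosh t)⁻¹)
    (fun n => hcont.continuousOn.integrableOn_compact (isCompact_ball P n))
    (Eventually.of_forall fun n => ?_)
  -- the norm kernel
  set K : ℝ → ℂ := fun t => ((‖k t‖ : ℝ) : ℂ) with hK
  have hKc : Continuous K := Complex.continuous_ofReal.comp hd.cont.norm
  have hKd : ∀ t, 1 ≤ t → ‖K t‖ ≤ C * (t ^ 3)⁻¹ := by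
    intro t ht
    rw [hK]
    simp only [Complex.norm_real, norm_norm]
    exact hd.dec t ht
  have hKn : ∀ t, 1 ≤ t → ‖trunc K n t‖ ≤ C * (t ^ 3)⁻¹ := fun t ht =>
    (norm_trunc_le K n t).trans (hKd t ht)
  have h1 := norm_sph_one_le (isKer_trunc hKc n) hKn
  rw [← integral_ker (isKer_trunc hKc n) P] at h1
  refine le_trans ?_ h1
  have h2 : ∫ Q : H3, trunc K n (cu P Q) = ((∫ Q : H3, ‖k (cu P Q)‖ * cut n (cu P Q) : ℝ) : ℂ) := by
    rw [← integral_complex_ofReal]
    refine integral_congr_ae (Eventually.of_forall fun Q => ?_)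
    change ((‖k (cu P Q)‖ : ℝ) : ℂ) * (cut n (cu P Q) : ℂ) = _
    push_cast
    rfl
  have hnn : ∀ Q : H3, 0 ≤ ‖k (cu P Q)‖ * cut n (cu P Q) := fun Q =>
    mul_nonneg (norm_nonneg _) (cut_nonneg _ _)
  rw [h2, Complex.norm_real, Real.norm_eq_abs, abs_of_nonneg (integral_nonneg hnn)]
  have hci : Continuous fun Q : H3 => ‖k (cu P Q)‖ * cut n (cu P Q) :=
    hcont.norm.mul ((continuous_cut n).comp (continuous_cu_right P))
  have hcs : HasCompactSupport fun Q : H3 => ‖k (cu P Q)‖ * cut n (cu P Q) :=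
    HasCompactSupport.intro (isCompact_ball P (n + 1)) fun Q hQ => by
      have : (n : ℝ) + 1 < cu P Q := not_le.mp hQ
      rw [cut_eq_zero this.le, mul_zero]
  have hint := hci.integrable_of_hasCompactSupport hcs (μ := (volume : Measure H3))
  calc ∫ Q in {Q : H3 | cu P Q ≤ n}, ‖k (cu P Q)‖
      = ∫ Q in {Q : H3 | cu P Q ≤ n}, ‖k (cu P Q)‖ * cut n (cu P Q) := by
        refine setIntegral_congr_fun ?_ fun Q hQ => ?_
        · exact (isClosed_le (continuous_cu_right P) continuous_const).measurableSet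
        · rw [cut_eq_one hQ, mul_one]
    _ ≤ ∫ Q : H3, ‖k (cu P Q)‖ * cut n (cu P Q) :=
        setIntegral_le_integral hint (Eventually.of_forall hnn)

/-- **Extension to decaying kernels** for bounded eigenfunctions. -/
theorem IsEig.extend {f : H3 → ℂ} {ν : ℂ} (h : IsEig f (sph ν)) {B : ℝ}
    (hB : ∀ P, ‖f P‖ ≤ B) (hν : |ν.re| ≤ 1) {k : ℝ → ℂ} {C : ℝ} (hd : IsDec k C) (P : H3) :
    Rk k f P = sphC ν k * f P := by
  have h1 : Tendsto (fun n => Rk (trunc k n) f P) atTop (𝓝 (Rk k f P)) := by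
    refine tendsto_integral_of_dominated_convergence (fun Q => ‖k (cu P Q)‖ * B)
      (fun n => ?_) ((hd.integrable P).norm.mul_const B) (fun n => Eventually.of_forall fun Q => ?_)
      (Eventually.of_forall fun Q => (tendsto_trunc k _).mul_const _)
    · exact (((isKer_trunc hd.cont n).continuous_cu P).mul h.cont).aestronglyMeasurable
    · rw [norm_mul]
      exact mul_le_mul (norm_trunc_le k n _) (hB Q) (norm_nonneg _) (norm_nonneg _)
  have h2 : Tendsto (fun n => Rk (trunc k n) f P) atTop (𝓝 (sphC ν k * f P)) := by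
    simp_rw [fun n => h.eig _ (isKer_trunc hd.cont n) P]
    exact (hd.tendsto_sph hν).mul_const _
  exact tendsto_nhds_unique h1 h2

/-- the same for the kernel of an eigenfunction given only through `sph ν` -/
theorem integral_dec {k : ℝ → ℂ} {C : ℝ} (hd : IsDec k C) (P : H3) :
    ∫ Q : H3, k (cu P Q) = sphC 1 k := by
  have e : IsEig (fun _ : H3 => (1 : ℂ)) (sph 1) := by
    refine ⟨continuous_const, fun k hk P => ?_⟩
    rw [Rk, mul_one, ← integral_ker hk P]
    simp
  have h := e.extend (B := 1) (by simp) (by simp) hd P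
  rw [mul_one] at h
  rw [← h, Rk]
  simp

end Fermat.Agent.LT.H3
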